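import Fermat.Agent.S28.UnitRN
import Fermat.Prelude.Def_ModularCurve_X0ModL

/-!
# S28 (Igusa), piece 83-P6b: the expansions of all conjugates of `j(dτ)`, `d ∣ N`

* `expInf_compSL_jR`: for every `γ ∈ SL(2,ℤ)` the expansion at `∞` of `j(d · γτ)` is
  `twSer Kbar a e ζ (jqModC Kbar)` `= j(ζ t^(a e))` with `a = gcd(d, γ₁₀)`, `a d' = d`, `d' e = N`,
  `ζ ^ d' = 1`;
* formal facts over every field: `order_twSer_jq` `= -(e a)`, `leadingCoeff_twSer_jq = ζ⁻¹`,
  `twSer_jq_mem_coeffSubring`, `coeffMap_twSer_jq`.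
-/

set_option autoImplicit false

open UpperHalfPlane hiding I
open Complex Function
open scoped MatrixGroups Manifold Modular Real

namespace Fermat.Agent.S28

open Fermat.Agent.FF

section formal

variable {R : Type*} [Field R]

theorem jqModC_ne_zero' : ModularCurve.jqModC R ≠ 0 :=
  ModularCurve.jqModC_ne_zero_of_nontrivial R

theorem order_jqModC' : (ModularCurve.jqModC R).order = -1 := by
  apply le_antisymm
  · apply HahnSeries.order_le_of_coeff_ne_zero
    rw [ModularCurve.coeff_jqModC_neg_one]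
    exact one_ne_zero
  · by_contra h
    have h1 := ModularCurve.coeff_jqModC_of_lt R (not_le.mp h)
    exact jqModC_ne_zero' (R := R) (HahnSeries.coeff_order_eq_zero.mp h1)

theorem leadingCoeff_jqModC' : (ModularCurve.jqModC R).leadingCoeff = 1 := by
  rw [HahnSeries.leadingCoeff_eq, order_jqModC', ModularCurve.coeff_jqModC_neg_one]

theorem jqModC_mem_coeffSubring (A : Subring R) : ModularCurve.jqModC R ∈ coeffSubring A := by
  rw [mem_coeffSubring]
  intro n
  rw [ModularCurve.coeff_jqModC_eq_intCast]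
  exact intCast_mem A _

theorem twSer_jq_ne_zero (a e : ℕ) [NeZero a] [NeZero e] {ζ : R} (hζ : ζ ≠ 0) :
    twSer R a e ζ (ModularCurve.jqModC R) ≠ 0 :=
  twSer_ne_zero a e hζ jqModC_ne_zero'

/-- the conjugate `j(ζ t^(a e))` has a pole of order `e a` -/
theorem order_twSer_jq (a e : ℕ) [NeZero a] [NeZero e] {ζ : R} (hζ : ζ ≠ 0) :
    (twSer R a e ζ (ModularCurve.jqModC R)).order = -((e : ℤ) * a) := by
  rw [order_twSer a e hζ jqModC_ne_zero', order_jqModC']
  ring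

/-- the leading coefficient of the conjugate `j(ζ t^(a e))` is `ζ⁻¹` -/
theorem leadingCoeff_twSer_jq (a e : ℕ) [NeZero a] [NeZero e] {ζ : R} (hζ : ζ ≠ 0) :
    (twSer R a e ζ (ModularCurve.jqModC R)).leadingCoeff = ζ⁻¹ := by
  rw [leadingCoeff_twSer a e hζ jqModC_ne_zero', order_jqModC', leadingCoeff_jqModC', mul_one,
    zpow_neg_one]

/-- **integrality** of the expansions of the conjugates of `j(dτ)` -/
theorem twSer_jq_mem_coeffSubring {A : Subring R} (a e : ℕ) [NeZero a] [NeZero e] {ζ : R}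
    (h1 : ζ ∈ A) (h2 : ζ⁻¹ ∈ A) : twSer R a e ζ (ModularCurve.jqModC R) ∈ coeffSubring A :=
  twSer_mem_coeffSubring a e h1 h2 (jqModC_mem_coeffSubring A)

theorem coeffMap_twSer_jq {S : Type*} [Field S] (f : R →+* S) (a e : ℕ) [NeZero a] [NeZero e]
    (ζ : R) :
    ModularCurve.coeffMap f (twSer R a e ζ (ModularCurve.jqModC R)) =
      twSer S a e (f ζ) (ModularCurve.jqModC S) := by
  rw [coeffMap_twSer, ModularCurve.coeffMap_jqModC]

end formal

theorem coeffEmb_jq_eq_jqModC (K : Type*) [Field K] [CharZero K] :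
    ModularCurve.coeffEmb K ModularCurve.jq = ModularCurve.jqModC K := by
  rw [← ModularCurve.jqModC_rat]
  exact ModularCurve.coeffMap_jqModC _

/-- the expansions of the conjugates of `j(dτ)`, over `ℚ̄` -/
theorem exists_isExpK_jFun_scale (N d : ℕ) [NeZero N] [NeZero d] (hd : d ∣ N) (γ : SL(2, ℤ)) :
    ∃ (a d' e : ℕ) (_ : NeZero a) (_ : NeZero e) (ζ : Kbar), a * d' = d ∧ d' * e = N ∧
      Int.gcd (d : ℤ) (γ 1 0) = a ∧ ζ ^ d' = 1 ∧
      IsExpK N (twSer Kbar a e ζ (ModularCurve.jqModC Kbar))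
        (fun τ => jFun (scaleH d (γ • τ))) := by
  have hN : 0 < N := Nat.pos_of_ne_zero (NeZero.ne N)
  have hdpos : 0 < d := Nat.pos_of_ne_zero (NeZero.ne d)
  obtain ⟨δ, a, d', b, ha, hd', had, e00, -, e10, -, hact⟩ := exists_hnf_scale_full d hdpos γ
  have hd'N : d' ∣ N := (Dvd.intro_left a had).trans hd
  obtain ⟨e, he⟩ := hd'N
  have he0 : e ≠ 0 := by
    rintro rfl
    simp at he
    exact hN.ne' he
  have : NeZero a := ⟨ha.ne'⟩
  have : NeZero e := ⟨he0⟩
  obtain ⟨ζ, hζ⟩ := exists_preimage_of_pow_eq_one iotaK d' hd' (zetaC b d') (zetaC_pow b d' hd')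
  have hζd : ζ ^ d' = 1 := by
    apply iotaK_injective
    rw [map_pow, hζ, zetaC_pow b d' hd', map_one]
  refine ⟨a, d', e, ⟨ha.ne'⟩, ⟨he0⟩, ζ, had, he.symm, hnf_gcd ha had e00 e10, hζd, ?_⟩
  show IsExp N (iotaL _) _
  have hj : ∀ τ, jFun (affineMap a d' b ha hd' τ) = jFun (scaleH d (γ • τ)) := by
    intro τ
    rw [hact τ (scaleH d (γ • τ)) rfl, jFun_smul]
  have h2 := (isExp_jFun_affine a d' e b ha hd').congr hj
  have hlev : 1 * d' * e = N := by rw [one_mul, he]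
  rw [hlev] at h2
  have h3 : iotaL (twSer Kbar a e ζ (ModularCurve.jqModC Kbar)) =
      ModularCurve.qExpand ℂ e (ModularCurve.qExpand ℂ a
        (dmul (fun n => cexp (2 * π * I * b / (((1 : ℕ) : ℂ) * d')) ^ n)
          (ModularCurve.coeffEmb ℂ ModularCurve.jq))) := by
    rw [iotaL, coeffMap_twSer_jq, hζ, coeffEmb_jq_eq_jqModC ℂ]
    rfl
  rw [h3]
  exact h2

section RN

variable (N d : ℕ) [NeZero N] [NeZero d]

/-- **83-P6b**: the expansions at `∞` of all conjugates of `j(dτ)`, `d ∣ N` -/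
theorem expInf_compSL_jR (hd : d ∣ N) (γ : SL(2, ℤ)) :
    ∃ (a d' e : ℕ) (_ : NeZero a) (_ : NeZero e) (ζ : Kbar), a * d' = d ∧ d' * e = N ∧
      Int.gcd (d : ℤ) (γ 1 0) = a ∧ ζ ^ d' = 1 ∧
      expInf N (compSL N γ (jR N d hd)) = twSer Kbar a e ζ (ModularCurve.jqModC Kbar) := by
  obtain ⟨a, d', e, i1, i2, ζ, h1, h2, h3, h4, h5⟩ := exists_isExpK_jFun_scale N d hd γ
  exact ⟨a, d', e, i1, i2, ζ, h1, h2, h3, h4, expInf_eq h5⟩

end RN

/-- **83-P6b**, the case `d = N` used for the conjugates of `j_N = j(Nτ)`: the expansion is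
`j(ζ t^(a²))`, `a = gcd(N, γ₁₀)`, `ζ ^ (N/a) = 1` -/
theorem expInf_compSL_jRN (N : ℕ) [NeZero N] (γ : SL(2, ℤ)) :
    ∃ (a d' : ℕ) (_ : NeZero a) (ζ : Kbar), a * d' = N ∧
      Int.gcd (N : ℤ) (γ 1 0) = a ∧ ζ ^ d' = 1 ∧
      expInf N (compSL N γ (jR N N dvd_rfl)) = twSer Kbar a a ζ (ModularCurve.jqModC Kbar) := by
  obtain ⟨a, d', e, i1, i2, ζ, h1, h2, h3, h4, h5⟩ := expInf_compSL_jR N N dvd_rfl γ
  have hd' : 0 < d' := by
    rcases Nat.eq_zero_or_pos d' with h | h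
    · subst h
      simp at h1
      exact absurd h1.symm (NeZero.ne N)
    · exact h
  have hea : e = a := by
    have : d' * e = d' * a := by rw [h2, mul_comm, h1]
    exact Nat.eq_of_mul_eq_mul_left hd' this
  subst hea
  exact ⟨e, d', i1, ζ, h1, h3, h4, h5⟩

end Fermat.Agent.S28
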