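import Mathlib

/-!
# S28, piece 83-P8a: the abstract KEY LEMMA (field theory, Mathlib only)

`A` integrally closed domain with fraction field `K ⊆ L`.  Given pairwise distinct `r i ∈ L`
(the conjugates of `j_N`) and nonzero `u i ∈ L` (the conjugates of a unit) such that
`∏ (X - r i)`, `∏ (X - u i)`, `∏ (X - (u i)⁻¹)` have coefficients in `A` and the `u i` are
interpolated by a rational function over `A` (`u i * Hd(r i) = Hn(r i)`, `Hd (r i) ≠ 0`), the
product of the `u i` over the root set of the minimal polynomial of `r i₀` over `K` is a unit of `A`.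
-/

set_option autoImplicit false

open Polynomial IntermediateField
open scoped Classical

noncomputable section

namespace Fermat.Agent.S28.Key

section Factor

variable {L ι : Type*} [Field L] [Fintype ι]

/-- a monic divisor of a product of distinct linear factors is the product over its root set -/
theorem eq_prod_of_dvd_prod (r : ι → L) (hr : Function.Injective r) (f : L[X]) (hf : f.Monic)
    (hdvd : f ∣ ∏ i : ι, (X - C (r i))) :
    f = ∏ i ∈ Finset.univ.filter (fun i => f.eval (r i) = 0), (X - C (r i)) := by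
  have hΦ0 : (∏ i : ι, (X - C (r i))) ≠ 0 :=
    Finset.prod_ne_zero_iff.mpr (fun i _ => X_sub_C_ne_zero (r i))
  have hΦs : (∏ i : ι, (X - C (r i))).Splits :=
    Splits.prod (fun i _ => Splits.X_sub_C (r i))
  have hfs : f.Splits := Splits.of_dvd hΦs hΦ0 hdvd
  have hroots : (∏ i : ι, (X - C (r i))).roots = (Finset.univ : Finset ι).val.map r := by
    rw [roots_prod _ _ hΦ0]
    simp [Multiset.bind_singleton]
  have hle : f.roots ≤ (Finset.univ : Finset ι).val.map r := by
    rw [← hroots]
    exact roots.le_of_dvd hΦ0 hdvd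
  have hnd : ((Finset.univ : Finset ι).val.map r).Nodup :=
    Multiset.Nodup.map hr Finset.univ.nodup
  have hfnd : f.roots.Nodup := Multiset.nodup_of_le hle hnd
  have hfr : f.roots =
      (Finset.univ.filter (fun i => f.eval (r i) = 0)).val.map r := by
    refine Multiset.Nodup.ext hfnd (Multiset.Nodup.map hr (Finset.nodup _)) |>.mpr ?_
    intro a
    simp only [mem_roots hf.ne_zero, IsRoot.def, Multiset.mem_map, Finset.mem_val,
      Finset.mem_filter, Finset.mem_univ, true_and]
    constructor
    · intro ha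
      have : a ∈ f.roots := (mem_roots hf.ne_zero).mpr ha
      obtain ⟨i, -, rfl⟩ := Multiset.mem_map.mp (Multiset.mem_of_le hle this)
      exact ⟨i, ha, rfl⟩
    · rintro ⟨i, hi, rfl⟩
      exact hi
  conv_lhs => rw [hfs.eq_prod_roots_of_monic hf, hfr]
  rw [Multiset.map_map]
  rfl

end Factor


section Norm

variable {K L ι : Type*} [Field K] [Field L] [Algebra K L] [Fintype ι]

/-- the root set of the minimal polynomial of `r i₀` over `K` among the `r i` -/
def rootSet (K : Type*) {L ι : Type*} [Field K] [Field L] [Algebra K L] [Fintype ι]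
    (r : ι → L) (i₀ : ι) : Finset ι :=
  Finset.univ.filter (fun i => aeval (r i) (minpoly K (r i₀)) = 0)

theorem mem_rootSet {r : ι → L} {i₀ i : ι} :
    i ∈ rootSet K r i₀ ↔ aeval (r i) (minpoly K (r i₀)) = 0 := by
  simp [rootSet]

theorem isIntegral_of_prod (r : ι → L) (Φ : K[X])
    (hΦ : Φ.map (algebraMap K L) = ∏ i : ι, (X - C (r i))) (i₀ : ι) : IsIntegral K (r i₀) := by
  have hmonic : Φ.Monic := by
    have : (Φ.map (algebraMap K L)).Monic := by
      rw [hΦ]; exact monic_prod_of_monic _ _ (fun i _ => monic_X_sub_C (r i))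
    exact monic_of_injective (algebraMap K L).injective this
  refine ⟨Φ, hmonic, ?_⟩
  rw [← eval_map, hΦ, eval_prod]
  exact Finset.prod_eq_zero (Finset.mem_univ i₀) (by simp)

theorem self_mem_rootSet (r : ι → L) (i₀ : ι) : i₀ ∈ rootSet K r i₀ :=
  mem_rootSet.mpr (minpoly.aeval K (r i₀))

/-- the minimal polynomial of `r i₀` splits in `L` as the product over its root set -/
theorem minpoly_map_eq_prod (r : ι → L) (hr : Function.Injective r) (Φ : K[X])
    (hΦ : Φ.map (algebraMap K L) = ∏ i : ι, (X - C (r i))) (i₀ : ι) :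
    (minpoly K (r i₀)).map (algebraMap K L) = ∏ i ∈ rootSet K r i₀, (X - C (r i)) := by
  have hint := isIntegral_of_prod r Φ hΦ i₀
  have hdvd : minpoly K (r i₀) ∣ Φ := by
    apply minpoly.dvd
    rw [← eval_map_algebraMap, hΦ, eval_prod]
    exact Finset.prod_eq_zero (Finset.mem_univ i₀) (by simp)
  have hdvd' : (minpoly K (r i₀)).map (algebraMap K L) ∣ ∏ i : ι, (X - C (r i)) := by
    rw [← hΦ]; exact Polynomial.map_dvd _ hdvd
  have h := eq_prod_of_dvd_prod r hr _ ((minpoly.monic hint).map _) hdvd'
  rw [h]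
  refine Finset.prod_congr ?_ (fun _ _ => rfl)
  ext i
  simp only [Finset.mem_filter, Finset.mem_univ, true_and, mem_rootSet, eval_map_algebraMap]

/-- **Norm step.**  If the `u i` are interpolated by `Hn / Hd` at the `r i`, the product of the
`u i` over the root set of the minimal polynomial of `r i₀` lies in `K`. -/
theorem exists_algebraMap_eq_prod_rootSet (r u : ι → L) (hr : Function.Injective r) (Φ Hn Hd : K[X])
    (hΦ : Φ.map (algebraMap K L) = ∏ i : ι, (X - C (r i)))
    (hHd : ∀ i, aeval (r i) Hd ≠ 0) (hH : ∀ i, u i * aeval (r i) Hd = aeval (r i) Hn) (i₀ : ι) :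
    ∃ n : K, algebraMap K L n = ∏ i ∈ rootSet K r i₀, u i := by
  set θ : L := r i₀ with hθdef
  have hint : IsIntegral K θ := isIntegral_of_prod r Φ hΦ i₀
  have hPmap := minpoly_map_eq_prod r hr Φ hΦ i₀
  -- separability
  have hsepL : ((minpoly K θ).map (algebraMap K L)).Separable := by
    rw [hPmap]
    exact (separable_prod_X_sub_C_iff' (s := rootSet K r i₀) (f := r)).mpr
      (fun x _ y _ hxy => hr hxy)
  have hsep : (minpoly K θ).Separable := (separable_map (algebraMap K L)).mp hsepL
  have : FiniteDimensional K K⟮θ⟯ := IntermediateField.adjoin.finiteDimensional hint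
  have : Algebra.IsSeparable K K⟮θ⟯ :=
    (IntermediateField.isSeparable_adjoin_simple_iff_isSeparable K L).mpr hsep
  let E := AlgebraicClosure L
  let gen : K⟮θ⟯ := IntermediateField.AdjoinSimple.gen K θ
  let x : K⟮θ⟯ := aeval gen Hn / aeval gen Hd
  have hnorm := Algebra.norm_eq_prod_embeddings K E x
  -- roots of the minimal polynomial in `E`
  have hPE : (minpoly K θ).map (algebraMap K E) =
      ∏ i ∈ rootSet K r i₀, (X - C (algebraMap L E (r i))) := by
    rw [IsScalarTower.algebraMap_eq K L E, ← Polynomial.map_map, hPmap, Polynomial.map_prod]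
    refine Finset.prod_congr rfl (fun i _ => ?_)
    simp
  have hmemroots : ∀ i ∈ rootSet K r i₀, algebraMap L E (r i) ∈ (minpoly K θ).aroots E := by
    intro i hi
    rw [mem_aroots]
    refine ⟨minpoly.ne_zero hint, ?_⟩
    rw [← eval_map_algebraMap, hPE, eval_prod]
    exact Finset.prod_eq_zero hi (by simp)
  -- the bijection between the root set and the embeddings
  let e₁ : {i // i ∈ rootSet K r i₀} → {ρ // ρ ∈ (minpoly K θ).aroots E} :=
    fun i => ⟨algebraMap L E (r i.1), hmemroots i.1 i.2⟩
  have he₁ : Function.Bijective e₁ := by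
    constructor
    · intro i i' h
      have h' : algebraMap L E (r i.1) = algebraMap L E (r i'.1) := congrArg Subtype.val h
      exact Subtype.ext (hr ((algebraMap L E).injective h'))
    · rintro ⟨ρ, hρ⟩
      rw [mem_aroots] at hρ
      have h0 := hρ.2
      rw [← eval_map_algebraMap, hPE, eval_prod, Finset.prod_eq_zero_iff] at h0
      obtain ⟨i, hi, hi0⟩ := h0
      refine ⟨⟨i, hi⟩, Subtype.ext ?_⟩
      simp only [eval_sub, eval_X, eval_C, sub_eq_zero] at hi0
      exact hi0.symm
  let e : {i // i ∈ rootSet K r i₀} ≃ (K⟮θ⟯ →ₐ[K] E) :=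
    (Equiv.ofBijective e₁ he₁).trans (IntermediateField.algHomAdjoinIntegralEquiv K hint).symm
  have hegen : ∀ i : {i // i ∈ rootSet K r i₀}, e i gen = algebraMap L E (r i.1) := by
    intro i
    exact IntermediateField.algHomAdjoinIntegralEquiv_symm_apply_gen K hint (e₁ i)
  have hex : ∀ i : {i // i ∈ rootSet K r i₀}, e i x = algebraMap L E (u i.1) := by
    intro i
    have h1 : ∀ H : K[X], e i (aeval gen H) = algebraMap L E (aeval (r i.1) H) := by
      intro H
      rw [← Polynomial.aeval_algHom_apply, hegen, Polynomial.aeval_algebraMap_apply]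
    simp only [x, map_div₀, h1]
    rw [← hH i.1, map_mul, mul_div_assoc, div_self, mul_one]
    exact (_root_.map_ne_zero _).mpr (hHd i.1)
  refine ⟨Algebra.norm K x, ?_⟩
  apply (algebraMap L E).injective
  rw [← IsScalarTower.algebraMap_apply, hnorm, map_prod,
    ← Finset.prod_coe_sort (rootSet K r i₀) (fun i => algebraMap L E (u i))]
  exact (Fintype.prod_equiv e _ _ (fun i => (hex i).symm)).symm

end Norm

section Integral

variable {A K L ι : Type*} [CommRing A] [IsDomain A] [IsIntegrallyClosed A]
  [Field K] [Algebra A K] [IsFractionRing A K]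
  [Field L] [Algebra K L] [Algebra A L] [IsScalarTower A K L] [Fintype ι]

omit [IsDomain A] [IsIntegrallyClosed A] [Fintype ι] in
theorem algebraMap_AL_injective (A K L : Type*) [CommRing A] [Field K] [Algebra A K]
    [IsFractionRing A K] [Field L] [Algebra K L] [Algebra A L] [IsScalarTower A K L] :
    Function.Injective (algebraMap A L) := by
  rw [IsScalarTower.algebraMap_eq A K L]
  exact (algebraMap K L).injective.comp (IsFractionRing.injective A K)

omit [IsIntegrallyClosed A] [IsFractionRing A K] [IsDomain A] in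
theorem isIntegral_of_prod' (u : ι → L) (M : A[X])
    (hM : M.map (algebraMap A L) = ∏ i : ι, (X - C (u i)))
    (hinj : Function.Injective (algebraMap A L)) (i : ι) : IsIntegral A (u i) := by
  have hmonic : M.Monic := by
    have : (M.map (algebraMap A L)).Monic := by
      rw [hM]; exact monic_prod_of_monic _ _ (fun i _ => monic_X_sub_C (u i))
    exact monic_of_injective hinj this
  refine ⟨M, hmonic, ?_⟩
  rw [← eval_map, hM, eval_prod]
  exact Finset.prod_eq_zero (Finset.mem_univ i) (by simp)

/-- **KEY LEMMA, abstract form.**  The product of the units over the root set of the minimal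
polynomial of `r i₀` is the image of a unit of `A`. -/
theorem exists_unit_eq_prod_rootSet (r u : ι → L) (hr : Function.Injective r)
    (hu : ∀ i, u i ≠ 0) (Φ Hn Hd M M' : A[X])
    (hΦ : Φ.map (algebraMap A L) = ∏ i : ι, (X - C (r i)))
    (hHd : ∀ i, aeval (r i) Hd ≠ 0) (hH : ∀ i, u i * aeval (r i) Hd = aeval (r i) Hn)
    (hM : M.map (algebraMap A L) = ∏ i : ι, (X - C (u i)))
    (hM' : M'.map (algebraMap A L) = ∏ i : ι, (X - C (u i)⁻¹)) (i₀ : ι) :
    ∃ a : Aˣ, algebraMap A L (a : A) = ∏ i ∈ rootSet K r i₀, u i := by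
  have hinjKL : Function.Injective (algebraMap K L) := (algebraMap K L).injective
  have hinjAL : Function.Injective (algebraMap A L) := algebraMap_AL_injective A K L
  have hΦK : (Φ.map (algebraMap A K)).map (algebraMap K L) = ∏ i : ι, (X - C (r i)) := by
    rw [Polynomial.map_map, ← IsScalarTower.algebraMap_eq, hΦ]
  have hHn0 : ∀ i, aeval (r i) Hn ≠ 0 := fun i => by
    rw [← hH i]; exact mul_ne_zero (hu i) (hHd i)
  obtain ⟨n, hn⟩ := exists_algebraMap_eq_prod_rootSet (K := K) r u hr (Φ.map (algebraMap A K))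
    (Hn.map (algebraMap A K)) (Hd.map (algebraMap A K)) hΦK
    (fun i => by rw [aeval_map_algebraMap]; exact hHd i)
    (fun i => by rw [aeval_map_algebraMap, aeval_map_algebraMap]; exact hH i) i₀
  obtain ⟨n', hn'⟩ := exists_algebraMap_eq_prod_rootSet (K := K) r (fun i => (u i)⁻¹) hr
    (Φ.map (algebraMap A K)) (Hd.map (algebraMap A K)) (Hn.map (algebraMap A K)) hΦK
    (fun i => by rw [aeval_map_algebraMap]; exact hHn0 i)
    (fun i => by
      rw [aeval_map_algebraMap, aeval_map_algebraMap, ← hH i, ← mul_assoc,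
        inv_mul_cancel₀ (hu i), one_mul]) i₀
  have hint : IsIntegral A n := by
    rw [← isIntegral_algebraMap_iff hinjKL, hn]
    exact IsIntegral.prod _ (fun i _ => isIntegral_of_prod' u M hM hinjAL i)
  have hint' : IsIntegral A n' := by
    rw [← isIntegral_algebraMap_iff hinjKL, hn']
    exact IsIntegral.prod _ (fun i _ => isIntegral_of_prod' (fun i => (u i)⁻¹) M' hM' hinjAL i)
  obtain ⟨a, ha⟩ := IsIntegrallyClosed.isIntegral_iff.mp hint
  obtain ⟨a', ha'⟩ := IsIntegrallyClosed.isIntegral_iff.mp hint'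
  have haL : algebraMap A L a = ∏ i ∈ rootSet K r i₀, u i := by
    rw [IsScalarTower.algebraMap_apply A K L, ha, hn]
  have haL' : algebraMap A L a' = ∏ i ∈ rootSet K r i₀, (u i)⁻¹ := by
    rw [IsScalarTower.algebraMap_apply A K L, ha', hn']
  have hmul : a * a' = 1 := by
    apply hinjAL
    rw [map_mul, haL, haL', map_one, ← Finset.prod_mul_distrib]
    exact Finset.prod_eq_one (fun i _ => mul_inv_cancel₀ (hu i))
  exact ⟨⟨a, a', hmul, by rw [mul_comm]; exact hmul⟩, haL⟩

omit [IsIntegrallyClosed A] [IsDomain A] in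
/-- if the root set is everything, `r i₀` has degree `card ι` over `K`: a polynomial over `A` of
smaller degree vanishing at `r i₀` is zero -/
theorem eq_zero_of_rootSet_eq_univ (r : ι → L) (hr : Function.Injective r) (Φ : A[X])
    (hΦ : Φ.map (algebraMap A L) = ∏ i : ι, (X - C (r i))) (i₀ : ι)
    (hI : rootSet K r i₀ = Finset.univ) (P : A[X]) (hdeg : P.natDegree < Fintype.card ι)
    (hP : aeval (r i₀) P = 0) : P = 0 := by
  have hΦK : (Φ.map (algebraMap A K)).map (algebraMap K L) = ∏ i : ι, (X - C (r i)) := by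
    rw [Polynomial.map_map, ← IsScalarTower.algebraMap_eq, hΦ]
  have hint : IsIntegral K (r i₀) := isIntegral_of_prod r _ hΦK i₀
  have hmap := minpoly_map_eq_prod r hr _ hΦK i₀
  rw [hI] at hmap
  have hdegmin : (minpoly K (r i₀)).natDegree = Fintype.card ι := by
    have h1 := congrArg natDegree hmap
    rw [natDegree_map, natDegree_prod_of_monic _ _ (fun i _ => monic_X_sub_C (r i))] at h1
    simpa using h1
  by_contra hP0
  have hPK0 : P.map (algebraMap A K) ≠ 0 :=
    (Polynomial.map_ne_zero_iff (IsFractionRing.injective A K)).mpr hP0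
  have hroot : aeval (r i₀) (P.map (algebraMap A K)) = 0 := by
    rw [aeval_map_algebraMap]; exact hP
  have h2 := natDegree_le_natDegree (minpoly.degree_le_of_ne_zero K (r i₀) hPK0 hroot)
  have h3 : (P.map (algebraMap A K)).natDegree ≤ P.natDegree := natDegree_map_le
  omega

end Integral

/-! ### The concrete layer: `A = k[X]`, `X ↦ jb ∈ k((t))` with a pole, instance-free statements -/

section Laurent

variable {k ι : Type*} [Field k] [Fintype ι]

/-- evaluation of `k[X]` at a Laurent series `jb` -/
def evJ (jb : LaurentSeries k) : Polynomial k →+* LaurentSeries k :=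
  (Polynomial.aeval jb).toRingHom

theorem evJ_X (jb : LaurentSeries k) : evJ jb X = jb := by simp [evJ]

omit [Fintype ι] in
theorem algebraMap_laurent (c : k) : algebraMap k (LaurentSeries k) c = HahnSeries.C c := by
  rw [HahnSeries.algebraMap_apply']
  simp

theorem evJ_C (jb : LaurentSeries k) (c : k) : evJ jb (C c) = HahnSeries.C c := by
  simp only [evJ, AlgHom.toRingHom_eq_coe, RingHom.coe_coe, aeval_C]
  exact algebraMap_laurent c

theorem order_coe_nonneg (f : PowerSeries k) : (0 : ℤ) ≤ ((f : LaurentSeries k)).order := by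
  by_cases h0 : (f : LaurentSeries k) = 0
  · rw [h0, HahnSeries.order_zero]
  · by_contra hlt
    rw [not_le] at hlt
    have h1 : ((f : LaurentSeries k)).coeff ((f : LaurentSeries k)).order ≠ 0 :=
      fun h => h0 (HahnSeries.coeff_order_eq_zero.mp h)
    rw [PowerSeries.coeff_coe, if_pos hlt] at h1
    exact h1 rfl

/-- a Laurent series with a pole is transcendental over `k` -/
theorem evJ_injective {jb : LaurentSeries k} (hjb : jb.order < 0) :
    Function.Injective (evJ jb) := by
  rw [injective_iff_map_eq_zero]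
  intro P hP
  by_contra hP0
  have halg : IsAlgebraic k jb := ⟨P, hP0, hP⟩
  have hint : IsIntegral k jb := halg.isIntegral
  have hint2 : IsIntegral (PowerSeries k) jb := by
    obtain ⟨Q, hQm, hQ⟩ := hint
    refine ⟨Q.map (PowerSeries.C (R := k)), hQm.map _, ?_⟩
    rw [eval₂_map]
    have hcomp : (algebraMap (PowerSeries k) (LaurentSeries k)).comp (PowerSeries.C (R := k)) =
        algebraMap k (LaurentSeries k) := by
      ext c : 1
      simp only [RingHom.comp_apply, LaurentSeries.coe_algebraMap]
      rw [HahnSeries.ofPowerSeries_C, algebraMap_laurent]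
    rw [hcomp]
    exact hQ
  obtain ⟨f, hf⟩ := (IsIntegrallyClosed.isIntegral_iff (R := PowerSeries k)).mp hint2
  have h1 := order_coe_nonneg f
  have h2 : ((f : LaurentSeries k)) = jb := hf
  rw [h2] at h1
  omega

/-- the root set of the minimal polynomial of `r i₀` over `k(jb)`, instance-free:
`i` such that every polynomial relation over `k[jb]` satisfied by `r i₀` is satisfied by `r i` -/
def rootSetJ (jb : LaurentSeries k) (r : ι → LaurentSeries k) (i₀ : ι) : Finset ι :=
  Finset.univ.filter (fun i => ∀ P : Polynomial (Polynomial k),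
    P.eval₂ (evJ jb) (r i₀) = 0 → P.eval₂ (evJ jb) (r i) = 0)

theorem mem_rootSetJ {jb : LaurentSeries k} {r : ι → LaurentSeries k} {i₀ i : ι} :
    i ∈ rootSetJ jb r i₀ ↔ ∀ P : Polynomial (Polynomial k),
      P.eval₂ (evJ jb) (r i₀) = 0 → P.eval₂ (evJ jb) (r i) = 0 := by
  simp [rootSetJ]

theorem self_mem_rootSetJ (jb : LaurentSeries k) (r : ι → LaurentSeries k) (i₀ : ι) :
    i₀ ∈ rootSetJ jb r i₀ :=
  mem_rootSetJ.mpr (fun _ h => h)

theorem order_prod_eq_sum (s : Finset ι) (f : ι → LaurentSeries k) (hf : ∀ i ∈ s, f i ≠ 0) :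
    (∏ i ∈ s, f i).order = ∑ i ∈ s, (f i).order := by
  induction s using Finset.induction_on with
  | empty => simp
  | insert a s ha ih =>
    rw [Finset.prod_insert ha, Finset.sum_insert ha,
      HahnSeries.order_mul (hf a (Finset.mem_insert_self a s))
        (Finset.prod_ne_zero_iff.mpr (fun i hi => hf i (Finset.mem_insert_of_mem hi))),
      ih (fun i hi => hf i (Finset.mem_insert_of_mem hi))]

section WithInstances

variable (jb : LaurentSeries k) (hjb : jb.order < 0)

/-- the `k[X]`-algebra structure `X ↦ jb` (local to this file) -/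
@[reducible] def algJ : Algebra (Polynomial k) (LaurentSeries k) := (evJ jb).toAlgebra

theorem faithfulJ {jb : LaurentSeries k} (hjb : jb.order < 0) :
    @FaithfulSMul (Polynomial k) (LaurentSeries k) (algJ jb).toSMul :=
  letI := algJ jb
  (faithfulSMul_iff_algebraMap_injective (Polynomial k) (LaurentSeries k)).mpr (evJ_injective hjb)

theorem rootSetJ_eq_rootSet {jb : LaurentSeries k} (hjb : jb.order < 0)
    (r : ι → LaurentSeries k) (i₀ : ι) :
    letI := algJ jb
    haveI := faithfulJ hjb
    letI := FractionRing.liftAlgebra (Polynomial k) (LaurentSeries k)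
    rootSetJ jb r i₀ = rootSet (FractionRing (Polynomial k)) r i₀ := by
  letI := algJ jb
  haveI := faithfulJ hjb
  letI := FractionRing.liftAlgebra (Polynomial k) (LaurentSeries k)
  ext i
  rw [mem_rootSetJ, mem_rootSet]
  constructor
  · intro h
    obtain ⟨b, hbM, hb⟩ := IsLocalization.integerNormalization_spec
      (nonZeroDivisors (Polynomial k)) (minpoly (FractionRing (Polynomial k)) (r i₀))
    set Q := IsLocalization.integerNormalization (nonZeroDivisors (Polynomial k))
      (minpoly (FractionRing (Polynomial k)) (r i₀)) with hQ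
    have hev : ∀ x : LaurentSeries k, Q.eval₂ (evJ jb) x =
        algebraMap (Polynomial k) (LaurentSeries k) b *
          aeval x (minpoly (FractionRing (Polynomial k)) (r i₀)) := by
      intro x
      have h1 : Q.eval₂ (evJ jb) x = aeval x (Q.map (algebraMap (Polynomial k)
          (FractionRing (Polynomial k)))) := by
        rw [aeval_map_algebraMap, aeval_def]; rfl
      rw [h1, hb, Algebra.smul_def, Polynomial.algebraMap_apply, map_mul, aeval_C,
        ← IsScalarTower.algebraMap_apply]
    have h2 := h Q (by rw [hev, minpoly.aeval, mul_zero])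
    rw [hev] at h2
    rcases mul_eq_zero.mp h2 with h3 | h3
    · exfalso
      have : b = 0 :=
        (injective_iff_map_eq_zero _).mp (evJ_injective hjb) _ h3
      exact nonZeroDivisors.ne_zero hbM this
    · exact h3
  · intro h P hP
    have h1 : ∀ x : LaurentSeries k, P.eval₂ (evJ jb) x = aeval x (P.map (algebraMap (Polynomial k)
        (FractionRing (Polynomial k)))) := by
      intro x
      rw [aeval_map_algebraMap, aeval_def]; rfl
    rw [h1] at hP ⊢
    obtain ⟨q, hq⟩ := minpoly.dvd (FractionRing (Polynomial k)) (r i₀) hP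
    rw [hq, map_mul, h, zero_mul]

/-- **KEY LEMMA** (concrete form).  `jb ∈ k((t))` with a pole, `r i` pairwise distinct, `u i ≠ 0`;
`∏ (X - r i)`, `∏ (X - u i)`, `∏ (X - (u i)⁻¹)` have coefficients in `k[jb]` and
`u i * Hd(r i) = Hn(r i)`, `Hd (r i) ≠ 0` with `Hn, Hd` over `k[jb]`.  Then the orders of the
`u i` over the root set of the minimal polynomial of `r i₀` over `k(jb)` add up to `0`. -/
theorem sum_order_rootSetJ {jb : LaurentSeries k} (hjb : jb.order < 0)
    (r u : ι → LaurentSeries k) (hr : Function.Injective r) (hu : ∀ i, u i ≠ 0)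
    (Φ Hn Hd M M' : Polynomial (Polynomial k))
    (hΦ : Φ.map (evJ jb) = ∏ i : ι, (X - C (r i)))
    (hHd : ∀ i, Hd.eval₂ (evJ jb) (r i) ≠ 0)
    (hH : ∀ i, u i * Hd.eval₂ (evJ jb) (r i) = Hn.eval₂ (evJ jb) (r i))
    (hM : M.map (evJ jb) = ∏ i : ι, (X - C (u i)))
    (hM' : M'.map (evJ jb) = ∏ i : ι, (X - C (u i)⁻¹)) (i₀ : ι) :
    ∑ i ∈ rootSetJ jb r i₀, (u i).order = 0 := by
  letI := algJ jb
  haveI := faithfulJ hjb
  letI := FractionRing.liftAlgebra (Polynomial k) (LaurentSeries k)
  rw [rootSetJ_eq_rootSet hjb r i₀]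
  obtain ⟨a, ha⟩ := exists_unit_eq_prod_rootSet (A := Polynomial k)
    (K := FractionRing (Polynomial k)) r u hr hu Φ Hn Hd M M' hΦ hHd hH hM hM' i₀
  rw [← order_prod_eq_sum _ _ (fun i _ => hu i), ← ha]
  obtain ⟨c, -, hc⟩ := Polynomial.isUnit_iff.mp a.isUnit
  have : algebraMap (Polynomial k) (LaurentSeries k) (a : Polynomial k) = HahnSeries.C c := by
    rw [← hc]; exact evJ_C jb c
  rw [this, HahnSeries.order_C]

/-- **CORE from the root set.**  If the root set is everything, then `r i₀` has degree `card ι`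
over `k(jb)`: a polynomial over `k[jb]` of smaller degree vanishing at `r i₀` is zero. -/
theorem eq_zero_of_rootSetJ_eq_univ {jb : LaurentSeries k} (hjb : jb.order < 0)
    (r : ι → LaurentSeries k) (hr : Function.Injective r) (Φ : Polynomial (Polynomial k))
    (hΦ : Φ.map (evJ jb) = ∏ i : ι, (X - C (r i))) (i₀ : ι)
    (hI : rootSetJ jb r i₀ = Finset.univ) (P : Polynomial (Polynomial k))
    (hdeg : P.natDegree < Fintype.card ι) (hP : P.eval₂ (evJ jb) (r i₀) = 0) : P = 0 := by
  letI := algJ jb
  haveI := faithfulJ hjb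
  letI := FractionRing.liftAlgebra (Polynomial k) (LaurentSeries k)
  rw [rootSetJ_eq_rootSet hjb r i₀] at hI
  exact eq_zero_of_rootSet_eq_univ (A := Polynomial k) (K := FractionRing (Polynomial k))
    r hr Φ hΦ i₀ hI P hdeg hP

/-- the relation for the full index set: if `∏ (X - u i)` and `∏ (X - (u i)⁻¹)` have coefficients
in `k[jb]`, the orders of all the `u i` add up to `0` -/
theorem sum_order_univ {jb : LaurentSeries k} (hjb : jb.order < 0)
    (u : ι → LaurentSeries k) (hu : ∀ i, u i ≠ 0) (M M' : Polynomial (Polynomial k))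
    (hM : M.map (evJ jb) = ∏ i : ι, (X - C (u i)))
    (hM' : M'.map (evJ jb) = ∏ i : ι, (X - C (u i)⁻¹)) :
    ∑ i : ι, (u i).order = 0 := by
  have h0 : ∀ (w : ι → LaurentSeries k) (Q : Polynomial (Polynomial k)),
      Q.map (evJ jb) = ∏ i : ι, (X - C (w i)) →
      evJ jb ((-1) ^ Fintype.card ι * Q.eval 0) = ∏ i : ι, w i := by
    intro w Q hQ
    have h1 : (Q.map (evJ jb)).eval 0 = evJ jb (Q.eval 0) := by
      rw [eval_map, ← map_zero (evJ jb), eval₂_at_apply]
    rw [hQ, eval_prod] at h1
    simp only [eval_sub, eval_X, eval_C, zero_sub, Finset.prod_neg, Finset.card_univ] at h1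
    rw [map_mul, map_pow, map_neg, map_one, ← h1, ← mul_assoc, ← mul_pow]
    simp
  have ha := h0 u M hM
  have ha' := h0 (fun i => (u i)⁻¹) M' hM'
  set a := (-1) ^ Fintype.card ι * M.eval 0 with hadef
  set a' := (-1) ^ Fintype.card ι * M'.eval 0 with hadef'
  have hmul : a * a' = 1 := by
    apply evJ_injective hjb
    rw [map_mul, ha, ha', map_one, ← Finset.prod_mul_distrib]
    exact Finset.prod_eq_one (fun i _ => mul_inv_cancel₀ (hu i))
  obtain ⟨c, -, hc⟩ := Polynomial.isUnit_iff.mp (IsUnit.of_mul_eq_one a' hmul)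
  rw [← order_prod_eq_sum _ _ (fun i _ => hu i), ← ha, ← hc, evJ_C, HahnSeries.order_C]

end WithInstances

end Laurent

section Lagrange

variable {k ι : Type*} [Field k] [Fintype ι] [DecidableEq ι]

theorem eval_lagrange_sum (r w : ι → LaurentSeries k) (j : ι) :
    (∑ i : ι, C (w i) * ∏ i' ∈ Finset.univ.erase i, (X - C (r i'))).eval (r j) =
      w j * ∏ i' ∈ Finset.univ.erase j, (r j - r i') := by
  rw [eval_finsetSum, Finset.sum_eq_single j]
  · simp [eval_prod]
  · intro i _ hij
    rw [eval_mul, eval_prod]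
    have : ∏ i' ∈ Finset.univ.erase i, eval (r j) (X - C (r i')) = 0 :=
      Finset.prod_eq_zero (Finset.mem_erase.mpr ⟨fun h => hij h.symm, Finset.mem_univ j⟩) (by simp)
    rw [this, mul_zero]
  · intro h; exact absurd (Finset.mem_univ j) h

/-- **Lagrange interpolation**: with `G = ∑ u i ∏_{i' ≠ i} (X - r i')` over `k[jb]`, the pair
`(Hn, Hd) = (G, Φ')` satisfies the hypotheses `hHd`, `hH` of the KEY LEMMA. -/
theorem lagrange_interp {jb : LaurentSeries k} (r u : ι → LaurentSeries k)
    (hr : Function.Injective r) (Φ G : Polynomial (Polynomial k))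
    (hΦ : Φ.map (evJ jb) = ∏ i : ι, (X - C (r i)))
    (hG : G.map (evJ jb) = ∑ i : ι, C (u i) * ∏ i' ∈ Finset.univ.erase i, (X - C (r i'))) :
    (∀ i, (derivative Φ).eval₂ (evJ jb) (r i) ≠ 0) ∧
      ∀ i, u i * (derivative Φ).eval₂ (evJ jb) (r i) = G.eval₂ (evJ jb) (r i) := by
  have hD : ∀ j, (derivative Φ).eval₂ (evJ jb) (r j) =
      ∏ i' ∈ Finset.univ.erase j, (r j - r i') := by
    intro j
    rw [← eval_map, ← derivative_map, hΦ, derivative_prod_finset]
    have h1 := eval_lagrange_sum r (fun _ => (1 : LaurentSeries k)) j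
    simp only [one_mul, map_one] at h1
    rw [← h1]
    congr 1
    refine Finset.sum_congr rfl (fun i _ => ?_)
    simp
  have hne : ∀ j, ∏ i' ∈ Finset.univ.erase j, (r j - r i') ≠ 0 := by
    intro j
    refine Finset.prod_ne_zero_iff.mpr (fun i' hi' => sub_ne_zero.mpr (fun h => ?_))
    exact (Finset.mem_erase.mp hi').1 (hr h).symm
  refine ⟨fun j => by rw [hD j]; exact hne j, fun j => ?_⟩
  rw [hD j, ← eval_map, hG, eval_lagrange_sum]

end Lagrange

end Fermat.Agent.S28.Key

end
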