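/-
S28 / 83-P1 (helper6): the TRIANGULAR LEMMA.

If `J` is a Laurent series over a commutative ring `A` which "looks like `j`"
(coefficient `1` at `q^(-1)`, nothing below, all coefficients in a subring `O`), and `P ∈ A[X]`
is such that all `q`-coefficients of `P(J)` lie in `O`, then all coefficients of `P` lie in `O`.

Instances: `J = coeffEmb L jq` (any field `L` of characteristic 0) and `J = jqModC A`.
-/
import Mathlib
import Fermat.Prelude.Def_ModularCurve_JqCoeff
import Fermat.Prelude.Def_ModularCurve_LaurentCoeff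

set_option autoImplicit false

namespace Fermat.Agent.S28.Tri

open HahnSeries Polynomial

/-- `J` looks like the `q`-expansion of `j` relative to the subring `O`. -/
structure JLike {A : Type*} [CommRing A] (O : Subring A) (J : LaurentSeries A) : Prop where
  coeff_neg_one : J.coeff (-1) = 1
  coeff_lt : ∀ m : ℤ, m < -1 → J.coeff m = 0
  coeff_mem : ∀ m : ℤ, J.coeff m ∈ O

section General

variable {A : Type*} [CommRing A] {O : Subring A} {J : LaurentSeries A}

/-- products of Laurent series with coefficients in a subring have coefficients in it -/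
theorem coeff_mul_mem_of_coeff_mem {x y : LaurentSeries A}
    (hx : ∀ m : ℤ, x.coeff m ∈ O) (hy : ∀ m : ℤ, y.coeff m ∈ O) (m : ℤ) :
    (x * y).coeff m ∈ O := by
  rw [HahnSeries.coeff_mul]
  exact Subring.sum_mem _ fun ij _ => Subring.mul_mem _ (hx _) (hy _)

/-- if `x` vanishes below `a` and `y` below `b`, then `x * y` vanishes below `a + b` -/
theorem coeff_mul_eq_zero_of_lt {x y : LaurentSeries A} {a b : ℤ}
    (hx : ∀ m : ℤ, m < a → x.coeff m = 0) (hy : ∀ m : ℤ, m < b → y.coeff m = 0)
    {m : ℤ} (hm : m < a + b) : (x * y).coeff m = 0 := by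
  rw [HahnSeries.coeff_mul]
  refine Finset.sum_eq_zero fun ij hij => ?_
  rw [Finset.mem_antidiagonal] at hij
  obtain ⟨h1, h2, h3⟩ := hij
  by_cases hi : ij.1 < a
  · rw [hx _ hi, zero_mul]
  · have hj : ij.2 < b := by omega
    rw [hy _ hj, mul_zero]

/-- the lowest coefficient of a product -/
theorem coeff_mul_add_of_lt {x y : LaurentSeries A} {a b : ℤ}
    (hx : ∀ m : ℤ, m < a → x.coeff m = 0) (hy : ∀ m : ℤ, m < b → y.coeff m = 0) :
    (x * y).coeff (a + b) = x.coeff a * y.coeff b := by
  rw [HahnSeries.coeff_mul]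
  by_cases h0 : x.coeff a * y.coeff b = 0
  · rw [h0]
    refine Finset.sum_eq_zero fun ij hij => ?_
    rw [Finset.mem_antidiagonal] at hij
    obtain ⟨h1, h2, h3⟩ := hij
    by_cases hi : ij.1 < a
    · rw [hx _ hi, zero_mul]
    · by_cases hj : ij.2 < b
      · rw [hy _ hj, mul_zero]
      · have e1 : ij.1 = a := by omega
        have e2 : ij.2 = b := by omega
        rw [e1, e2, h0]
  · have hxa : x.coeff a ≠ 0 := fun h => h0 (by rw [h, zero_mul])
    have hyb : y.coeff b ≠ 0 := fun h => h0 (by rw [h, mul_zero])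
    rw [Finset.sum_eq_single (a, b)]
    · intro ij hij hne
      rw [Finset.mem_antidiagonal] at hij
      obtain ⟨h1, h2, h3⟩ := hij
      by_cases hi : ij.1 < a
      · rw [hx _ hi, zero_mul]
      · by_cases hj : ij.2 < b
        · rw [hy _ hj, mul_zero]
        · exfalso
          apply hne
          have e1 : ij.1 = a := by omega
          have e2 : ij.2 = b := by omega
          exact Prod.ext e1 e2
    · intro hnot
      exfalso
      apply hnot
      rw [Finset.mem_antidiagonal]
      exact ⟨hxa, hyb, rfl⟩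

/-- powers of a `j`-like series: coefficient `1` at `-n`, nothing below, coefficients in `O` -/
theorem JLike.pow (hJ : JLike O J) (n : ℕ) :
    (J ^ n).coeff (-(n : ℤ)) = 1 ∧ (∀ m : ℤ, m < -(n : ℤ) → (J ^ n).coeff m = 0) ∧
      ∀ m : ℤ, (J ^ n).coeff m ∈ O := by
  induction n with
  | zero =>
    refine ⟨by simp, fun m hm => ?_, fun m => ?_⟩
    · rw [pow_zero, HahnSeries.coeff_one, if_neg]
      simp only [Nat.cast_zero, neg_zero] at hm
      omega
    · rw [pow_zero, HahnSeries.coeff_one]
      split_ifs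
      · exact O.one_mem
      · exact O.zero_mem
  | succ n ih =>
    obtain ⟨h1, h2, h3⟩ := ih
    have hcast : (-((n + 1 : ℕ) : ℤ)) = -(n : ℤ) + (-1) := by push_cast; ring
    refine ⟨?_, fun m hm => ?_, fun m => ?_⟩
    · rw [pow_succ, hcast, coeff_mul_add_of_lt h2 hJ.coeff_lt, h1, hJ.coeff_neg_one, one_mul]
    · rw [pow_succ]
      exact coeff_mul_eq_zero_of_lt h2 hJ.coeff_lt (by rw [← hcast]; exact hm)
    · rw [pow_succ]
      exact coeff_mul_mem_of_coeff_mem h3 hJ.coeff_mem m

theorem JLike.coeff_pow_self (hJ : JLike O J) (n : ℕ) : (J ^ n).coeff (-(n : ℤ)) = 1 :=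
  (hJ.pow n).1

theorem JLike.coeff_pow_of_lt (hJ : JLike O J) (n : ℕ) {m : ℤ} (hm : m < -(n : ℤ)) :
    (J ^ n).coeff m = 0 :=
  (hJ.pow n).2.1 m hm

theorem JLike.coeff_pow_mem (hJ : JLike O J) (n : ℕ) (m : ℤ) : (J ^ n).coeff m ∈ O :=
  (hJ.pow n).2.2 m

/-- the structure map `A → A((q))` is `a ↦ a q^0` -/
theorem algebraMap_laurent_eq_single (a : A) :
    algebraMap A (LaurentSeries A) a = HahnSeries.single 0 a := by
  have h1 : algebraMap A (PowerSeries A) a = PowerSeries.C a := by
    simp
  rw [HahnSeries.algebraMap_apply', h1, HahnSeries.ofPowerSeries_C]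
  rfl

theorem coeff_algebraMap_mul (a : A) (x : LaurentSeries A) (m : ℤ) :
    (algebraMap A (LaurentSeries A) a * x).coeff m = a * x.coeff m := by
  rw [algebraMap_laurent_eq_single, HahnSeries.coeff_single_mul, sub_zero]

/-- coefficient of `P(J)` as a finite sum -/
theorem coeff_aeval_eq_sum (J : LaurentSeries A) (P : Polynomial A) {n : ℕ}
    (hn : P.natDegree < n) (m : ℤ) :
    (Polynomial.aeval J P).coeff m = ∑ k ∈ Finset.range n, P.coeff k * (J ^ k).coeff m := by
  rw [Polynomial.aeval_def, Polynomial.eval₂_eq_sum_range' _ hn, HahnSeries.coeff_sum]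
  refine Finset.sum_congr rfl fun k _ => ?_
  rw [coeff_algebraMap_mul]

/-- the coefficient of `q^(-n)` of `P(J)` is the coefficient of `X^n` of `P` if `deg P ≤ n` -/
theorem JLike.coeff_aeval_neg (hJ : JLike O J) (P : Polynomial A) {n : ℕ}
    (hn : P.natDegree ≤ n) : (Polynomial.aeval J P).coeff (-(n : ℤ)) = P.coeff n := by
  rw [coeff_aeval_eq_sum J P (Nat.lt_succ_of_le hn), Finset.sum_range_succ,
    hJ.coeff_pow_self, mul_one, add_eq_right]
  refine Finset.sum_eq_zero fun k hk => ?_
  rw [Finset.mem_range] at hk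
  rw [hJ.coeff_pow_of_lt k (by omega), mul_zero]

/-- `P(J)` vanishes below `-deg P` -/
theorem JLike.coeff_aeval_of_lt (hJ : JLike O J) (P : Polynomial A) {n : ℕ}
    (hn : P.natDegree ≤ n) {m : ℤ} (hm : m < -(n : ℤ)) : (Polynomial.aeval J P).coeff m = 0 := by
  rw [coeff_aeval_eq_sum J P (Nat.lt_succ_of_le hn)]
  refine Finset.sum_eq_zero fun k hk => ?_
  rw [Finset.mem_range] at hk
  rw [hJ.coeff_pow_of_lt k (by omega), mul_zero]

/-- converse direction: a polynomial with coefficients in `O` has an expansion in `O` -/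
theorem JLike.coeff_aeval_mem (hJ : JLike O J) (P : Polynomial A)
    (hP : ∀ k : ℕ, P.coeff k ∈ O) (m : ℤ) : (Polynomial.aeval J P).coeff m ∈ O := by
  rw [coeff_aeval_eq_sum J P (Nat.lt_succ_self _)]
  exact Subring.sum_mem _ fun k _ => Subring.mul_mem _ (hP k) (hJ.coeff_pow_mem k m)

/-- **Triangular lemma** (83-P1), bounded-degree form for the induction. -/
theorem JLike.coeff_mem_of_aeval_aux (hJ : JLike O J) :
    ∀ (n : ℕ) (P : Polynomial A), P.natDegree ≤ n →
      (∀ m : ℤ, (Polynomial.aeval J P).coeff m ∈ O) → ∀ k : ℕ, P.coeff k ∈ O := by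
  intro n
  induction n with
  | zero =>
    intro P hP h k
    have h0 : P.coeff 0 ∈ O := by
      have := h (-((0 : ℕ) : ℤ))
      rwa [hJ.coeff_aeval_neg P hP] at this
    rcases Nat.eq_zero_or_pos k with rfl | hk
    · exact h0
    · rw [Polynomial.coeff_eq_zero_of_natDegree_lt (by omega)]
      exact O.zero_mem
  | succ n ih =>
    intro P hP h k
    have htop : P.coeff (n + 1) ∈ O := by
      have := h (-((n + 1 : ℕ) : ℤ))
      rwa [hJ.coeff_aeval_neg P hP] at this
    set Q : Polynomial A := P - Polynomial.C (P.coeff (n + 1)) * Polynomial.X ^ (n + 1) with hQ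
    have hQcoeff : ∀ i : ℕ, Q.coeff i = if i = n + 1 then 0 else P.coeff i := by
      intro i
      rw [hQ, Polynomial.coeff_sub, Polynomial.coeff_C_mul, Polynomial.coeff_X_pow]
      split_ifs with hi
      · rw [hi, mul_one, sub_self]
      · rw [mul_zero, sub_zero]
    have hQdeg : Q.natDegree ≤ n := by
      rw [Polynomial.natDegree_le_iff_coeff_eq_zero]
      intro i hi
      rw [hQcoeff]
      split_ifs with h1
      · rfl
      · exact Polynomial.coeff_eq_zero_of_natDegree_lt (by omega)
    have hQO : ∀ m : ℤ, (Polynomial.aeval J Q).coeff m ∈ O := by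
      intro m
      rw [hQ, map_sub, map_mul, Polynomial.aeval_C, map_pow, Polynomial.aeval_X,
        HahnSeries.coeff_sub, coeff_algebraMap_mul]
      exact Subring.sub_mem _ (h m) (Subring.mul_mem _ htop (hJ.coeff_pow_mem _ m))
    have hQk := ih Q hQdeg hQO k
    rw [hQcoeff] at hQk
    split_ifs at hQk with hk
    · rw [hk]; exact htop
    · exact hQk

/-- **Triangular lemma** (83-P1): if all `q`-coefficients of `P(J)` lie in the subring `O`,
then all coefficients of `P` lie in `O`. -/
theorem JLike.coeff_mem_of_aeval (hJ : JLike O J) (P : Polynomial A)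
    (h : ∀ m : ℤ, (Polynomial.aeval J P).coeff m ∈ O) (k : ℕ) : P.coeff k ∈ O :=
  hJ.coeff_mem_of_aeval_aux P.natDegree P le_rfl h k

/-- **Triangular lemma**, lifted form: `P` comes from a polynomial over `O`. -/
theorem JLike.exists_lift_of_aeval (hJ : JLike O J) (P : Polynomial A)
    (h : ∀ m : ℤ, (Polynomial.aeval J P).coeff m ∈ O) :
    ∃ P' : Polynomial O, P'.map O.subtype = P := by
  have hmem : P ∈ Polynomial.lifts O.subtype := by
    rw [Polynomial.lifts_iff_coeff_lifts]
    intro k
    exact ⟨⟨P.coeff k, hJ.coeff_mem_of_aeval P h k⟩, rfl⟩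
  exact hmem

/-- `P(J) = 0` forces `P = 0` (in particular `J` is transcendental over `A`). -/
theorem JLike.eq_zero_of_aeval_eq_zero (hJ : JLike O J) (P : Polynomial A)
    (h : Polynomial.aeval J P = 0) : P = 0 := by
  ext k
  rw [Polynomial.coeff_zero]
  by_cases hk : k ≤ P.natDegree
  · by_contra hne
    -- use the triangular lemma for the zero subring generated: do it by hand with the order
    have key : ∀ (n : ℕ) (Q : Polynomial A), Q.natDegree ≤ n → Polynomial.aeval J Q = 0 →
        ∀ i : ℕ, Q.coeff i = 0 := by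
      intro n
      induction n with
      | zero =>
        intro Q hQ h0 i
        have h1 := hJ.coeff_aeval_neg Q hQ
        rw [h0, HahnSeries.coeff_zero] at h1
        rcases Nat.eq_zero_or_pos i with rfl | hi
        · exact h1.symm
        · exact Polynomial.coeff_eq_zero_of_natDegree_lt (by omega)
      | succ n ih =>
        intro Q hQ h0 i
        have h1 := hJ.coeff_aeval_neg Q hQ
        rw [h0, HahnSeries.coeff_zero] at h1
        have hQ' : Q.natDegree ≤ n := by
          rw [Polynomial.natDegree_le_iff_coeff_eq_zero]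
          intro j hj
          rcases Nat.lt_or_ge (n + 1) j with h2 | h2
          · exact Polynomial.coeff_eq_zero_of_natDegree_lt (by omega)
          · have : j = n + 1 := by omega
            rw [this]; exact h1.symm
        exact ih Q hQ' h0 i
    exact hne (key P.natDegree P le_rfl h k)
  · exact Polynomial.coeff_eq_zero_of_natDegree_lt (by omega)

end General

section Instances

open ModularCurve

/-- coefficients of the prelude's `jq` are integers -/
theorem exists_int_coeff_jq (m : ℤ) : ∃ z : ℤ, ModularCurve.jq.coeff m = (z : ℚ) := by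
  rw [ModularCurve.jq, HahnSeries.coeff_single_mul, one_mul]
  rcases lt_or_ge (m - -1) 0 with h | h
  · exact ⟨0, by rw [ModularCurve.ofPowerSeries_coeff_of_neg _ h, Int.cast_zero]⟩
  · obtain ⟨n, hn⟩ := Int.eq_ofNat_of_zero_le h
    rw [hn, HahnSeries.ofPowerSeries_apply_coeff, ModularCurve.jNumQ, PowerSeries.coeff_map]
    exact ⟨_, rfl⟩

/-- the `q`-expansion of `j` with coefficients in a field `L` of characteristic `0` is `j`-like
for every subring `O` of `L`. -/
theorem jLike_coeffEmb_jq (L : Type*) [Field L] [Algebra ℚ L] (O : Subring L) :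
    JLike O (ModularCurve.coeffEmb L ModularCurve.jq) where
  coeff_neg_one := by
    rw [ModularCurve.coeffEmb_coeff, ModularCurve.coeff_jq_neg_one, map_one]
  coeff_lt m hm := by
    rw [ModularCurve.coeffEmb_coeff, ModularCurve.coeff_jq_of_lt hm, map_zero]
  coeff_mem m := by
    obtain ⟨z, hz⟩ := exists_int_coeff_jq m
    rw [ModularCurve.coeffEmb_coeff, hz, map_intCast]
    exact intCast_mem O z

/-- coefficients of `jqModC A` -/
theorem coeff_jqModC (A : Type*) [CommRing A] (m : ℤ) :
    (ModularCurve.jqModC A).coeff m =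
      (HahnSeries.ofPowerSeries ℤ A (ModularCurve.jNum.map (Int.castRingHom A))).coeff (m + 1) := by
  rw [ModularCurve.jqModC, HahnSeries.coeff_single_mul, one_mul, sub_neg_eq_add]

/-- `jqModC A` is `j`-like for every subring `O` of `A`. -/
theorem jLike_jqModC (A : Type*) [CommRing A] (O : Subring A) :
    JLike O (ModularCurve.jqModC A) where
  coeff_neg_one := by
    rw [coeff_jqModC, show (-1 : ℤ) + 1 = ((0 : ℕ) : ℤ) by norm_num,
      HahnSeries.ofPowerSeries_apply_coeff, PowerSeries.coeff_map,
      PowerSeries.coeff_zero_eq_constantCoeff, ModularCurve.constantCoeff_jNum]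
    simp
  coeff_lt m hm := by
    rw [coeff_jqModC]
    exact ModularCurve.ofPowerSeries_coeff_of_neg _ (by omega)
  coeff_mem m := by
    rw [coeff_jqModC]
    rcases lt_or_ge (m + 1) 0 with h | h
    · rw [ModularCurve.ofPowerSeries_coeff_of_neg _ h]
      exact O.zero_mem
    · obtain ⟨n, hn⟩ := Int.eq_ofNat_of_zero_le h
      rw [hn, HahnSeries.ofPowerSeries_apply_coeff, PowerSeries.coeff_map]
      exact intCast_mem O _

/-- **83-P1, the form used by 83-P7**: `P ∈ L[X]`, all `q`-coefficients of `P(j)` in `O`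
`⟹` `P` has coefficients in `O`. -/
theorem triangular_coeffEmb (L : Type*) [Field L] [Algebra ℚ L] (O : Subring L)
    (P : Polynomial L)
    (h : ∀ m : ℤ, (Polynomial.aeval (ModularCurve.coeffEmb L ModularCurve.jq) P).coeff m ∈ O)
    (k : ℕ) : P.coeff k ∈ O :=
  (jLike_coeffEmb_jq L O).coeff_mem_of_aeval P h k

theorem triangular_coeffEmb_lift (L : Type*) [Field L] [Algebra ℚ L] (O : Subring L)
    (P : Polynomial L)
    (h : ∀ m : ℤ, (Polynomial.aeval (ModularCurve.coeffEmb L ModularCurve.jq) P).coeff m ∈ O) :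
    ∃ P' : Polynomial O, P'.map O.subtype = P :=
  (jLike_coeffEmb_jq L O).exists_lift_of_aeval P h

/-- `jqModC A` is transcendental: `P(j) = 0 ⟹ P = 0`, over any commutative ring. -/
theorem eq_zero_of_aeval_jqModC_eq_zero (A : Type*) [CommRing A] (P : Polynomial A)
    (h : Polynomial.aeval (ModularCurve.jqModC A) P = 0) : P = 0 :=
  (jLike_jqModC A ⊤).eq_zero_of_aeval_eq_zero P h

end Instances

end Fermat.Agent.S28.Tri
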