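import Fermat.Agent.S28.DeltaExp
import Fermat.Agent.FF.ModCusp
import Fermat.Agent.FF.ModPK

/-!
# S28 (Igusa), piece P6b-2: the formal expansions of the conjugates of the modular units

`unitSer R N a e c ζ` is the formal series (in `t = q^(1/N)`, `N = d' e`)
`c · Δ(ζ t^(a e)) / Δ(t^N)`, the expansion of `d'⁻¹² Δ((a τ + b)/d') / Δ(τ)`;
`unitInvSer` is the expansion of the inverse function.  We prove: order, leading coefficient,
coefficients in a subring, compatibility with `coeffMap`.

Also: `coeffSubring A`, the subring of the Laurent series all of whose coefficients lie in a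
subring `A`.
-/

set_option autoImplicit false

namespace Fermat.Agent.S28

open Fermat.Agent.FF

section coeffSubring

variable {R : Type*} [CommRing R]

/-- the Laurent series with all coefficients in the subring `A` -/
def coeffSubring (A : Subring R) : Subring (LaurentSeries R) where
  carrier := {x | ∀ n, x.coeff n ∈ A}
  mul_mem' := by
    intro x y hx hy n
    rw [HahnSeries.coeff_mul]
    exact Subring.sum_mem A (fun ij _ => A.mul_mem (hx _) (hy _))
  one_mem' := by
    intro n
    rw [HahnSeries.coeff_one]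
    split_ifs
    · exact A.one_mem
    · exact A.zero_mem
  add_mem' := by
    intro x y hx hy n
    rw [HahnSeries.coeff_add]
    exact A.add_mem (hx n) (hy n)
  zero_mem' := by
    intro n
    rw [HahnSeries.coeff_zero]
    exact A.zero_mem
  neg_mem' := by
    intro x hx n
    rw [HahnSeries.coeff_neg]
    exact A.neg_mem (hx n)

theorem mem_coeffSubring {A : Subring R} {x : LaurentSeries R} :
    x ∈ coeffSubring A ↔ ∀ n, x.coeff n ∈ A := Iff.rfl

theorem C_mem_coeffSubring {A : Subring R} {c : R} (hc : c ∈ A) :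
    (HahnSeries.C c : LaurentSeries R) ∈ coeffSubring A := by
  intro n
  rw [HahnSeries.C_apply, HahnSeries.coeff_single]
  split_ifs
  · exact hc
  · exact A.zero_mem

theorem single_mem_coeffSubring {A : Subring R} {c : R} (hc : c ∈ A) (k : ℤ) :
    (HahnSeries.single k c : LaurentSeries R) ∈ coeffSubring A := by
  intro n
  rw [HahnSeries.coeff_single]
  split_ifs
  · exact hc
  · exact A.zero_mem

theorem qExpand_mem_coeffSubring {A : Subring R} (e : ℕ) [NeZero e] {x : LaurentSeries R}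
    (hx : x ∈ coeffSubring A) : ModularCurve.qExpand R e x ∈ coeffSubring A := by
  intro n
  by_cases hn : (e : ℤ) ∣ n
  · obtain ⟨k, rfl⟩ := hn
    rw [ModularCurve.qExpand_coeff_mul]
    exact hx k
  · rw [ModularCurve.qExpand_coeff_of_not_dvd e x hn]
    exact A.zero_mem

theorem dmul_mem_coeffSubring {A : Subring R} {c : ℤ → R} (hc : ∀ n, c n ∈ A)
    {x : LaurentSeries R} (hx : x ∈ coeffSubring A) : dmul c x ∈ coeffSubring A := by
  intro n
  rw [dmul_coeff]
  exact A.mul_mem (hc n) (hx n)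

theorem DeltaSer_mem_coeffSubring (A : Subring R) : DeltaSer R ∈ coeffSubring A :=
  fun n => coeff_DeltaSer_mem R A n

theorem DeltaInvSer_mem_coeffSubring (A : Subring R) : DeltaInvSer R ∈ coeffSubring A :=
  fun n => coeff_DeltaInvSer_mem R A n

/-- a series with coefficients in `A` comes from a series over `A` -/
theorem exists_coeffMap_eq_of_mem {A : Subring R} {x : LaurentSeries R}
    (hx : x ∈ coeffSubring A) :
    ∃ y : LaurentSeries A, ModularCurve.coeffMap A.subtype y = x := by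
  classical
  refine ⟨⟨fun n => ⟨x.coeff n, hx n⟩, x.isPWO_support.mono (fun n hn => ?_)⟩, ?_⟩
  · simp only [Function.mem_support, ne_eq] at hn ⊢
    intro h0
    exact hn (Subtype.ext h0)
  · ext n
    rfl

theorem coeffMap_subtype_mem (A : Subring R) (y : LaurentSeries A) :
    ModularCurve.coeffMap A.subtype y ∈ coeffSubring A :=
  fun n => (y.coeff n).2

end coeffSubring

section zpowmem

variable {R : Type*} [Field R]

theorem zpow_mem_of_mem {A : Subring R} {ζ : R} (h1 : ζ ∈ A) (h2 : ζ⁻¹ ∈ A) (n : ℤ) :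
    ζ ^ n ∈ A := by
  rcases n with k | k
  · simpa using A.pow_mem h1 k
  · rw [zpow_negSucc, ← inv_pow]
    exact A.pow_mem h2 _

theorem inv_mem_of_pow_eq_one {A : Subring R} {ζ : R} (h1 : ζ ∈ A) {d : ℕ} (hd : 0 < d)
    (hζ : ζ ^ d = 1) : ζ⁻¹ ∈ A := by
  have h0 : ζ ≠ 0 := by
    rintro rfl
    rw [zero_pow hd.ne'] at hζ
    exact zero_ne_one hζ
  have : ζ⁻¹ = ζ ^ (d - 1) := by
    rw [eq_comm, ← mul_right_inj' h0, ← pow_succ', Nat.sub_add_cancel hd, hζ, mul_inv_cancel₀ h0]
  rw [this]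
  exact A.pow_mem h1 _

end zpowmem

section defs

variable (R : Type*) [Field R]

/-- the twist `x(ζ t^(a e))` of a series `x(q)`: the expansion in `t = q^(1/(d' e))` of
`h ((a τ + b) / d')` when `x` is the expansion of `h` in `q` -/
noncomputable def twSer (a e : ℕ) [NeZero a] [NeZero e] (ζ : R) (x : LaurentSeries R) :
    LaurentSeries R :=
  ModularCurve.qExpand R e (ModularCurve.qExpand R a (dmul (fun n => ζ ^ n) x))

/-- the formal expansion `c · Δ(ζ t^(a e)) / Δ(t^N)` -/
noncomputable def unitSer (N a e : ℕ) [NeZero N] [NeZero a] [NeZero e] (c ζ : R) :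
    LaurentSeries R :=
  HahnSeries.C c * (twSer R a e ζ (DeltaSer R) * ModularCurve.qExpand R N (DeltaInvSer R))

/-- the formal expansion `c · Δ(t^N) / Δ(ζ t^(a e))` -/
noncomputable def unitInvSer (N a e : ℕ) [NeZero N] [NeZero a] [NeZero e] (c ζ : R) :
    LaurentSeries R :=
  HahnSeries.C c * (twSer R a e ζ (DeltaInvSer R) * ModularCurve.qExpand R N (DeltaSer R))

variable {R}

theorem twSer_mem_coeffSubring {A : Subring R} (a e : ℕ) [NeZero a] [NeZero e] {ζ : R}
    (h1 : ζ ∈ A) (h2 : ζ⁻¹ ∈ A) {x : LaurentSeries R} (hx : x ∈ coeffSubring A) :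
    twSer R a e ζ x ∈ coeffSubring A :=
  qExpand_mem_coeffSubring e (qExpand_mem_coeffSubring a
    (dmul_mem_coeffSubring (fun n => zpow_mem_of_mem h1 h2 n) hx))

/-- **integrality** of the expansions of the conjugates of the unit -/
theorem unitSer_mem_coeffSubring {A : Subring R} (N a e : ℕ) [NeZero N] [NeZero a] [NeZero e]
    {c ζ : R} (hc : c ∈ A) (h1 : ζ ∈ A) (h2 : ζ⁻¹ ∈ A) :
    unitSer R N a e c ζ ∈ coeffSubring A :=
  (coeffSubring A).mul_mem (C_mem_coeffSubring hc)
    ((coeffSubring A).mul_mem (twSer_mem_coeffSubring a e h1 h2 (DeltaSer_mem_coeffSubring A))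
      (qExpand_mem_coeffSubring N (DeltaInvSer_mem_coeffSubring A)))

theorem unitInvSer_mem_coeffSubring {A : Subring R} (N a e : ℕ) [NeZero N] [NeZero a] [NeZero e]
    {c ζ : R} (hc : c ∈ A) (h1 : ζ ∈ A) (h2 : ζ⁻¹ ∈ A) :
    unitInvSer R N a e c ζ ∈ coeffSubring A :=
  (coeffSubring A).mul_mem (C_mem_coeffSubring hc)
    ((coeffSubring A).mul_mem (twSer_mem_coeffSubring a e h1 h2 (DeltaInvSer_mem_coeffSubring A))
      (qExpand_mem_coeffSubring N (DeltaSer_mem_coeffSubring A)))

theorem DeltaSer_ne_zero : DeltaSer R ≠ 0 := by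
  intro h
  have := coeff_DeltaSer_one R
  rw [h] at this
  simp at this

theorem DeltaInvSer_ne_zero : DeltaInvSer R ≠ 0 := by
  intro h
  have := coeff_DeltaInvSer_neg_one R
  rw [h] at this
  simp at this

theorem order_DeltaSer : (DeltaSer R).order = 1 :=
  order_eq_of_coeff (by rw [coeff_DeltaSer_one]; exact one_ne_zero)
    (fun _ hm => coeff_DeltaSer_of_lt R hm)

theorem order_DeltaInvSer : (DeltaInvSer R).order = -1 :=
  order_eq_of_coeff (by rw [coeff_DeltaInvSer_neg_one]; exact one_ne_zero)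
    (fun _ hm => coeff_DeltaInvSer_of_lt R hm)

theorem leadingCoeff_DeltaSer : (DeltaSer R).leadingCoeff = 1 := by
  rw [HahnSeries.leadingCoeff_eq, order_DeltaSer, coeff_DeltaSer_one]

theorem leadingCoeff_DeltaInvSer : (DeltaInvSer R).leadingCoeff = 1 := by
  rw [HahnSeries.leadingCoeff_eq, order_DeltaInvSer, coeff_DeltaInvSer_neg_one]

theorem qExpand_ne_zero (e : ℕ) [NeZero e] {x : LaurentSeries R} (hx : x ≠ 0) :
    ModularCurve.qExpand R e x ≠ 0 :=
  fun h => hx (ModularCurve.qExpand_injective e (by rw [h, map_zero]))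

theorem leadingCoeff_qExpand (e : ℕ) [NeZero e] (x : LaurentSeries R) :
    (ModularCurve.qExpand R e x).leadingCoeff = x.leadingCoeff := by
  rw [HahnSeries.leadingCoeff_eq, HahnSeries.leadingCoeff_eq, order_qExpand,
    ModularCurve.qExpand_coeff_mul]

theorem dmul_ne_zero {c : ℤ → R} (hc : ∀ n, c n ≠ 0) {x : LaurentSeries R} (hx : x ≠ 0) :
    dmul c x ≠ 0 := by
  intro h
  have h1 : (dmul c x).coeff x.order = 0 := by rw [h]; simp
  rw [dmul_coeff] at h1
  rcases mul_eq_zero.mp h1 with h2 | h2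
  · exact hc _ h2
  · exact hx (HahnSeries.coeff_order_eq_zero.mp h2)

theorem twSer_ne_zero (a e : ℕ) [NeZero a] [NeZero e] {ζ : R} (hζ : ζ ≠ 0)
    {x : LaurentSeries R} (hx : x ≠ 0) : twSer R a e ζ x ≠ 0 :=
  qExpand_ne_zero e (qExpand_ne_zero a (dmul_ne_zero (fun n => zpow_ne_zero n hζ) hx))

theorem order_twSer (a e : ℕ) [NeZero a] [NeZero e] {ζ : R} (hζ : ζ ≠ 0)
    {x : LaurentSeries R} (hx : x ≠ 0) :
    (twSer R a e ζ x).order = (e : ℤ) * ((a : ℤ) * x.order) := by
  rw [twSer, order_qExpand, order_qExpand, dmul_order _ (fun n => zpow_ne_zero n hζ) x hx]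

theorem leadingCoeff_twSer (a e : ℕ) [NeZero a] [NeZero e] {ζ : R} (hζ : ζ ≠ 0)
    {x : LaurentSeries R} (hx : x ≠ 0) :
    (twSer R a e ζ x).leadingCoeff = ζ ^ x.order * x.leadingCoeff := by
  rw [twSer, leadingCoeff_qExpand, leadingCoeff_qExpand,
    dmul_leadingCoeff _ (fun n => zpow_ne_zero n hζ) x hx]

theorem C_ne_zero' {c : R} (hc : c ≠ 0) : (HahnSeries.C c : LaurentSeries R) ≠ 0 := by
  intro h
  have : (HahnSeries.C c : LaurentSeries R).coeff 0 = 0 := by rw [h]; simp
  rw [HahnSeries.C_apply, HahnSeries.coeff_single_same] at this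
  exact hc this

theorem unitSer_ne_zero (N a e : ℕ) [NeZero N] [NeZero a] [NeZero e] {c ζ : R}
    (hc : c ≠ 0) (hζ : ζ ≠ 0) : unitSer R N a e c ζ ≠ 0 :=
  mul_ne_zero (C_ne_zero' hc)
    (mul_ne_zero (twSer_ne_zero a e hζ DeltaSer_ne_zero) (qExpand_ne_zero N DeltaInvSer_ne_zero))

theorem unitInvSer_ne_zero (N a e : ℕ) [NeZero N] [NeZero a] [NeZero e] {c ζ : R}
    (hc : c ≠ 0) (hζ : ζ ≠ 0) : unitInvSer R N a e c ζ ≠ 0 :=
  mul_ne_zero (C_ne_zero' hc)
    (mul_ne_zero (twSer_ne_zero a e hζ DeltaInvSer_ne_zero) (qExpand_ne_zero N DeltaSer_ne_zero))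

/-- **order** of the expansion of a conjugate of the unit: `e a - N` -/
theorem order_unitSer (N a e : ℕ) [NeZero N] [NeZero a] [NeZero e] {c ζ : R}
    (hc : c ≠ 0) (hζ : ζ ≠ 0) :
    (unitSer R N a e c ζ).order = (e : ℤ) * a - N := by
  have h1 := twSer_ne_zero (R := R) a e hζ DeltaSer_ne_zero
  have h2 := qExpand_ne_zero (R := R) N DeltaInvSer_ne_zero
  rw [unitSer, HahnSeries.order_mul (C_ne_zero' hc) (mul_ne_zero h1 h2), HahnSeries.order_C,
    HahnSeries.order_mul h1 h2, order_twSer a e hζ DeltaSer_ne_zero, order_qExpand,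
    order_DeltaSer, order_DeltaInvSer]
  ring

theorem order_unitInvSer (N a e : ℕ) [NeZero N] [NeZero a] [NeZero e] {c ζ : R}
    (hc : c ≠ 0) (hζ : ζ ≠ 0) :
    (unitInvSer R N a e c ζ).order = N - (e : ℤ) * a := by
  have h1 := twSer_ne_zero (R := R) a e hζ DeltaInvSer_ne_zero
  have h2 := qExpand_ne_zero (R := R) N DeltaSer_ne_zero
  rw [unitInvSer, HahnSeries.order_mul (C_ne_zero' hc) (mul_ne_zero h1 h2), HahnSeries.order_C,
    HahnSeries.order_mul h1 h2, order_twSer a e hζ DeltaInvSer_ne_zero, order_qExpand,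
    order_DeltaSer, order_DeltaInvSer]
  ring

/-- **leading coefficient** of the expansion of a conjugate of the unit: `c ζ` -/
theorem leadingCoeff_unitSer (N a e : ℕ) [NeZero N] [NeZero a] [NeZero e] {c ζ : R}
    (hζ : ζ ≠ 0) :
    (unitSer R N a e c ζ).leadingCoeff = c * ζ := by
  rw [unitSer, HahnSeries.leadingCoeff_mul, HahnSeries.leadingCoeff_mul,
    leadingCoeff_twSer a e hζ DeltaSer_ne_zero, leadingCoeff_qExpand, order_DeltaSer,
    leadingCoeff_DeltaSer, leadingCoeff_DeltaInvSer]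
  have : (HahnSeries.C c : LaurentSeries R).leadingCoeff = c := by
    rw [HahnSeries.C_apply, HahnSeries.leadingCoeff_of_single]
  rw [this]
  simp

theorem leadingCoeff_unitInvSer (N a e : ℕ) [NeZero N] [NeZero a] [NeZero e] {c ζ : R}
    (hζ : ζ ≠ 0) :
    (unitInvSer R N a e c ζ).leadingCoeff = c * ζ⁻¹ := by
  rw [unitInvSer, HahnSeries.leadingCoeff_mul, HahnSeries.leadingCoeff_mul,
    leadingCoeff_twSer a e hζ DeltaInvSer_ne_zero, leadingCoeff_qExpand, order_DeltaInvSer,
    leadingCoeff_DeltaSer, leadingCoeff_DeltaInvSer]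
  have : (HahnSeries.C c : LaurentSeries R).leadingCoeff = c := by
    rw [HahnSeries.C_apply, HahnSeries.leadingCoeff_of_single]
  rw [this]
  simp

theorem coeffMap_C' {S : Type*} [CommRing S] (f : R →+* S) (c : R) :
    ModularCurve.coeffMap f (HahnSeries.C c) = HahnSeries.C (f c) := by
  show ModularCurve.coeffMap f (HahnSeries.single 0 c) = HahnSeries.single 0 (f c)
  exact ModularCurve.coeffMap_single f 0 c

theorem coeffMap_twSer {S : Type*} [Field S] (f : R →+* S) (a e : ℕ) [NeZero a] [NeZero e]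
    (ζ : R) (x : LaurentSeries R) :
    ModularCurve.coeffMap f (twSer R a e ζ x) = twSer S a e (f ζ) (ModularCurve.coeffMap f x) := by
  rw [twSer, twSer, ModularCurve.coeffMap_qExpand, ModularCurve.coeffMap_qExpand, coeffMap_dmul]
  simp only [map_zpow₀]

theorem coeffMap_unitSer {S : Type*} [Field S] (f : R →+* S) (N a e : ℕ) [NeZero N] [NeZero a]
    [NeZero e] (c ζ : R) :
    ModularCurve.coeffMap f (unitSer R N a e c ζ) = unitSer S N a e (f c) (f ζ) := by
  rw [unitSer, unitSer, map_mul, map_mul, coeffMap_C', coeffMap_twSer,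
    ModularCurve.coeffMap_qExpand, coeffMap_DeltaSer, coeffMap_DeltaInvSer]

theorem coeffMap_unitInvSer {S : Type*} [Field S] (f : R →+* S) (N a e : ℕ) [NeZero N]
    [NeZero a] [NeZero e] (c ζ : R) :
    ModularCurve.coeffMap f (unitInvSer R N a e c ζ) = unitInvSer S N a e (f c) (f ζ) := by
  rw [unitInvSer, unitInvSer, map_mul, map_mul, coeffMap_C', coeffMap_twSer,
    ModularCurve.coeffMap_qExpand, coeffMap_DeltaSer, coeffMap_DeltaInvSer]

end defs

end Fermat.Agent.S28
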