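import Mathlib
import Fermat.Agent.FF.ModDeg
import Fermat.Agent.S28.Triangular
import Fermat.Agent.S28.UnitSer

/-!
# S28 (Igusa), piece 83-P7, generic part (characteristic 0)

`O` a subring of `ℚ̄`.  For `Γ₀(N)`-invariant elements `a, b` of `RN N` all of whose conjugates
have expansions with coefficients in `O`:

* `exists_intPoly_of_invariant` : an `SL(2,ℤ)`-invariant element of `RN N` with `O`-integral
  expansion is `p(j)` with `p ∈ O[X]`;
* `exists_prodPoly` : `∏ᵢ (T - aᵢ)` has coefficients in `O[j]`;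
* `exists_lagrPoly` : `∑ᵢ aᵢ ∏_{i' ≠ i} (T - b_{i'})` has coefficients in `O[j]`.

Here `aᵢ = compSL N (g i)⁻¹ a` for any system `g` of representatives of the cosets `i ∈ X N`.
-/

set_option autoImplicit false
set_option linter.unusedSectionVars false

open scoped MatrixGroups

namespace Fermat.Agent.S28

open Fermat.Agent.FF Polynomial

section gen

variable (N : ℕ) [NeZero N]

/-- the expansion of a polynomial in `j` -/
theorem expInf_aeval_jR_one (p : Polynomial Kbar) :
    expInf N (Polynomial.aeval (jR N 1 (one_dvd N)) p) =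
      ModularCurve.qExpand Kbar N
        (Polynomial.aeval (ModularCurve.coeffEmb Kbar ModularCurve.jq) p) := by
  have h : (expInf N).comp (Polynomial.aeval (R := Kbar) (jR N 1 (one_dvd N))).toRingHom =
      (ModularCurve.qExpand Kbar N).comp
        (Polynomial.aeval (R := Kbar)
          (ModularCurve.coeffEmb Kbar ModularCurve.jq)).toRingHom := by
    apply Polynomial.ringHom_ext
    · intro c
      simp only [RingHom.comp_apply, AlgHom.toRingHom_eq_coe, RingHom.coe_coe,
        Polynomial.aeval_C]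
      rw [expInf_algebraMap, Tri.algebraMap_laurent_eq_single]
      exact (ModularCurve.qExpand_C (R := Kbar) (N := N) c).symm
    · simp only [RingHom.comp_apply, AlgHom.toRingHom_eq_coe, RingHom.coe_coe,
        Polynomial.aeval_X]
      rw [expInf_jR, Jd, ModularCurve.qExpand_one_apply]
  exact congrArg (fun f => f p) h

/-- **generic integrality**: an `SL(2,ℤ)`-invariant element of `RN N` whose expansion at `∞`
has coefficients in `O` is a polynomial in `j` with coefficients in `O`. -/
theorem exists_intPoly_of_invariant (O : Subring Kbar) (c : RN N)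
    (hc : ∀ γ : SL(2, ℤ), compSL N γ c = c) (hint : expInf N c ∈ coeffSubring O) :
    ∃ p : Polynomial O, c = Polynomial.aeval (jR N 1 (one_dvd N)) (p.map O.subtype) := by
  obtain ⟨p, hp⟩ := exists_aeval_eq_of_invariant N c hc
  have h1 : expInf N c = ModularCurve.qExpand Kbar N
      (Polynomial.aeval (ModularCurve.coeffEmb Kbar ModularCurve.jq) p) := by
    rw [hp, expInf_aeval_jR_one]
  have h2 : ∀ m : ℤ,
      (Polynomial.aeval (ModularCurve.coeffEmb Kbar ModularCurve.jq) p).coeff m ∈ O := by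
    intro m
    have := hint ((N : ℤ) * m)
    rwa [h1, ModularCurve.qExpand_coeff_mul] at this
  obtain ⟨P', hP'⟩ := Tri.triangular_coeffEmb_lift Kbar O p h2
  exact ⟨P', by rw [hP', hp]⟩

/-- the evaluation `O[X] → RN N`, `X ↦ j` -/
noncomputable def evJR (O : Subring Kbar) : Polynomial O →+* RN N :=
  (Polynomial.aeval (R := Kbar) (jR N 1 (one_dvd N))).toRingHom.comp
    (Polynomial.mapRingHom O.subtype)

theorem evJR_apply (O : Subring Kbar) (p : Polynomial O) :
    evJR N O p = Polynomial.aeval (jR N 1 (one_dvd N)) (p.map O.subtype) := rfl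

/-- a polynomial over `RN N` with `SL(2,ℤ)`-invariant coefficients whose expansions are
`O`-integral comes from `O[j][T]`. -/
theorem exists_poly_of_invariant_poly (O : Subring Kbar) (Q : Polynomial (RN N))
    (hinv : ∀ γ : SL(2, ℤ), Q.map (compSL N γ) = Q)
    (hint : ∀ k, expInf N (Q.coeff k) ∈ coeffSubring O) :
    ∃ P : Polynomial (Polynomial O), P.map (evJR N O) = Q := by
  have hex : ∀ k, ∃ p : Polynomial O, evJR N O p = Q.coeff k := by
    intro k
    obtain ⟨p, hp⟩ := exists_intPoly_of_invariant N O (Q.coeff k) (fun γ => by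
      rw [← Polynomial.coeff_map, hinv γ]) (hint k)
    exact ⟨p, by rw [evJR_apply, ← hp]⟩
  choose p hp using hex
  refine ⟨∑ k ∈ Finset.range (Q.natDegree + 1), Polynomial.C (p k) * Polynomial.X ^ k, ?_⟩
  rw [Polynomial.map_sum]
  conv_rhs => rw [Polynomial.as_sum_range_C_mul_X_pow Q]
  refine Finset.sum_congr rfl fun k _ => ?_
  rw [Polynomial.map_mul, Polynomial.map_pow, Polynomial.map_X, Polynomial.map_C, hp]

/-- conjugates can be computed with any representative -/
theorem compSL_inv_eq_of_mk_eq {a : RN N} (ha : IsInv0 N a) {g g' : SL(2, ℤ)}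
    (h : (QuotientGroup.mk g : X N) = QuotientGroup.mk g') :
    compSL N g⁻¹ a = compSL N g'⁻¹ a := by
  have h2 : g'⁻¹ * g ∈ CongruenceSubgroup.Gamma0 N := by
    rw [← QuotientGroup.eq]
    exact h.symm
  have h3 : g⁻¹ = (g'⁻¹ * g)⁻¹ * g'⁻¹ := by group
  rw [h3, compSL_mul, ha _ (inv_mem h2)]

/-- translation of the conjugates -/
theorem compSL_conj {a : RN N} (ha : IsInv0 N a) (g : X N → SL(2, ℤ))
    (hg : ∀ i, (QuotientGroup.mk (g i) : X N) = i) (γ : SL(2, ℤ)) (i : X N) :
    compSL N γ (compSL N (g i)⁻¹ a) = compSL N (g (γ⁻¹ • i))⁻¹ a := by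
  rw [← compSL_mul]
  have h1 : (g i)⁻¹ * γ = (γ⁻¹ * g i)⁻¹ := by group
  rw [h1]
  apply compSL_inv_eq_of_mk_eq N ha
  rw [hg (γ⁻¹ • i)]
  conv_rhs => rw [← hg i]
  rfl

variable [Fintype (X N)]

/-- the characteristic polynomial of the conjugates is `SL(2,ℤ)`-invariant -/
theorem prodPoly_map_compSL {a : RN N} (ha : IsInv0 N a) (g : X N → SL(2, ℤ))
    (hg : ∀ i, (QuotientGroup.mk (g i) : X N) = i) (γ : SL(2, ℤ)) :
    (∏ i : X N, (Polynomial.X - Polynomial.C (compSL N (g i)⁻¹ a))).map (compSL N γ) =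
      ∏ i : X N, (Polynomial.X - Polynomial.C (compSL N (g i)⁻¹ a)) := by
  classical
  rw [Polynomial.map_prod]
  refine Fintype.prod_equiv (MulAction.toPerm γ⁻¹) _ _ fun i => ?_
  rw [Polynomial.map_sub, Polynomial.map_X, Polynomial.map_C, compSL_conj N ha g hg γ i]
  rfl

/-- the Lagrange polynomial of two families of conjugates is `SL(2,ℤ)`-invariant -/
theorem lagrPoly_map_compSL [DecidableEq (X N)] {a b : RN N} (ha : IsInv0 N a)
    (hb : IsInv0 N b) (g : X N → SL(2, ℤ))
    (hg : ∀ i, (QuotientGroup.mk (g i) : X N) = i) (γ : SL(2, ℤ)) :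
    (∑ i : X N, Polynomial.C (compSL N (g i)⁻¹ a) *
        ∏ i' ∈ Finset.univ.erase i, (Polynomial.X - Polynomial.C (compSL N (g i')⁻¹ b))).map
          (compSL N γ) =
      ∑ i : X N, Polynomial.C (compSL N (g i)⁻¹ a) *
        ∏ i' ∈ Finset.univ.erase i, (Polynomial.X - Polynomial.C (compSL N (g i')⁻¹ b)) := by
  rw [Polynomial.map_sum]
  refine Fintype.sum_equiv (MulAction.toPerm γ⁻¹) _ _ fun i => ?_
  rw [Polynomial.map_mul, Polynomial.map_C, compSL_conj N ha g hg γ i, Polynomial.map_prod]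
  congr 1
  refine Finset.prod_equiv (MulAction.toPerm γ⁻¹) (fun i' => ?_) (fun i' _ => ?_)
  · simp only [Finset.mem_erase, Finset.mem_univ, and_true, ne_eq,
      EmbeddingLike.apply_eq_iff_eq]
  · rw [Polynomial.map_sub, Polynomial.map_X, Polynomial.map_C, compSL_conj N hb g hg γ i']
    rfl

/-- the subring of polynomials with coefficients in a subring -/
theorem coeff_mem_of_mem_closure_aux {S : Type*} [CommRing S] (T : Subring S)
    (Q : Polynomial S) (hQ : Q ∈ Polynomial.liftsRing T.subtype) (k : ℕ) : Q.coeff k ∈ T := by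
  obtain ⟨P, rfl⟩ := hQ
  show (Polynomial.map T.subtype P).coeff k ∈ T
  rw [Polynomial.coeff_map]
  exact (P.coeff k).2

theorem X_sub_C_mem_liftsRing {S : Type*} [CommRing S] (T : Subring S) {s : S} (hs : s ∈ T) :
    (Polynomial.X - Polynomial.C s : Polynomial S) ∈ Polynomial.liftsRing T.subtype :=
  ⟨Polynomial.X - Polynomial.C ⟨s, hs⟩, by
    show Polynomial.map T.subtype _ = _
    rw [Polynomial.map_sub, Polynomial.map_X, Polynomial.map_C]
    rfl⟩

theorem C_mem_liftsRing {S : Type*} [CommRing S] (T : Subring S) {s : S} (hs : s ∈ T) :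
    (Polynomial.C s : Polynomial S) ∈ Polynomial.liftsRing T.subtype :=
  ⟨Polynomial.C ⟨s, hs⟩, by
    show Polynomial.map T.subtype _ = _
    rw [Polynomial.map_C]
    rfl⟩

/-- **83-P7, product form** (characteristic 0): `∏ᵢ (T - aᵢ) ∈ O[j][T]`. -/
theorem exists_prodPoly (O : Subring Kbar) {a : RN N} (ha : IsInv0 N a)
    (hint : ∀ γ : SL(2, ℤ), expInf N (compSL N γ a) ∈ coeffSubring O)
    (g : X N → SL(2, ℤ)) (hg : ∀ i, (QuotientGroup.mk (g i) : X N) = i) :
    ∃ P : Polynomial (Polynomial O),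
      P.map (evJR N O) = ∏ i : X N, (Polynomial.X - Polynomial.C (compSL N (g i)⁻¹ a)) := by
  refine exists_poly_of_invariant_poly N O _ (prodPoly_map_compSL N ha g hg) fun k => ?_
  rw [← Polynomial.coeff_map, Polynomial.map_prod]
  apply coeff_mem_of_mem_closure_aux
  refine Subring.prod_mem _ fun i _ => ?_
  rw [Polynomial.map_sub, Polynomial.map_X, Polynomial.map_C]
  exact X_sub_C_mem_liftsRing _ (hint _)

/-- **83-P7, Lagrange form** (characteristic 0):
`∑ᵢ aᵢ ∏_{i' ≠ i} (T - b_{i'}) ∈ O[j][T]`. -/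
theorem exists_lagrPoly [DecidableEq (X N)] (O : Subring Kbar) {a b : RN N}
    (ha : IsInv0 N a) (hb : IsInv0 N b)
    (hinta : ∀ γ : SL(2, ℤ), expInf N (compSL N γ a) ∈ coeffSubring O)
    (hintb : ∀ γ : SL(2, ℤ), expInf N (compSL N γ b) ∈ coeffSubring O)
    (g : X N → SL(2, ℤ)) (hg : ∀ i, (QuotientGroup.mk (g i) : X N) = i) :
    ∃ G : Polynomial (Polynomial O),
      G.map (evJR N O) = ∑ i : X N, Polynomial.C (compSL N (g i)⁻¹ a) *
        ∏ i' ∈ Finset.univ.erase i, (Polynomial.X - Polynomial.C (compSL N (g i')⁻¹ b)) := by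
  refine exists_poly_of_invariant_poly N O _ (lagrPoly_map_compSL N ha hb g hg) fun k => ?_
  rw [← Polynomial.coeff_map, Polynomial.map_sum]
  apply coeff_mem_of_mem_closure_aux
  refine Subring.sum_mem _ fun i _ => ?_
  rw [Polynomial.map_mul, Polynomial.map_C, Polynomial.map_prod]
  refine Subring.mul_mem _ (C_mem_liftsRing _ (hinta _)) (Subring.prod_mem _ fun i' _ => ?_)
  rw [Polynomial.map_sub, Polynomial.map_X, Polynomial.map_C]
  exact X_sub_C_mem_liftsRing _ (hintb _)

end gen

end Fermat.Agent.S28
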