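import Mathlib
import Fermat.Prelude.Def_ModularCurve_X0ModL
import Fermat.Prelude.Def_GaloisRep_Flat
import Fermat.Agent.S05.Inertia

/-!
# S28, piece 83-P5: the reduction package

`A` is a valuation subring of `ℚ̄ = AlgebraicClosure ℚ` lying over the prime `ℓ` (it plays the role
of the localisation of the ring of all algebraic integers at a maximal ideal over `ℓ`),
`k = IsLocalRing.ResidueField A`.

* units: `val_natCast_eq_one`, `inv_natCast_mem`, `val_eq_one_of_pow_eq_one`, `mem_of_pow_eq_one`,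
  `val_one_sub_eq_one` (`1 - ζ` is a unit for `ζ ^ d = 1`, `ζ ≠ 1`, `ℓ ∤ d`);
* `intSeries A`: the subring of `ℚ̄((t))` of series with all coefficients in `A`;
* `redS A : intSeries A →+* k((t))`: coefficientwise reduction, with `redS_coeff`, `redS_eq_zero_iff`,
  `redS_order_eq` (unit leading coefficient), `redS_single`, `redS_intSeries` (integer series),
  `redS_jq`, `redS_qExpand`.
-/

set_option autoImplicit false

open ModularCurve

namespace Fermat.Agent.S28

local notation "Qbar" => AlgebraicClosure ℚ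

section Units

variable (A : ValuationSubring Qbar) {ℓ : ℕ}

/-- natural numbers prime to `ℓ` are units of `A` -/
theorem val_natCast_eq_one (hℓ : ℓ.Prime) (hA : A.LiesOverPrime ℓ) {d : ℕ} (hd : ¬ ℓ ∣ d) :
    A.valuation (d : Qbar) = 1 :=
  S05.valuation_natCast_eq_one A hA ((Nat.Prime.coprime_iff_not_dvd hℓ).mpr hd).symm

theorem inv_natCast_mem (hℓ : ℓ.Prime) (hA : A.LiesOverPrime ℓ) {d : ℕ} (hd : ¬ ℓ ∣ d) :
    ((d : Qbar))⁻¹ ∈ A := by
  rw [← A.valuation_le_one_iff, map_inv₀, val_natCast_eq_one A hℓ hA hd, inv_one]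

theorem val_inv_natCast_eq_one (hℓ : ℓ.Prime) (hA : A.LiesOverPrime ℓ) {d : ℕ} (hd : ¬ ℓ ∣ d) :
    A.valuation ((d : Qbar))⁻¹ = 1 := by
  rw [map_inv₀, val_natCast_eq_one A hℓ hA hd, inv_one]

/-- roots of unity are units of `A` -/
theorem val_eq_one_of_pow_eq_one {x : Qbar} {n : ℕ} (hn : n ≠ 0) (hx : x ^ n = 1) :
    A.valuation x = 1 := by
  have h := congrArg A.valuation hx
  rw [map_pow, map_one] at h
  exact (pow_eq_one_iff_left hn).mp h

theorem mem_of_pow_eq_one {x : Qbar} {n : ℕ} (hn : n ≠ 0) (hx : x ^ n = 1) : x ∈ A := by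
  rw [← A.valuation_le_one_iff, val_eq_one_of_pow_eq_one A hn hx]

/-- **units `1 - ζ`**: if `ζ ^ d = 1`, `ζ ≠ 1` and `ℓ ∤ d` then `1 - ζ` is a unit of `A`. -/
theorem val_one_sub_eq_one (hℓ : ℓ.Prime) (hA : A.LiesOverPrime ℓ) {d : ℕ} (hd : ¬ ℓ ∣ d)
    {ζ : Qbar} (hζ : ζ ^ d = 1) (hζ1 : ζ ≠ 1) : A.valuation (1 - ζ) = 1 := by
  have hd0 : d ≠ 0 := fun h => hd (h ▸ dvd_zero ℓ)
  have hζA : ζ ∈ A := mem_of_pow_eq_one A hd0 hζ
  have hle : A.valuation (1 - ζ) ≤ 1 :=
    (A.valuation_le_one_iff _).mpr (A.sub_mem A.one_mem hζA)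
  -- `∑_{i<d} ζ^i = 0`
  have hsum : ∑ i ∈ Finset.range d, ζ ^ i = 0 := by
    have h := mul_neg_geom_sum ζ d
    rw [hζ, sub_self] at h
    rcases mul_eq_zero.mp h with h0 | h0
    · exact absurd (sub_eq_zero.mp h0).symm hζ1
    · exact h0
  -- `d = (1 - ζ) * w`
  set w : Qbar := ∑ i ∈ Finset.range d, ∑ j ∈ Finset.range i, ζ ^ j with hw
  have hwA : w ∈ A :=
    A.toSubring.sum_mem fun i _ => A.toSubring.sum_mem fun j _ => A.toSubring.pow_mem hζA j
  have hdw : (d : Qbar) = (1 - ζ) * w := by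
    have h1 : (d : Qbar) = ∑ i ∈ Finset.range d, (1 - ζ ^ i) := by
      rw [Finset.sum_sub_distrib, hsum, sub_zero]
      simp
    rw [h1, hw, Finset.mul_sum]
    exact Finset.sum_congr rfl fun i _ => (mul_neg_geom_sum ζ i).symm
  have hval : A.valuation (1 - ζ) * A.valuation w = 1 := by
    rw [← map_mul, ← hdw, val_natCast_eq_one A hℓ hA hd]
  refine le_antisymm hle ?_
  calc (1 : _) = A.valuation (1 - ζ) * A.valuation w := hval.symm
    _ ≤ A.valuation (1 - ζ) * 1 := by
        gcongr
        exact (A.valuation_le_one_iff _).mpr hwA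
    _ = A.valuation (1 - ζ) := mul_one _

/-- the difference of two distinct `d`-th roots of unity is a unit of `A` (`ℓ ∤ d`) -/
theorem val_sub_eq_one_of_pow_eq_one (hℓ : ℓ.Prime) (hA : A.LiesOverPrime ℓ) {d : ℕ}
    (hd : ¬ ℓ ∣ d) {ζ η : Qbar} (hζ : ζ ^ d = 1) (hη : η ^ d = 1) (hne : ζ ≠ η) :
    A.valuation (ζ - η) = 1 := by
  have hd0 : d ≠ 0 := fun h => hd (h ▸ dvd_zero ℓ)
  have hζ0 : ζ ≠ 0 := by
    rintro rfl
    rw [zero_pow hd0] at hζ
    exact zero_ne_one hζ
  have h1 : (η / ζ) ^ d = 1 := by rw [div_pow, hζ, hη, div_one]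
  have h2 : η / ζ ≠ 1 := by
    intro h
    exact hne ((div_eq_one_iff_eq hζ0).mp h).symm
  have h3 : ζ - η = ζ * (1 - η / ζ) := by field_simp
  rw [h3, map_mul, val_eq_one_of_pow_eq_one A hd0 hζ, one_mul,
    val_one_sub_eq_one A hℓ hA hd h1 h2]

/-- the residue field of `A` has characteristic `ℓ` -/
theorem charP_residueField (hℓ : ℓ.Prime) (hA : A.LiesOverPrime ℓ) :
    CharP (IsLocalRing.ResidueField A) ℓ := by
  haveI : Fact ℓ.Prime := ⟨hℓ⟩
  have h0 : ((ℓ : ℕ) : IsLocalRing.ResidueField A) = 0 := by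
    have h1 : ((ℓ : ℕ) : A) ∈ IsLocalRing.maximalIdeal A := by
      rw [IsLocalRing.mem_maximalIdeal, mem_nonunits_iff]
      intro hu
      have h2 := (ValuationSubring.valuation_eq_one_iff A ((ℓ : ℕ) : A)).mp hu
      have : A.valuation (((ℓ : ℕ) : A) : Qbar) < 1 := by
        simpa using S05.valuation_natCast_lt_one A hA
      exact (ne_of_lt this) h2
    have := (IsLocalRing.residue_eq_zero_iff (R := A) _).mpr h1
    simpa using this
  exact (CharP.charP_iff_prime_eq_zero hℓ).mpr h0

/-- `ℓ`-integral rational numbers lie in `A` -/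
theorem ratLocalized_mem (hℓ : ℓ.Prime) (hA : A.LiesOverPrime ℓ) {r : ℚ}
    (hr : r ∈ GaloisRep.ratLocalizedAt ℓ) : algebraMap ℚ Qbar r ∈ A := by
  have hd : ¬ ℓ ∣ r.den := by
    have hc : r.den.Coprime ℓ := hr
    exact fun h => (Nat.Prime.coprime_iff_not_dvd hℓ).mp hc.symm h
  have h1 : algebraMap ℚ Qbar r = (r.num : Qbar) * ((r.den : Qbar))⁻¹ := by
    conv_lhs => rw [← Rat.num_div_den r]
    rw [map_div₀, div_eq_mul_inv]
    simp
  rw [h1]
  exact A.mul_mem _ _ (intCast_mem A r.num) (inv_natCast_mem A hℓ hA hd)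

end Units

section Series

variable (A : ValuationSubring Qbar)

/-- the subring of `ℚ̄((t))` of series with all coefficients in `A` -/
noncomputable def intSeries : Subring (LaurentSeries Qbar) := (coeffMap A.subtype).range

/-- the lift to `A((t))` of a series with coefficients in `A` -/
noncomputable def liftSeries (x : LaurentSeries Qbar) (h : ∀ n, x.coeff n ∈ A) :
    LaurentSeries A where
  coeff n := ⟨x.coeff n, h n⟩
  isPWO_support' := x.isPWO_support.mono fun n hn => by
    simp only [Function.mem_support, ne_eq] at hn ⊢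
    intro h0
    exact hn (Subtype.ext h0)

@[simp]
theorem liftSeries_coeff (x : LaurentSeries Qbar) (h : ∀ n, x.coeff n ∈ A) (n : ℤ) :
    ((liftSeries A x h).coeff n : Qbar) = x.coeff n := rfl

theorem coeffMap_liftSeries (x : LaurentSeries Qbar) (h : ∀ n, x.coeff n ∈ A) :
    coeffMap A.subtype (liftSeries A x h) = x := by
  ext n
  rfl

theorem mem_intSeries_iff {x : LaurentSeries Qbar} : x ∈ intSeries A ↔ ∀ n, x.coeff n ∈ A := by
  constructor
  · rintro ⟨y, rfl⟩ n
    exact (y.coeff n).2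
  · intro h
    exact ⟨liftSeries A x h, coeffMap_liftSeries A x h⟩

theorem coeffMap_subtype_injective : Function.Injective (coeffMap A.subtype) := by
  intro x y hxy
  ext n
  have := congrArg (fun z : LaurentSeries Qbar => z.coeff n) hxy
  exact this

/-- `A((t)) ≃ intSeries A` -/
noncomputable def intSeriesEquiv : LaurentSeries A ≃+* intSeries A :=
  RingEquiv.ofBijective (coeffMap A.subtype).rangeRestrict
    ⟨fun _ _ hxy => coeffMap_subtype_injective A (congrArg Subtype.val hxy),
      (coeffMap A.subtype).rangeRestrict_surjective⟩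

theorem intSeriesEquiv_coe (y : LaurentSeries A) :
    ((intSeriesEquiv A y : intSeries A) : LaurentSeries Qbar) = coeffMap A.subtype y := rfl

theorem intSeriesEquiv_symm_coeff (x : intSeries A) (n : ℤ) :
    (((intSeriesEquiv A).symm x).coeff n : Qbar) = (x : LaurentSeries Qbar).coeff n := by
  obtain ⟨y, rfl⟩ := (intSeriesEquiv A).surjective x
  rw [RingEquiv.symm_apply_apply]
  rfl

/-- **coefficientwise reduction** `intSeries A → k((t))`, `k` the residue field of `A` -/
noncomputable def redS : intSeries A →+* LaurentSeries (IsLocalRing.ResidueField A) :=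
  (coeffMap (IsLocalRing.residue A)).comp (intSeriesEquiv A).symm.toRingHom

theorem redS_coeff (x : intSeries A) (n : ℤ) :
    (redS A x).coeff n = IsLocalRing.residue A
      ⟨(x : LaurentSeries Qbar).coeff n, (mem_intSeries_iff A).mp x.2 n⟩ := by
  show IsLocalRing.residue A (((intSeriesEquiv A).symm x).coeff n) = _
  congr 1
  exact Subtype.ext (intSeriesEquiv_symm_coeff A x n)

theorem redS_coeffMap (y : LaurentSeries A) :
    redS A ⟨coeffMap A.subtype y, ⟨y, rfl⟩⟩ = coeffMap (IsLocalRing.residue A) y := by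
  show coeffMap (IsLocalRing.residue A) ((intSeriesEquiv A).symm (intSeriesEquiv A y)) = _
  rw [RingEquiv.symm_apply_apply]

/-- the practical form: to compute `redS x`, exhibit a lift of `x` to `A((t))` -/
theorem redS_eq_of_eq (x : intSeries A) (y : LaurentSeries A)
    (h : (x : LaurentSeries Qbar) = coeffMap A.subtype y) :
    redS A x = coeffMap (IsLocalRing.residue A) y := by
  rw [← redS_coeffMap A y]
  congr 1
  exact Subtype.ext h

theorem redS_coeff_eq_zero_iff (x : intSeries A) (n : ℤ) :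
    (redS A x).coeff n = 0 ↔ A.valuation ((x : LaurentSeries Qbar).coeff n) < 1 := by
  rw [redS_coeff, IsLocalRing.residue_eq_zero_iff, ValuationSubring.valuation_lt_one_iff]

theorem redS_coeff_ne_zero_iff (x : intSeries A) (n : ℤ) :
    (redS A x).coeff n ≠ 0 ↔ A.valuation ((x : LaurentSeries Qbar).coeff n) = 1 := by
  rw [Ne, redS_coeff_eq_zero_iff, not_lt]
  have hle : A.valuation ((x : LaurentSeries Qbar).coeff n) ≤ 1 :=
    (A.valuation_le_one_iff _).mpr ((mem_intSeries_iff A).mp x.2 n)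
  exact ⟨fun h => le_antisymm hle h, fun h => h.ge⟩

theorem redS_eq_zero_iff (x : intSeries A) :
    redS A x = 0 ↔ ∀ n, A.valuation ((x : LaurentSeries Qbar).coeff n) < 1 := by
  constructor
  · intro h n
    rw [← redS_coeff_eq_zero_iff, h, HahnSeries.coeff_zero]
  · intro h
    ext n
    rw [HahnSeries.coeff_zero, redS_coeff_eq_zero_iff]
    exact h n

/-- if the leading coefficient of `x` is a unit of `A`, reduction preserves the order -/
theorem redS_ne_zero_of_unit (x : intSeries A)
    (hu : A.valuation ((x : LaurentSeries Qbar).coeff (x : LaurentSeries Qbar).order) = 1) :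
    redS A x ≠ 0 := by
  intro h
  have := (redS_coeff_ne_zero_iff A x _).mpr hu
  rw [h, HahnSeries.coeff_zero] at this
  exact this rfl

theorem redS_order_eq (x : intSeries A)
    (hu : A.valuation ((x : LaurentSeries Qbar).coeff (x : LaurentSeries Qbar).order) = 1) :
    (redS A x).order = (x : LaurentSeries Qbar).order := by
  have hne := redS_ne_zero_of_unit A x hu
  apply le_antisymm
  · exact HahnSeries.order_le_of_coeff_ne_zero ((redS_coeff_ne_zero_iff A x _).mpr hu)
  · by_contra hlt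
    push Not at hlt
    have h1 : (redS A x).coeff (redS A x).order ≠ 0 := HahnSeries.coeff_order_eq_zero.not.mpr hne
    have h2 : (x : LaurentSeries Qbar).coeff (redS A x).order = 0 :=
      HahnSeries.coeff_eq_zero_of_lt_order hlt
    rw [redS_coeff_ne_zero_iff, h2, map_zero] at h1
    exact zero_ne_one h1

/-- in general the order can only go up -/
theorem order_le_redS_order (x : intSeries A) (hne : redS A x ≠ 0) :
    (x : LaurentSeries Qbar).order ≤ (redS A x).order := by
  by_contra hlt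
  push Not at hlt
  have h1 : (redS A x).coeff (redS A x).order ≠ 0 := HahnSeries.coeff_order_eq_zero.not.mpr hne
  have h2 : (x : LaurentSeries Qbar).coeff (redS A x).order = 0 :=
    HahnSeries.coeff_eq_zero_of_lt_order hlt
  rw [redS_coeff_ne_zero_iff, h2, map_zero] at h1
  exact zero_ne_one h1

theorem single_mem_intSeries {a : Qbar} (ha : a ∈ A) (n : ℤ) :
    HahnSeries.single n a ∈ intSeries A :=
  ⟨HahnSeries.single n ⟨a, ha⟩, coeffMap_single _ _ _⟩

theorem redS_single {a : Qbar} (ha : a ∈ A) (n : ℤ) :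
    redS A ⟨HahnSeries.single n a, single_mem_intSeries A ha n⟩ =
      HahnSeries.single n (IsLocalRing.residue A ⟨a, ha⟩) := by
  have h0 : HahnSeries.single n a = coeffMap A.subtype (HahnSeries.single n (⟨a, ha⟩ : A)) := by
    rw [coeffMap_single]; rfl
  rw [redS_eq_of_eq A _ (HahnSeries.single n (⟨a, ha⟩ : A)) h0, coeffMap_single]

/-- integer series are integral, and their reduction is the obvious one -/
theorem intCast_series_mem (y : LaurentSeries ℤ) :
    coeffMap (Int.castRingHom Qbar) y ∈ intSeries A :=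
  ⟨coeffMap (Int.castRingHom A) y, by
    rw [coeffMap_coeffMap]
    exact coeffMap_congr (RingHom.ext_int _ _) y⟩

theorem redS_intCast_series (y : LaurentSeries ℤ) :
    redS A ⟨coeffMap (Int.castRingHom Qbar) y, intCast_series_mem A y⟩ =
      coeffMap (Int.castRingHom (IsLocalRing.ResidueField A)) y := by
  have h0 : coeffMap (Int.castRingHom Qbar) y =
      coeffMap A.subtype (coeffMap (Int.castRingHom A) y) := by
    rw [coeffMap_coeffMap]
    exact coeffMap_congr (RingHom.ext_int _ _) y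
  rw [redS_eq_of_eq A _ (coeffMap (Int.castRingHom A) y) h0, coeffMap_coeffMap]
  exact coeffMap_congr (RingHom.ext_int _ _) y

/-- `j` and `j(q^m)` -/
theorem jqModC_mem : jqModC Qbar ∈ intSeries A :=
  ⟨jqModC A, coeffMap_jqModC _⟩

theorem redS_jqModC :
    redS A ⟨jqModC Qbar, jqModC_mem A⟩ = jqModC (IsLocalRing.ResidueField A) := by
  rw [redS_eq_of_eq A _ (jqModC A) (coeffMap_jqModC _).symm, coeffMap_jqModC]

theorem qExpand_mem (m : ℕ) [NeZero m] {x : LaurentSeries Qbar} (hx : x ∈ intSeries A) :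
    qExpand Qbar m x ∈ intSeries A := by
  obtain ⟨y, rfl⟩ := hx
  exact ⟨qExpand A m y, coeffMap_qExpand _ _ _⟩

theorem redS_qExpand (m : ℕ) [NeZero m] {x : LaurentSeries Qbar} (hx : x ∈ intSeries A) :
    redS A ⟨qExpand Qbar m x, qExpand_mem A m hx⟩ =
      qExpand (IsLocalRing.ResidueField A) m (redS A ⟨x, hx⟩) := by
  obtain ⟨y, rfl⟩ := hx
  rw [redS_eq_of_eq A _ (qExpand A m y) (coeffMap_qExpand _ _ _).symm, coeffMap_qExpand]
  congr 1
  exact (redS_eq_of_eq A _ y rfl).symm

theorem jqNModC_mem (m : ℕ) [NeZero m] : jqNModC Qbar m ∈ intSeries A :=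
  qExpand_mem A m (jqModC_mem A)

theorem redS_jqNModC (m : ℕ) [NeZero m] :
    redS A ⟨jqNModC Qbar m, jqNModC_mem A m⟩ = jqNModC (IsLocalRing.ResidueField A) m := by
  show redS A ⟨qExpand Qbar m (jqModC Qbar), _⟩ = _
  rw [redS_qExpand A m (jqModC_mem A), redS_jqModC]
  rfl

/-- the expansion of `j` used by the S24 library: `coeffEmb ℚ̄ jq = jqModC ℚ̄` -/
theorem coeffEmb_jq : coeffEmb Qbar jq = jqModC Qbar := by
  rw [← jqModC_rat]
  exact coeffMap_jqModC _

end Series

end Fermat.Agent.S28
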