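import Mathlib
import Fermat.Agent.S28.NormPolyGen
import Fermat.Agent.S28.RedBasic
import Fermat.Agent.S28.KeyLemma

/-!
# S28 (Igusa), piece 83-P7, reduced form (characteristic `ℓ`)

`A` a valuation subring of `ℚ̄`, `k` its residue field, `jb = j(t^N) = jqNModC k N`.
For `Γ₀(N)`-invariant `a, b ∈ RN N` all of whose conjugates have expansions in `intSeries A`,
with `â i = redS A (expansion of the i-th conjugate of a)`:

* `exists_prodPoly_red` : `∃ P ∈ k[X][T], P.map (evJ jb) = ∏ᵢ (T - â i)`;
* `exists_lagrPoly_red` : `∃ G ∈ k[X][T], G.map (evJ jb) = ∑ᵢ â i ∏_{i' ≠ i} (T - b̂ i')`.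

These are exactly the hypotheses `hΦ`, `hM`, `hM'`, `hG` of `Key.sum_order_rootSetJ`,
`Key.lagrange_interp`.
-/

set_option autoImplicit false
set_option linter.unusedSectionVars false

open scoped MatrixGroups

namespace Fermat.Agent.S28

open Fermat.Agent.FF Polynomial

section red

variable (N : ℕ) [NeZero N] (A : ValuationSubring Kbar)

/-- the residue map on `A.toSubring` -/
noncomputable def resO : ↥A.toSubring →+* IsLocalRing.ResidueField A :=
  (IsLocalRing.residue A).comp (RingHom.codRestrict A.toSubring.subtype A (fun x => x.2))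

theorem resO_apply (c : ↥A.toSubring) :
    resO A c = IsLocalRing.residue A ⟨(c : Kbar), c.2⟩ := rfl

/-- the expansion of an element of `O[j]` is `A`-integral -/
theorem expInf_evJR_mem (p : Polynomial ↥A.toSubring) :
    expInf N (evJR N A.toSubring p) ∈ intSeries A := by
  rw [evJR_apply, expInf_aeval_jR_one, mem_intSeries_iff]
  have h1 : ∀ m : ℤ, (Polynomial.aeval (ModularCurve.coeffEmb Kbar ModularCurve.jq)
      (p.map A.toSubring.subtype)).coeff m ∈ A.toSubring :=
    (Tri.jLike_coeffEmb_jq Kbar A.toSubring).coeff_aeval_mem _ (fun k => by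
      rw [Polynomial.coeff_map]
      exact (p.coeff k).2)
  exact qExpand_mem_coeffSubring N h1

/-- the expansion homomorphism `O[X] → intSeries A`, `X ↦ j(t^N)` -/
noncomputable def expO : Polynomial ↥A.toSubring →+* intSeries A :=
  RingHom.codRestrict ((expInf N).comp (evJR N A.toSubring)) (intSeries A)
    (fun p => expInf_evJR_mem N A p)

theorem expO_coe (p : Polynomial ↥A.toSubring) :
    ((expO N A p : intSeries A) : LaurentSeries Kbar) = expInf N (evJR N A.toSubring p) := rfl

/-- **the commuting square**: reduction of the expansion of `p(j)` is `p̄(j̄)`. -/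
theorem redS_comp_expO :
    (redS A).comp (expO N A) =
      (Key.evJ (ModularCurve.jqNModC (IsLocalRing.ResidueField A) N)).comp
        (Polynomial.mapRingHom (resO A)) := by
  apply Polynomial.ringHom_ext
  · intro c
    have h1 : expO N A (Polynomial.C c) =
        ⟨HahnSeries.single 0 (c : Kbar), single_mem_intSeries A c.2 0⟩ := by
      apply Subtype.ext
      rw [expO_coe, evJR_apply, Polynomial.map_C, Polynomial.aeval_C, expInf_algebraMap]
      rfl
    rw [RingHom.comp_apply, h1, redS_single, RingHom.comp_apply, Polynomial.coe_mapRingHom,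
      Polynomial.map_C, Key.evJ, AlgHom.toRingHom_eq_coe, RingHom.coe_coe, Polynomial.aeval_C,
      Tri.algebraMap_laurent_eq_single]
    rfl
  · have h1 : expO N A Polynomial.X =
        ⟨ModularCurve.jqNModC Kbar N, jqNModC_mem A N⟩ := by
      apply Subtype.ext
      rw [expO_coe, evJR_apply, Polynomial.map_X, Polynomial.aeval_X, expInf_jR, Jd,
        ModularCurve.qExpand_one_apply, coeffEmb_jq]
      rfl
    rw [RingHom.comp_apply, h1, redS_jqNModC, RingHom.comp_apply, Polynomial.coe_mapRingHom,
      Polynomial.map_X, Key.evJ_X]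

/-- transfer of a polynomial identity from characteristic 0 to the residue field -/
theorem map_evJ_of_char0 (P₀ : Polynomial (Polynomial ↥A.toSubring))
    (Q : Polynomial (RN N)) (Q' : Polynomial (intSeries A))
    (h0 : P₀.map (evJR N A.toSubring) = Q)
    (h : Q.map (expInf N) = Q'.map (intSeries A).subtype) :
    (P₀.map (Polynomial.mapRingHom (resO A))).map
        (Key.evJ (ModularCurve.jqNModC (IsLocalRing.ResidueField A) N)) =
      Q'.map (redS A) := by
  rw [Polynomial.map_map, ← redS_comp_expO, ← Polynomial.map_map]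
  congr 1
  apply Polynomial.map_injective (intSeries A).subtype Subtype.val_injective
  rw [← h, ← h0, Polynomial.map_map, Polynomial.map_map]
  rfl

variable [Fintype (X N)]

/-- **83-P7, product form** (residue field): `∏ᵢ (T - â i)` has coefficients in `k[j̄]`. -/
theorem exists_prodPoly_red {a : RN N} (ha : IsInv0 N a)
    (hint : ∀ γ : SL(2, ℤ), expInf N (compSL N γ a) ∈ intSeries A)
    (g : X N → SL(2, ℤ)) (hg : ∀ i, (QuotientGroup.mk (g i) : X N) = i) :
    ∃ P : Polynomial (Polynomial (IsLocalRing.ResidueField A)),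
      P.map (Key.evJ (ModularCurve.jqNModC (IsLocalRing.ResidueField A) N)) =
        ∏ i : X N, (Polynomial.X - Polynomial.C
          (redS A ⟨expInf N (compSL N (g i)⁻¹ a), hint _⟩)) := by
  obtain ⟨P₀, hP₀⟩ := exists_prodPoly N A.toSubring ha
    (fun γ => (mem_intSeries_iff A).mp (hint γ)) g hg
  refine ⟨P₀.map (Polynomial.mapRingHom (resO A)), ?_⟩
  have := map_evJ_of_char0 N A P₀ _
    (∏ i : X N, (Polynomial.X - Polynomial.C
      (⟨expInf N (compSL N (g i)⁻¹ a), hint _⟩ : intSeries A))) hP₀ (by
    rw [Polynomial.map_prod, Polynomial.map_prod]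
    refine Finset.prod_congr rfl fun i _ => ?_
    rw [Polynomial.map_sub, Polynomial.map_X, Polynomial.map_C, Polynomial.map_sub,
      Polynomial.map_X, Polynomial.map_C]
    rfl)
  rw [this, Polynomial.map_prod]
  refine Finset.prod_congr rfl fun i _ => ?_
  rw [Polynomial.map_sub, Polynomial.map_X, Polynomial.map_C]

/-- **83-P7, Lagrange form** (residue field):
`∑ᵢ â i ∏_{i' ≠ i} (T - b̂ i')` has coefficients in `k[j̄]`. -/
theorem exists_lagrPoly_red [DecidableEq (X N)] {a b : RN N} (ha : IsInv0 N a)
    (hb : IsInv0 N b)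
    (hinta : ∀ γ : SL(2, ℤ), expInf N (compSL N γ a) ∈ intSeries A)
    (hintb : ∀ γ : SL(2, ℤ), expInf N (compSL N γ b) ∈ intSeries A)
    (g : X N → SL(2, ℤ)) (hg : ∀ i, (QuotientGroup.mk (g i) : X N) = i) :
    ∃ G : Polynomial (Polynomial (IsLocalRing.ResidueField A)),
      G.map (Key.evJ (ModularCurve.jqNModC (IsLocalRing.ResidueField A) N)) =
        ∑ i : X N, Polynomial.C (redS A ⟨expInf N (compSL N (g i)⁻¹ a), hinta _⟩) *
          ∏ i' ∈ Finset.univ.erase i, (Polynomial.X - Polynomial.C
            (redS A ⟨expInf N (compSL N (g i')⁻¹ b), hintb _⟩)) := by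
  obtain ⟨P₀, hP₀⟩ := exists_lagrPoly N A.toSubring ha hb
    (fun γ => (mem_intSeries_iff A).mp (hinta γ))
    (fun γ => (mem_intSeries_iff A).mp (hintb γ)) g hg
  refine ⟨P₀.map (Polynomial.mapRingHom (resO A)), ?_⟩
  have := map_evJ_of_char0 N A P₀ _
    (∑ i : X N, Polynomial.C (⟨expInf N (compSL N (g i)⁻¹ a), hinta _⟩ : intSeries A) *
      ∏ i' ∈ Finset.univ.erase i, (Polynomial.X - Polynomial.C
        (⟨expInf N (compSL N (g i')⁻¹ b), hintb _⟩ : intSeries A))) hP₀ (by
    rw [Polynomial.map_sum, Polynomial.map_sum]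
    refine Finset.sum_congr rfl fun i _ => ?_
    rw [Polynomial.map_mul, Polynomial.map_C, Polynomial.map_mul, Polynomial.map_C,
      Polynomial.map_prod, Polynomial.map_prod]
    congr 1
    refine Finset.prod_congr rfl fun i' _ => ?_
    rw [Polynomial.map_sub, Polynomial.map_X, Polynomial.map_C, Polynomial.map_sub,
      Polynomial.map_X, Polynomial.map_C]
    rfl)
  rw [this, Polynomial.map_sum]
  refine Finset.sum_congr rfl fun i _ => ?_
  rw [Polynomial.map_mul, Polynomial.map_C, Polynomial.map_prod]
  congr 1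
  refine Finset.prod_congr rfl fun i' _ => ?_
  rw [Polynomial.map_sub, Polynomial.map_X, Polynomial.map_C]

end red

end Fermat.Agent.S28
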