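import Fermat.Agent.S28.UnitRN
import Fermat.Agent.FF.CosetIndex
import Fermat.Prelude.Def_ModularCurve_X0ModL

/-!
# S28, 83-P10-c1: coset representatives and coset types

For a coset `i : X N = SL(2,ℤ) ⧸ Γ₀(N)` the conjugate of a `Γ₀(N)`-invariant function `f`
attached to `i` is `f ∘ (Quotient.out i)⁻¹`.  Its *type* is `gcd(N, c)`, where `c` is the
lower left entry of `(Quotient.out i)⁻¹`.  The type is `N` exactly for the trivial coset.
-/

set_option autoImplicit false
set_option linter.unusedSectionVars false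

open scoped MatrixGroups

noncomputable section
namespace Fermat.Agent.S28

open Fermat.Agent.FF

variable (N : ℕ) [NeZero N]

/-- the matrix by which the conjugate attached to the coset `i` is obtained -/
def cosetRep (i : X N) : SL(2, ℤ) := (Quotient.out i)⁻¹

/-- the type `gcd(N, c)` of the coset `i` -/
def cosetType (i : X N) : ℕ := Int.gcd (N : ℤ) ((cosetRep N i) 1 0)

theorem cosetRep_def (i : X N) : cosetRep N i = (Quotient.out i)⁻¹ := rfl

theorem cosetType_def (i : X N) : cosetType N i = Int.gcd (N : ℤ) ((cosetRep N i) 1 0) := rfl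

theorem mk_inv_cosetRep (i : X N) : (((cosetRep N i)⁻¹ : SL(2, ℤ)) : X N) = i := by
  rw [cosetRep, inv_inv]
  exact QuotientGroup.out_eq' i

theorem cosetType_dvd (i : X N) : cosetType N i ∣ N := by
  have h : ((Int.gcd (N : ℤ) ((cosetRep N i) 1 0) : ℕ) : ℤ) ∣ (N : ℤ) := Int.gcd_dvd_left _ _
  exact Int.natCast_dvd_natCast.mp h

theorem cosetType_pos (i : X N) : 0 < cosetType N i :=
  Nat.pos_of_dvd_of_pos (cosetType_dvd N i) (Nat.pos_of_ne_zero (NeZero.ne N))

theorem cosetRep_mem_iff (i : X N) :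
    cosetRep N i ∈ CongruenceSubgroup.Gamma0 N ↔ i = ((1 : SL(2, ℤ)) : X N) := by
  constructor
  · intro h
    have h1 : (cosetRep N i)⁻¹ ∈ CongruenceSubgroup.Gamma0 N := inv_mem h
    have h2 : (((cosetRep N i)⁻¹ : SL(2, ℤ)) : X N) = ((1 : SL(2, ℤ)) : X N) := by
      rw [eq_comm, QuotientGroup.eq, inv_one, one_mul]
      exact h1
    rw [← h2, mk_inv_cosetRep]
  · intro h
    have h2 : (((cosetRep N i)⁻¹ : SL(2, ℤ)) : X N) = ((1 : SL(2, ℤ)) : X N) := by
      rw [mk_inv_cosetRep, h]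
    rw [QuotientGroup.eq, inv_inv, mul_one] at h2
    exact h2

theorem cosetType_eq_self_iff (i : X N) :
    cosetType N i = N ↔ i = ((1 : SL(2, ℤ)) : X N) := by
  rw [← cosetRep_mem_iff, mem_Gamma0_iff_dvd, cosetType]
  constructor
  · intro h
    have h1 : ((Int.gcd (N : ℤ) ((cosetRep N i) 1 0) : ℕ) : ℤ) ∣ (cosetRep N i) 1 0 :=
      Int.gcd_dvd_right _ _
    rwa [h] at h1
  · intro h
    apply Nat.dvd_antisymm
    · exact Int.natCast_dvd_natCast.mp (Int.gcd_dvd_left _ _)
    · exact Int.natCast_dvd_natCast.mp (Int.dvd_coe_gcd dvd_rfl h)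

theorem cosetRep_one_mem : cosetRep N ((1 : SL(2, ℤ)) : X N) ∈ CongruenceSubgroup.Gamma0 N :=
  (cosetRep_mem_iff N _).2 rfl

theorem cosetType_one : cosetType N ((1 : SL(2, ℤ)) : X N) = N :=
  (cosetType_eq_self_iff N _).2 rfl

theorem gcd_cosetType (i : X N) (m : ℕ) (hm : m ∣ N) :
    Nat.gcd m (cosetType N i) = Int.gcd (m : ℤ) ((cosetRep N i) 1 0) := by
  rw [cosetType]
  have h1 : Int.gcd (m : ℤ) ((Int.gcd (N : ℤ) ((cosetRep N i) 1 0) : ℕ) : ℤ) =
      Nat.gcd m (Int.gcd (N : ℤ) ((cosetRep N i) 1 0)) := Int.gcd_natCast_natCast _ _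
  rw [← h1, ← Int.gcd_assoc]
  have h2 : Int.gcd (m : ℤ) (N : ℤ) = m := by
    rw [Int.gcd_natCast_natCast]
    exact Nat.gcd_eq_left hm
  rw [h2]

theorem expInf_compSL_cosetRep_one :
    expInf N (compSL N (cosetRep N ((1 : SL(2, ℤ)) : X N)) (jR N N dvd_rfl)) =
      ModularCurve.qExpand Kbar N (Jd N) := by
  rw [compSL_jR N N dvd_rfl _ (cosetRep_one_mem N), expInf_jR]

/-- the formal `q`-expansion of `j(dτ)` over `ℚ̄` is the series `jqNModC Kbar d` of the prelude -/
theorem Jd_eq_jqNModC (d : ℕ) [NeZero d] : Jd d = ModularCurve.jqNModC Kbar d := by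
  have h : Jd d = ModularCurve.coeffMap (algebraMap ℚ Kbar) (ModularCurve.jqNModC ℚ d) := rfl
  rw [h, ModularCurve.coeffMap_jqNModC]

/-- the same in the shape of `CoreOverT` -/
theorem expInf_compSL_cosetRep_one' :
    expInf N (compSL N (cosetRep N ((1 : SL(2, ℤ)) : X N)) (jR N N dvd_rfl)) =
      ModularCurve.qExpand Kbar N (ModularCurve.jqNModC Kbar N) := by
  rw [expInf_compSL_cosetRep_one, Jd_eq_jqNModC]

theorem expInf_compSL_uR_cosetRep_one (m : ℕ) [NeZero m] (hm : m ∣ N) :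
    expInf N (compSL N (cosetRep N ((1 : SL(2, ℤ)) : X N)) (uR N m hm)) =
      expInf N (uR N m hm) := by
  rw [isInv0_uR N m hm _ (cosetRep_one_mem N)]

theorem expInf_compSL_uRinv_cosetRep_one (m : ℕ) [NeZero m] (hm : m ∣ N) :
    expInf N (compSL N (cosetRep N ((1 : SL(2, ℤ)) : X N)) (uRinv N m hm)) =
      expInf N (uRinv N m hm) := by
  rw [isInv0_uRinv N m hm _ (cosetRep_one_mem N)]

/-- the `Fintype` structure on the cosets used in the CORE assembly -/
instance instFintypeXCore : Fintype (X N) := Fintype.ofFinite _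

/-- for ANY `Fintype` structure on the cosets -/
theorem card_X_eq' [Fintype (X N)] : Fintype.card (X N) = ModularCurve.dedekindPsi N := by
  rw [← card_X_eq N, Nat.card_eq_fintype_card]

/-- the trivial coset is the only coset of type `N` -/
theorem cosetType_ne_self (i : X N) (hi : i ≠ ((1 : SL(2, ℤ)) : X N)) : cosetType N i ≠ N :=
  fun h => hi ((cosetType_eq_self_iff N i).1 h)

end Fermat.Agent.S28
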