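import Mathlib
import Fermat.Agent.FF.ModData
import Fermat.Agent.FF.CosetIndex

/-!
# S28, piece 83-P2 (GEN), part 2: over `ℚ̄`

Every element `f` of the function field `F_N` over `ℚ̄` satisfies
`s(j) f = ∑_{k < ψ(N)} A_k(j) j_N^k` with polynomials `s ≠ 0`, `A_k` over `ℚ̄`
(`j_N = j(Nτ)` is a primitive element of `F_N / ℚ̄(j)`, from the S24 library).
-/

set_option autoImplicit false
open Polynomial IntermediateField
open UpperHalfPlane hiding I
open scoped MatrixGroups

noncomputable section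
namespace Fermat.Agent.S28

open Fermat.Agent.FF

section Abstract

variable {K E : Type*} [Field K] [Field E] [Algebra K E]

/-- common denominator of finitely many elements of `K(J)` -/
theorem exists_common_denominator (J : E) (c : ℕ → E) (hc : ∀ k, c k ∈ K⟮J⟯) (n : ℕ) :
    ∃ s : K[X], aeval J s ≠ 0 ∧ ∀ k < n, ∃ a : K[X], aeval J s * c k = aeval J a := by
  induction n with
  | zero => exact ⟨1, by simp, fun k hk => absurd hk (Nat.not_lt_zero k)⟩
  | succ n ih =>
    obtain ⟨s, hs, hsa⟩ := ih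
    obtain ⟨r, t, hrt⟩ := (mem_adjoin_simple_iff K (c n)).mp (hc n)
    by_cases ht : aeval J t = 0
    · have hcn : c n = 0 := by rw [hrt, ht, div_zero]
      refine ⟨s, hs, fun k hk => ?_⟩
      rcases Nat.lt_succ_iff_lt_or_eq.mp hk with hk' | rfl
      · exact hsa k hk'
      · exact ⟨0, by rw [hcn, mul_zero, map_zero]⟩
    · refine ⟨s * t, by rw [map_mul]; exact mul_ne_zero hs ht, fun k hk => ?_⟩
      rcases Nat.lt_succ_iff_lt_or_eq.mp hk with hk' | rfl
      · obtain ⟨a, ha⟩ := hsa k hk'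
        exact ⟨a * t, by rw [map_mul, map_mul, mul_right_comm, ha]⟩
      · refine ⟨s * r, ?_⟩
        rw [map_mul, map_mul, hrt, mul_assoc, mul_div_cancel₀ _ ht]

end Abstract

section Bar

variable (N : ℕ) [NeZero N]

/-- the conjugates of `θ = j(Nτ)` are pairwise distinct (as in `FF.realisationN_hdist`) -/
theorem conj_JdF_injective :
    Function.Injective (fun i : X N => (realisationN N).conj i (JdF N N dvd_rfl)) := by
  intro i j hij
  obtain ⟨g, rfl⟩ := QuotientGroup.mk_surjective i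
  obtain ⟨h, rfl⟩ := QuotientGroup.mk_surjective j
  have hij' : (realisationN N).conj (QuotientGroup.mk g : X N) (JdF N N dvd_rfl) =
      (realisationN N).conj (QuotientGroup.mk h : X N) (JdF N N dvd_rfl) := hij
  rw [realisationN_conj_JdF, realisationN_conj_JdF] at hij'
  have h1 := IsFractionRing.injective (RN N) (LN N) hij'
  rw [QuotientGroup.eq]
  apply mem_Gamma0_of_jFun_scale_eq N (g⁻¹ * h) (fun τ => scaleH N ((g⁻¹ * h) • τ))
    (scaleH N) (fun τ => rfl) (fun τ => rfl)
  intro τ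
  have h2 := congrArg (fun r : RN N => (r : ℍ → ℂ) (h • τ)) h1
  simp only [compSL_apply, jR_apply] at h2
  rw [← mul_smul, ← mul_smul, inv_mul_cancel, one_smul] at h2
  exact h2

/-- the minimal polynomial of `j_N` over `ℚ̄(j)` has degree at least `|SL₂(ℤ)/Γ₀(N)|` -/
theorem card_le_natDegree_minpoly_JdF :
    Nat.card (X N) ≤ (minpoly ↥Kbar⟮jBar N⟯ (JdF N N dvd_rfl)).natDegree := by
  classical
  let _ : Fintype (X N) := Fintype.ofFinite _
  have : FiniteDimensional ↥Kbar⟮jBar N⟯ (FN N) := (modularOrdData N).findim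
  set θ : FN N := JdF N N dvd_rfl with hθ
  have hint : IsIntegral ↥Kbar⟮jBar N⟯ θ := IsIntegral.of_finite _ θ
  let i0 : X N := QuotientGroup.mk 1
  let ψ : ↥Kbar⟮jBar N⟯ →+* LN N :=
    ((realisationN N).conj i0).comp (algebraMap ↥Kbar⟮jBar N⟯ (FN N))
  have hψ : ∀ i, ((realisationN N).conj i).comp (algebraMap ↥Kbar⟮jBar N⟯ (FN N)) = ψ :=
    fun i => RingHom.ext fun c => (realisationN N).conj_eq_on_adjoin i i0 c
  let m := (minpoly ↥Kbar⟮jBar N⟯ θ).map ψ
  have hm0 : m ≠ 0 := (Polynomial.map_ne_zero_iff ψ.injective).mpr (minpoly.ne_zero hint)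
  have hmroot : ∀ i, m.IsRoot ((realisationN N).conj i θ) := fun i => by
    show Polynomial.eval ((realisationN N).conj i θ) ((minpoly ↥Kbar⟮jBar N⟯ θ).map ψ) = 0
    rw [← hψ i, Polynomial.eval_map, ← Polynomial.hom_eval₂, ← Polynomial.aeval_def,
      minpoly.aeval, map_zero]
  have hcard : Fintype.card (X N) ≤ m.natDegree := by
    have h1 : (Finset.univ.image (fun i => (realisationN N).conj i θ)).card =
        Fintype.card (X N) := by
      rw [Finset.card_image_of_injective _ (conj_JdF_injective N), Finset.card_univ]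
    rw [← h1]
    apply Polynomial.card_le_degree_of_subset_roots
    intro x hx
    rw [Finset.mem_val, Finset.mem_image] at hx
    obtain ⟨i, -, rfl⟩ := hx
    exact (Polynomial.mem_roots hm0).mpr (hmroot i)
  rw [Nat.card_eq_fintype_card]
  calc Fintype.card (X N) ≤ m.natDegree := hcard
    _ = (minpoly ↥Kbar⟮jBar N⟯ θ).natDegree := Polynomial.natDegree_map _

/-- `j_N` is a primitive element of `F_N / ℚ̄(j)`, with the power basis `1, …, j_N^(ψ(N)-1)` -/
theorem exists_poly_JdF (f : FN N) :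
    ∃ p : Polynomial ↥Kbar⟮jBar N⟯, p.natDegree < ModularCurve.dedekindPsi N ∧
      aeval (JdF N N dvd_rfl) p = f := by
  have : FiniteDimensional ↥Kbar⟮jBar N⟯ (FN N) := (modularOrdData N).findim
  have : Module.Free ↥Kbar⟮jBar N⟯ (FN N) := Module.Free.of_divisionRing _ _
  have hfin : Module.finrank ↥Kbar⟮jBar N⟯ (FN N) = Nat.card (X N) :=
    (modularOrdData N).finrank_eq
  have hcard : Nat.card (X N) = ModularCurve.dedekindPsi N := card_X_eq N
  set θ : FN N := JdF N N dvd_rfl with hθ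
  have hint : IsIntegral ↥Kbar⟮jBar N⟯ θ := IsIntegral.of_finite _ θ
  have hdeg : (minpoly ↥Kbar⟮jBar N⟯ θ).natDegree = ModularCurve.dedekindPsi N := by
    rw [← hcard]
    exact le_antisymm (hfin ▸ minpoly.natDegree_le θ) (card_le_natDegree_minpoly_JdF N)
  have htop : (↥Kbar⟮jBar N⟯)⟮θ⟯ = ⊤ :=
    (Field.primitive_element_iff_minpoly_natDegree_eq ↥Kbar⟮jBar N⟯ θ).mpr
      (by rw [hdeg, hfin, hcard])
  have hf : f ∈ (↥Kbar⟮jBar N⟯)⟮θ⟯ := htop ▸ IntermediateField.mem_top
  rw [← IntermediateField.mem_toSubalgebra,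
    IntermediateField.adjoin_simple_toSubalgebra_of_isAlgebraic hint.isAlgebraic,
    Algebra.adjoin_singleton_eq_range_aeval] at hf
  obtain ⟨p, hp⟩ := hf
  have hp' : aeval θ p = f := hp
  refine ⟨p %ₘ minpoly ↥Kbar⟮jBar N⟯ θ, ?_, ?_⟩
  · rw [← hdeg]
    exact Polynomial.natDegree_modByMonic_lt p (minpoly.monic hint) (minpoly.ne_one _ θ)
  · rw [Polynomial.aeval_modByMonic_eq_self_of_root (minpoly.aeval _ θ), hp']

/-- **GEN over `ℚ̄`**, in the function field -/
theorem gen_bar (f : FN N) :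
    ∃ s : Polynomial Kbar, aeval (jBar N) s ≠ 0 ∧ ∃ A : ℕ → Polynomial Kbar,
      aeval (jBar N) s * f =
        ∑ k ∈ Finset.range (ModularCurve.dedekindPsi N),
          aeval (jBar N) (A k) * (JdF N N dvd_rfl) ^ k := by
  obtain ⟨p, hpdeg, hp⟩ := exists_poly_JdF N f
  obtain ⟨s, hs, hsa⟩ := exists_common_denominator (K := Kbar) (jBar N)
    (fun k => algebraMap ↥Kbar⟮jBar N⟯ (FN N) (p.coeff k)) (fun k => (p.coeff k).2)
    (ModularCurve.dedekindPsi N)
  choose! A hA using hsa
  refine ⟨s, hs, A, ?_⟩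
  rw [← hp, Polynomial.aeval_eq_sum_range' hpdeg, Finset.mul_sum]
  refine Finset.sum_congr rfl fun k hk => ?_
  rw [Algebra.smul_def, ← mul_assoc, hA k (Finset.mem_range.mp hk)]

/-- **GEN over `ℚ̄`**, for series -/
theorem gen_bar_series (f : LaurentSeries ℚ) (hf : f ∈ ModularCurve.modularFunctionFieldFull N) :
    ∃ s : Polynomial Kbar, s ≠ 0 ∧ ∃ A : ℕ → Polynomial Kbar,
      aeval (ModularCurve.coeffEmb Kbar ModularCurve.jq) s * ModularCurve.coeffEmb Kbar f =
        ∑ k ∈ Finset.range (ModularCurve.dedekindPsi N),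
          aeval (ModularCurve.coeffEmb Kbar ModularCurve.jq) (A k) *
            (ModularCurve.coeffEmb Kbar (ModularCurve.jqN N)) ^ k := by
  let fB : FN N := ⟨ModularCurve.coeffEmb Kbar f,
    ModularCurve.coeffEmb_mem_laurentBaseChange Kbar hf⟩
  obtain ⟨s, hs, A, hA⟩ := gen_bar N fB
  refine ⟨s, fun h0 => hs (by rw [h0, map_zero]), A, ?_⟩
  have h1 := congrArg (algebraMap (FN N) (LaurentSeries Kbar)) hA
  rw [map_mul, map_sum, ← Polynomial.aeval_algebraMap_apply] at h1
  have h2 : algebraMap (FN N) (LaurentSeries Kbar) (jBar N) =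
      ModularCurve.coeffEmb Kbar ModularCurve.jq := rfl
  have h3 : algebraMap (FN N) (LaurentSeries Kbar) fB = ModularCurve.coeffEmb Kbar f := rfl
  have h4 : algebraMap (FN N) (LaurentSeries Kbar) (JdF N N dvd_rfl) =
      ModularCurve.coeffEmb Kbar (ModularCurve.jqN N) := rfl
  rw [h2, h3] at h1
  rw [h1]
  refine Finset.sum_congr rfl fun k _ => ?_
  rw [map_mul, map_pow, ← Polynomial.aeval_algebraMap_apply, h2, h4]

end Bar

end Fermat.Agent.S28
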