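import Fermat.Agent.S28.UnitFun
import Fermat.Agent.FF.ModRealEv

/-!
# S28 (Igusa), piece P6 (item 83): the modular units `u_m = Δ(mτ)/Δ(τ)`, `m ∣ N`, in `RN N`

Main results (contract of 83-P6):
* `uR N m hm : RN N`, `uRinv N m hm : RN N` with `uR_mul_uRinv`, `isInv0_uR`, `isInv0_uRinv`;
* `expInf_compSL_uR`: for every `γ ∈ SL(2,ℤ)` the expansions at `∞` of `u_m ∘ γ` and of its
  inverse are `unitSer Kbar N a e d'⁻¹² ζ` and `unitInvSer Kbar N a e d'¹² ζ` with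
  `a = gcd(m, γ₁₀)`, `a d' = m`, `d' e = N`, `ζ ^ d' = 1`;
  (formal facts about these series: `order_unitSer` `= e a - N`, `leadingCoeff_unitSer = c ζ`,
  `unitSer_mem_coeffSubring` in `S28/UnitSer.lean`).
-/

set_option autoImplicit false

open UpperHalfPlane hiding I
open Complex Function
open scoped MatrixGroups Manifold Modular Real

namespace Fermat.Agent.S28

open Fermat.Agent.FF

theorem iotaL_unitSer (N a e : ℕ) [NeZero N] [NeZero a] [NeZero e] (c ζ : Kbar) :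
    iotaL (unitSer Kbar N a e c ζ) = unitSer ℂ N a e (iotaK c) (iotaK ζ) :=
  coeffMap_unitSer iotaK N a e c ζ

theorem iotaL_unitInvSer (N a e : ℕ) [NeZero N] [NeZero a] [NeZero e] (c ζ : Kbar) :
    iotaL (unitInvSer Kbar N a e c ζ) = unitInvSer ℂ N a e (iotaK c) (iotaK ζ) :=
  coeffMap_unitInvSer iotaK N a e c ζ

/-- the expansions of the conjugates of the unit and of its inverse, over `ℚ̄` -/
theorem exists_isExpK_uFun (N m : ℕ) [NeZero N] [NeZero m] (hm : m ∣ N) (γ : SL(2, ℤ)) :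
    ∃ (a d' e : ℕ) (_ : NeZero a) (_ : NeZero e) (ζ : Kbar), a * d' = m ∧ d' * e = N ∧
      Int.gcd (m : ℤ) (γ 1 0) = a ∧ ζ ^ d' = 1 ∧
      IsExpK N (unitSer Kbar N a e (((d' : Kbar)⁻¹) ^ 12) ζ) (fun τ => uFun m (γ • τ)) ∧
      IsExpK N (unitInvSer Kbar N a e ((d' : Kbar) ^ 12) ζ) (fun τ => (uFun m (γ • τ))⁻¹) := by
  have hN : 0 < N := Nat.pos_of_ne_zero (NeZero.ne N)
  have hmpos : 0 < m := Nat.pos_of_ne_zero (NeZero.ne m)
  obtain ⟨δ, a, d', b, ha, hd', had, e00, -, e10, e11, hact⟩ := exists_hnf_scale_full m hmpos γ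
  have hd'N : d' ∣ N := (Dvd.intro_left a had).trans hm
  obtain ⟨e, he⟩ := hd'N
  have he0 : e ≠ 0 := by
    rintro rfl
    simp at he
    exact hN.ne' he
  have : NeZero a := ⟨ha.ne'⟩
  have : NeZero e := ⟨he0⟩
  obtain ⟨ζ, hζ⟩ := exists_preimage_of_pow_eq_one iotaK d' hd' (zetaC b d') (zetaC_pow b d' hd')
  have hζd : ζ ^ d' = 1 := by
    apply iotaK_injective
    rw [map_pow, hζ, zetaC_pow b d' hd', map_one]
  refine ⟨a, d', e, ⟨ha.ne'⟩, ⟨he0⟩, ζ, had, he.symm, hnf_gcd ha had e00 e10, hζd, ?_, ?_⟩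
  · show IsExp N (iotaL _) _
    rw [iotaL_unitSer, hζ]
    have hc : iotaK (((d' : Kbar)⁻¹) ^ 12) = ((d' : ℂ)⁻¹) ^ 12 := by
      rw [map_pow, map_inv₀, map_natCast]
    rw [hc]
    exact isExp_uFun_hnf N m γ δ a d' e b ha hd' he.symm e10 e11 hact
  · show IsExp N (iotaL _) _
    rw [iotaL_unitInvSer, hζ]
    have hc : iotaK ((d' : Kbar) ^ 12) = (d' : ℂ) ^ 12 := by
      rw [map_pow, map_natCast]
    rw [hc]
    exact isExp_uFun_inv_hnf N m γ δ a d' e b ha hd' he.symm e10 e11 hact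

section RN

variable (N m : ℕ) [NeZero N] [NeZero m]

/-- the modular unit `Δ(mτ)/Δ(τ)` as an element of `RN N` -/
noncomputable def uR (hm : m ∣ N) : RN N :=
  ⟨uFun m, mdiff_uFun m, fun γ => by
    obtain ⟨a, d', e, _, _, ζ, -, -, -, -, h, -⟩ := exists_isExpK_uFun N m hm γ
    exact ⟨_, h⟩⟩

/-- the inverse `Δ(τ)/Δ(mτ)` of the modular unit as an element of `RN N` -/
noncomputable def uRinv (hm : m ∣ N) : RN N :=
  ⟨fun τ => (uFun m τ)⁻¹, mdiff_uFun_inv m, fun γ => by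
    obtain ⟨a, d', e, _, _, ζ, -, -, -, -, -, h⟩ := exists_isExpK_uFun N m hm γ
    exact ⟨_, h⟩⟩

@[simp] theorem uR_apply (hm : m ∣ N) (τ : ℍ) : ((uR N m hm : RN N) : ℍ → ℂ) τ = uFun m τ := rfl

@[simp] theorem uRinv_apply (hm : m ∣ N) (τ : ℍ) : ((uRinv N m hm : RN N) : ℍ → ℂ) τ = (uFun m τ)⁻¹ := rfl

theorem uR_mul_uRinv (hm : m ∣ N) : uR N m hm * uRinv N m hm = 1 := by
  apply RN.ext
  intro τ
  show uFun m τ * (uFun m τ)⁻¹ = 1
  exact mul_inv_cancel₀ (uFun_ne_zero m τ)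

theorem uRinv_mul_uR (hm : m ∣ N) : uRinv N m hm * uR N m hm = 1 := by
  rw [mul_comm, uR_mul_uRinv]

theorem isUnit_uR (hm : m ∣ N) : IsUnit (uR N m hm) :=
  IsUnit.of_mul_eq_one _ (uR_mul_uRinv N m hm)

/-- **83-P6**: the expansions at `∞` of all conjugates of the unit `u_m` and of its inverse -/
theorem expInf_compSL_uR (hm : m ∣ N) (γ : SL(2, ℤ)) :
    ∃ (a d' e : ℕ) (_ : NeZero a) (_ : NeZero e) (ζ : Kbar), a * d' = m ∧ d' * e = N ∧
      Int.gcd (m : ℤ) (γ 1 0) = a ∧ ζ ^ d' = 1 ∧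
      expInf N (compSL N γ (uR N m hm)) = unitSer Kbar N a e (((d' : Kbar)⁻¹) ^ 12) ζ ∧
      expInf N (compSL N γ (uRinv N m hm)) = unitInvSer Kbar N a e ((d' : Kbar) ^ 12) ζ := by
  obtain ⟨a, d', e, i1, i2, ζ, h1, h2, h3, h4, h5, h6⟩ := exists_isExpK_uFun N m hm γ
  exact ⟨a, d', e, i1, i2, ζ, h1, h2, h3, h4, expInf_eq h5, expInf_eq h6⟩

/-- the unit is `Γ₀(N)`-invariant -/
theorem uFun_smul_of_mem_Gamma0 (hm : m ∣ N) (γ : SL(2, ℤ)) (hγ : γ ∈ CongruenceSubgroup.Gamma0 N) (τ : ℍ) :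
    uFun m (γ • τ) = uFun m τ := by
  have hmpos : 0 < m := Nat.pos_of_ne_zero (NeZero.ne m)
  rw [CongruenceSubgroup.Gamma0_mem] at hγ
  have hNg : (N : ℤ) ∣ γ 1 0 := (ZMod.intCast_zmod_eq_zero_iff_dvd _ _).mp hγ
  have hmg : (m : ℤ) ∣ γ 1 0 := (Int.natCast_dvd_natCast.mpr hm).trans hNg
  -- expansion of `u ∘ γ`
  obtain ⟨a, d', e, i1, i2, ζ, h1, h2, h3, h4, h5, -⟩ := exists_isExpK_uFun N m hm γ
  -- expansion of `u = u ∘ 1`
  obtain ⟨a', d'', e', i1', i2', ζ', h1', h2', h3', h4', h5', -⟩ :=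
    exists_isExpK_uFun N m hm (1 : SL(2, ℤ))
  have ha : a = m := by
    have : Int.gcd (m : ℤ) (γ 1 0) = m := by
      obtain ⟨k, hk⟩ := hmg
      rw [hk, Int.gcd, Int.natAbs_mul, Int.natAbs_natCast]
      exact Nat.gcd_eq_left (Nat.dvd_mul_right _ _)
    omega
  have ha' : a' = m := by
    have h10 : (1 : SL(2, ℤ)) 1 0 = 0 := by simp
    rw [h10, Int.gcd_zero_right] at h3'
    simpa using h3'.symm
  subst ha
  have hd1 : d' = 1 := by
    have := Nat.pos_of_ne_zero (NeZero.ne a)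
    nlinarith [Nat.eq_of_mul_eq_mul_left this (by rw [h1, mul_one] : a * d' = a * 1)]
  have hd1' : d'' = 1 := by
    have := Nat.pos_of_ne_zero (NeZero.ne a)
    have h := ha' ▸ h1'
    nlinarith [Nat.eq_of_mul_eq_mul_left this (by rw [h, mul_one] : a * d'' = a * 1)]
  subst hd1 hd1'
  have he : e = N := by simpa using h2
  have he' : e' = N := by simpa using h2'
  subst he
  have hζ : ζ = 1 := by simpa using h4
  have hζ' : ζ' = 1 := by simpa using h4'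
  subst hζ hζ'
  -- now compare
  have hcomp : ∀ (a₁ e₁ : ℕ) (j1 : NeZero a₁) (j2 : NeZero e₁), a₁ = a → e₁ = e →
      IsExpK e (unitSer Kbar e a₁ e₁ ((((1 : ℕ) : Kbar)⁻¹) ^ 12) 1)
        (fun τ => uFun a ((1 : SL(2, ℤ)) • τ)) →
      uFun a (γ • τ) = uFun a τ := by
    intro a₁ e₁ j1 j2 h1 h2 h
    subst h1 h2
    have e1 := h5 τ
    have e2 := h τ
    have h3 : uFun a₁ (γ • τ) = uFun a₁ ((1 : SL(2, ℤ)) • τ) := e1.unique e2
    rw [h3, one_smul]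
  exact hcomp a' e' i1' i2' ha' he' h5'

theorem isInv0_uR (hm : m ∣ N) : IsInv0 N (uR N m hm) := by
  intro γ hγ
  apply RN.ext
  intro τ
  exact uFun_smul_of_mem_Gamma0 N m hm γ hγ τ

theorem isInv0_uRinv (hm : m ∣ N) : IsInv0 N (uRinv N m hm) := by
  intro γ hγ
  apply RN.ext
  intro τ
  show (uFun m (γ • τ))⁻¹ = (uFun m τ)⁻¹
  rw [uFun_smul_of_mem_Gamma0 N m hm γ hγ τ]

end RN

end Fermat.Agent.S28
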