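import Mathlib

/-!
# S28, piece 83-P9: LEMMA K (pure arithmetic)

For a finite family of "types" `a i ∣ N` (`i ∈ J`), the relations
`∑_{i ∈ J} (gcd(m, a i)^2 - m) = 0` for all `m ∣ N` force `φ(N) * |J| = J₂(N) * #{i ∈ J | a i = N}`.
In particular a family without an element of type `N` is empty.

Application (CORE of S28): `X` = cosets of `Γ₀(N)`, `I` = root set of the minimal polynomial of
`j_N` mod `ℓ`; the `t`-orders of the modular units `u_m` give the relations for `I` and for `X`.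
-/

set_option autoImplicit false

open Finset ArithmeticFunction
open scoped ArithmeticFunction.Moebius

namespace Fermat.Agent.S28

/-- Jordan's totient `J₂`, defined by Möbius inversion of `n ↦ n^2`. -/
noncomputable def jordanTwo (n : ℕ) : ℤ :=
  ∑ x ∈ n.divisorsAntidiagonal, (μ x.1 : ℤ) * ((x.2 : ℤ) ^ 2)

theorem sum_jordanTwo {n : ℕ} (hn : 0 < n) : ∑ d ∈ n.divisors, jordanTwo d = (n : ℤ) ^ 2 := by
  have h := (sum_eq_iff_sum_mul_moebius_eq (R := ℤ) (f := jordanTwo)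
    (g := fun n => (n : ℤ) ^ 2)).mpr (fun n _ => rfl)
  exact h n hn

/-- `gcd(m, a)^2 = ∑_{e ∣ m, e ∣ a} J₂(e)`. -/
theorem gcd_sq_eq_sum {m a : ℕ} (hm : 0 < m) :
    ((Nat.gcd m a : ℤ)) ^ 2 = ∑ e ∈ m.divisors, if e ∣ a then jordanTwo e else 0 := by
  have hg : 0 < Nat.gcd m a := Nat.gcd_pos_of_pos_left a hm
  rw [← sum_jordanTwo hg, ← Finset.sum_filter]
  refine Finset.sum_congr ?_ (fun _ _ => rfl)
  ext e
  simp only [Nat.mem_divisors, Finset.mem_filter, Nat.dvd_gcd_iff, ne_eq]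
  constructor
  · rintro ⟨⟨h1, h2⟩, -⟩
    exact ⟨⟨h1, hm.ne'⟩, h2⟩
  · rintro ⟨⟨h1, -⟩, h2⟩
    exact ⟨⟨h1, h2⟩, hg.ne'⟩

/-- The triangular system: if `∑_{e ∣ m} F e = 0` for all `m ∣ N` then `F e = 0` for all `e ∣ N`. -/
theorem eq_zero_of_sum_divisors_eq_zero {N : ℕ} (F : ℕ → ℤ)
    (h : ∀ m, m ∣ N → ∑ e ∈ m.divisors, F e = 0) (hN : 0 < N) :
    ∀ e, e ∣ N → F e = 0 := by
  intro e
  induction e using Nat.strong_induction_on with
  | _ e ih =>
    intro he
    have hepos : 0 < e := Nat.pos_of_dvd_of_pos he hN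
    have h1 := h e he
    rw [← Nat.cons_self_properDivisors hepos.ne', Finset.sum_cons] at h1
    have h2 : ∑ d ∈ e.properDivisors, F d = 0 := by
      refine Finset.sum_eq_zero (fun d hd => ?_)
      rw [Nat.mem_properDivisors] at hd
      exact ih d hd.2 (hd.1.trans he)
    rw [h2, add_zero] at h1
    exact h1

/-- **LEMMA K**, counting form.  `J` a finite family with types `a i`; if for every `m ∣ N`
`∑_{i ∈ J} (gcd(m, a i)^2 - m) = 0`, then `J₂(N) * #{i ∈ J | N ∣ a i} = φ(N) * |J|`. -/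
theorem lemmaK_count {ι : Type*} {N : ℕ} (hN : 0 < N) (J : Finset ι) (a : ι → ℕ)
    (h : ∀ m, m ∣ N → ∑ i ∈ J, (((Nat.gcd m (a i) : ℕ) : ℤ) ^ 2 - (m : ℤ)) = 0) :
    jordanTwo N * ((J.filter (fun i => N ∣ a i)).card : ℤ) = (Nat.totient N : ℤ) * (J.card : ℤ) := by
  classical
  set F : ℕ → ℤ := fun e =>
    jordanTwo e * ((J.filter (fun i => e ∣ a i)).card : ℤ) - (Nat.totient e : ℤ) * (J.card : ℤ)
    with hF
  have key : ∀ m, m ∣ N → ∑ e ∈ m.divisors, F e = 0 := by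
    intro m hm
    have hmpos : 0 < m := Nat.pos_of_dvd_of_pos hm hN
    have h1 := h m hm
    rw [Finset.sum_sub_distrib, Finset.sum_const, nsmul_eq_mul] at h1
    have h2 : ∑ i ∈ J, (((Nat.gcd m (a i) : ℕ) : ℤ) ^ 2)
        = ∑ e ∈ m.divisors, jordanTwo e * ((J.filter (fun i => e ∣ a i)).card : ℤ) := by
      calc ∑ i ∈ J, (((Nat.gcd m (a i) : ℕ) : ℤ) ^ 2)
          = ∑ i ∈ J, ∑ e ∈ m.divisors, (if e ∣ a i then jordanTwo e else 0) :=
            Finset.sum_congr rfl (fun i _ => gcd_sq_eq_sum hmpos)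
        _ = ∑ e ∈ m.divisors, ∑ i ∈ J, (if e ∣ a i then jordanTwo e else 0) := Finset.sum_comm
        _ = ∑ e ∈ m.divisors, jordanTwo e * ((J.filter (fun i => e ∣ a i)).card : ℤ) := by
            refine Finset.sum_congr rfl (fun e _ => ?_)
            rw [← Finset.sum_filter, Finset.sum_const, nsmul_eq_mul, mul_comm]
    have h3 : ∑ e ∈ m.divisors, (Nat.totient e : ℤ) * (J.card : ℤ) = (J.card : ℤ) * (m : ℤ) := by
      rw [← Finset.sum_mul, ← Nat.cast_sum, Nat.sum_totient, mul_comm]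
    simp only [hF, Finset.sum_sub_distrib]
    rw [← h2, h3]
    exact h1
  have := eq_zero_of_sum_divisors_eq_zero F key hN N dvd_rfl
  simp only [hF] at this
  linarith

/-- **LEMMA K**, emptiness form: a family with the unit relations and no element of type `N`
(all types divide `N`) is empty. -/
theorem lemmaK_empty {ι : Type*} {N : ℕ} (hN : 0 < N) (J : Finset ι) (a : ι → ℕ)
    (ha : ∀ i ∈ J, a i ∣ N) (hne : ∀ i ∈ J, a i ≠ N)
    (h : ∀ m, m ∣ N → ∑ i ∈ J, (((Nat.gcd m (a i) : ℕ) : ℤ) ^ 2 - (m : ℤ)) = 0) :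
    J = ∅ := by
  classical
  have h1 := lemmaK_count hN J a h
  have h2 : J.filter (fun i => N ∣ a i) = ∅ := by
    rw [Finset.filter_eq_empty_iff]
    intro i hi hdiv
    exact hne i hi (Nat.dvd_antisymm (ha i hi) hdiv)
  rw [h2, Finset.card_empty, Nat.cast_zero, mul_zero] at h1
  have h3 : (Nat.totient N : ℤ) ≠ 0 := by
    exact_mod_cast (Nat.totient_pos.mpr hN).ne'
  have h4 : (J.card : ℤ) = 0 := by
    rcases mul_eq_zero.mp h1.symm with h | h
    · exact absurd h h3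
    · exact h
  exact Finset.card_eq_zero.mp (by exact_mod_cast h4)

/-- **LEMMA K**, the form used for CORE: `I ⊆ X`, the unit relations hold for `I` and for `X`,
and every element of `X` of type `N` lies in `I`.  Then `I = X`. -/
theorem lemmaK_eq {ι : Type*} [DecidableEq ι] {N : ℕ} (hN : 0 < N) (X I : Finset ι)
    (hIX : I ⊆ X) (a : ι → ℕ) (ha : ∀ i ∈ X, a i ∣ N) (htop : ∀ i ∈ X, a i = N → i ∈ I)
    (hI : ∀ m, m ∣ N → ∑ i ∈ I, (((Nat.gcd m (a i) : ℕ) : ℤ) ^ 2 - (m : ℤ)) = 0)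
    (hX : ∀ m, m ∣ N → ∑ i ∈ X, (((Nat.gcd m (a i) : ℕ) : ℤ) ^ 2 - (m : ℤ)) = 0) :
    I = X := by
  have hJ : X \ I = ∅ := by
    refine lemmaK_empty hN (X \ I) a (fun i hi => ha i (Finset.mem_sdiff.mp hi).1) ?_ ?_
    · intro i hi hN'
      exact (Finset.mem_sdiff.mp hi).2 (htop i (Finset.mem_sdiff.mp hi).1 hN')
    · intro m hm
      have := Finset.sum_sdiff (f := fun i => (((Nat.gcd m (a i) : ℕ) : ℤ) ^ 2 - (m : ℤ))) hIX
      rw [hI m hm, hX m hm, add_zero] at this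
      exact this
  exact Finset.Subset.antisymm hIX (Finset.sdiff_eq_empty_iff_subset.mp hJ)

end Fermat.Agent.S28
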