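import Fermat.Agent.S28.CoreMain
import Fermat.Agent.S28.NormPolyRed

/-!
# S28, piece 83-P10: CORE

`core : ¬ ℓ ∣ N → CoreStatement ℓ N`: the reductions mod `ℓ` of `1, j_N, …, j_N^(ψ(N)-1)` are
linearly independent over `𝔽_ℓ(j)`.  Glue of the reduced norm polynomials (83-P7) with the
assembly `core_of_normPolysRed` (S28/CoreMain.lean).
-/

set_option autoImplicit false
open scoped MatrixGroups

namespace Fermat.Agent.S28
open Fermat.Agent.FF ModularCurve

section CoreGlue
variable (N : ℕ) [NeZero N] {ℓ : ℕ} (hℓ : ℓ.Prime) (hℓN : ¬ ℓ ∣ N)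
variable (A : ValuationSubring Kbar) (hA : A.LiesOverPrime ℓ)

open scoped Classical in
/-- the reduced norm polynomials, in the shape consumed by the assembly -/
theorem normPolysRed [Fintype (FF.X N)] : NormPolysRed N hℓ hℓN A hA := by
  have hg : ∀ i : FF.X N, (QuotientGroup.mk (Quotient.out i) : FF.X N) = i :=
    fun i => QuotientGroup.out_eq' i
  have hJ : IsInv0 N (jR N N dvd_rfl) := fun γ hγ => compSL_jR N N dvd_rfl γ hγ
  refine ⟨?_, ?_⟩
  · obtain ⟨Φ, hΦ⟩ := exists_prodPoly_red N A hJ (expInf_compSL_jR_mem N A N dvd_rfl)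
      (fun i => Quotient.out i) hg
    exact ⟨Φ, hΦ⟩
  · intro m hm
    have : NeZero m := neZero_of_dvd_core N hm
    obtain ⟨M, hM⟩ := exists_prodPoly_red N A (isInv0_uR N m hm)
      (expInf_compSL_uR_mem N m hm hℓ hℓN A hA) (fun i => Quotient.out i) hg
    obtain ⟨M', hM'⟩ := exists_prodPoly_red N A (isInv0_uRinv N m hm)
      (expInf_compSL_uRinv_mem N m hm hℓ hℓN A hA) (fun i => Quotient.out i) hg
    obtain ⟨G, hG⟩ := exists_lagrPoly_red N A (isInv0_uR N m hm) hJ
      (expInf_compSL_uR_mem N m hm hℓ hℓN A hA) (expInf_compSL_jR_mem N A N dvd_rfl)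
      (fun i => Quotient.out i) hg
    refine ⟨M, M', G, ?_, ?_, ?_⟩
    · refine hM.trans ?_
      refine Finset.prod_congr rfl fun i _ => ?_
      rw [uRed_of_dvd N hℓ hℓN A hA hm]
    · refine hM'.trans ?_
      refine Finset.prod_congr rfl fun i _ => ?_
      rw [uRed_of_dvd N hℓ hℓN A hA hm]
      congr 2
      exact eq_inv_of_mul_eq_one_right (redS_uR_mul_redS_uRinv N m hm hℓ hℓN A hA _)
    · refine hG.trans ?_
      refine Finset.sum_congr rfl fun i _ => ?_
      rw [uRed_of_dvd N hℓ hℓN A hA hm]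
      rfl

end CoreGlue

/-- **CORE** (83-P10): for `ℓ ∤ N` the reductions mod `ℓ` of `1, j_N, …, j_N^(ψ(N)-1)` are
linearly independent over `𝔽_ℓ(j)`. -/
theorem core (ℓ N : ℕ) [Fact ℓ.Prime] [NeZero N] (hℓN : ¬ ℓ ∣ N) : CoreStatement ℓ N :=
  core_of_normPolysRed ℓ N hℓN
    (fun A hA inst => @normPolysRed N _ ℓ (Fact.out : ℓ.Prime) hℓN A hA inst)

end Fermat.Agent.S28
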