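import Fermat.Agent.S28.BridgeNF

/-!
# S28 bridge, part 4: `F ∩ {reducible series}` is spanned by `1, j_N, …, j_N^(ψ-1)` over the
Gauss localization of `ℤ[j]`
-/

set_option autoImplicit false
open ModularCurve Polynomial

noncomputable section
namespace Fermat.Agent.S28

variable (ℓ : ℕ) [Fact ℓ.Prime]

theorem evalAtJ_ne_zero_of_redPoly {s : ℤ[X]} (hs : redPoly ℓ s ≠ 0) : evalAtJ s ≠ 0 := by
  intro h
  have h1 : evZ s = 0 := by
    apply iotaZ_injective
    rw [iotaZ_evZ, h, map_zero]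
  have h2 := piZ_evZ ℓ s
  rw [h1, map_zero] at h2
  exact evalAtJbar_ne_zero ℓ hs h2.symm

/-- `ℤ[j]` localized at the Gauss prime `(ℓ)`, inside `ℚ((q))` -/
def gaussLoc : Subring (LaurentSeries ℚ) where
  carrier := {c | ∃ p s : ℤ[X], redPoly ℓ s ≠ 0 ∧ evalAtJ s * c = evalAtJ p}
  mul_mem' := by
    rintro c c' ⟨p, s, hs, h⟩ ⟨p', s', hs', h'⟩
    exact ⟨p * p', s * s', redPoly_mul_ne_zero hs hs', by
      rw [map_mul, map_mul, ← h, ← h']; ring⟩
  one_mem' := ⟨1, 1, by simp [redPoly], by simp⟩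
  add_mem' := by
    rintro c c' ⟨p, s, hs, h⟩ ⟨p', s', hs', h'⟩
    exact ⟨s' * p + s * p', s * s', redPoly_mul_ne_zero hs hs', by
      rw [map_mul, map_add, map_mul, map_mul, ← h, ← h']; ring⟩
  zero_mem' := ⟨0, 1, by simp [redPoly], by simp⟩
  neg_mem' := by
    rintro c ⟨p, s, hs, h⟩
    exact ⟨-p, s, hs, by rw [map_neg, ← h]; ring⟩

theorem mem_gaussLoc {c : LaurentSeries ℚ} :
    c ∈ gaussLoc ℓ ↔ ∃ p s : ℤ[X], redPoly ℓ s ≠ 0 ∧ evalAtJ s * c = evalAtJ p := Iff.rfl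

/-- the monoid of denominators: integer polynomials nonzero mod `ℓ` -/
def gaussMonoid : Submonoid ℤ[X] where
  carrier := {s | redPoly ℓ s ≠ 0}
  mul_mem' := fun hs hs' => redPoly_mul_ne_zero hs hs'
  one_mem' := by simp [redPoly]

theorem mem_gaussMonoid {s : ℤ[X]} : s ∈ gaussMonoid ℓ ↔ redPoly ℓ s ≠ 0 := Iff.rfl

theorem gaussLoc_le_redSubring : gaussLoc ℓ ≤ redSubring ℓ := by
  rintro c ⟨p, s, hs, h⟩
  have := IsRed.of_mul (ℓ := ℓ) (x := c) s hs (by rw [h]; exact isRed_evalAtJ p)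
  exact this.mem

variable (N : ℕ) [NeZero N]

omit [Fact ℓ.Prime] in
theorem jq_mem_full : jq ∈ modularFunctionFieldFull N :=
  modularFunctionField_le_full N (jq_mem N)

theorem jqN_mem_full : jqN N ∈ modularFunctionFieldFull N :=
  modularFunctionField_le_full N (jqN_mem N)

theorem evalAtJ_mem_full (p : ℤ[X]) : evalAtJ p ∈ modularFunctionFieldFull N := by
  induction p using Polynomial.induction_on' with
  | add p q hp hq => rw [map_add]; exact add_mem hp hq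
  | monomial n a =>
    rw [← C_mul_X_pow_eq_monomial, map_mul, map_pow, evalAtJ_X, evalAtJ_C_intCast]
    exact mul_mem (intCast_mem _ a) (pow_mem (jq_mem_full N) n)

/-- `W = F ∩ {reducible series}` -/
def redField : Subring (LaurentSeries ℚ) :=
  (modularFunctionFieldFull N).toSubfield.toSubring ⊓ redSubring ℓ

omit [NeZero N] in
theorem mem_redField {x : LaurentSeries ℚ} :
    x ∈ redField ℓ N ↔ x ∈ modularFunctionFieldFull N ∧ x ∈ redSubring ℓ := Iff.rfl

theorem gaussLoc_le_redField : gaussLoc ℓ ≤ redField ℓ N := by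
  intro c hc
  refine ⟨?_, gaussLoc_le_redSubring ℓ hc⟩
  obtain ⟨p, s, hs, h⟩ := hc
  have hs0 := evalAtJ_ne_zero_of_redPoly ℓ hs
  have : c = (evalAtJ s)⁻¹ * evalAtJ p := by
    rw [← h, ← mul_assoc, inv_mul_cancel₀ hs0, one_mul]
  rw [this]
  show _ ∈ modularFunctionFieldFull N
  exact mul_mem (inv_mem (evalAtJ_mem_full N s)) (evalAtJ_mem_full N p)

theorem jqN_mem_redField : jqN N ∈ redField ℓ N :=
  ⟨jqN_mem_full N, (isRed_jqN N).mem⟩

/-- GEN + CORE: every element of `W` is a combination of `1, j_N, …, j_N^(ψ-1)` with coefficients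
in the Gauss localization. -/
theorem exists_coeffs (hcore : CoreStatement ℓ N) (hgen : GenStatement N)
    {w : LaurentSeries ℚ} (hw : w ∈ redField ℓ N) :
    ∃ c : ℕ → LaurentSeries ℚ, (∀ i, c i ∈ gaussLoc ℓ) ∧
      w = ∑ i ∈ Finset.range (dedekindPsi N), c i * (jqN N) ^ i := by
  obtain ⟨hwF, hwR⟩ := hw
  obtain ⟨a, s, hs, ha, h⟩ := hgen w hwF
  obtain ⟨a', s', hs', ha', h'⟩ := exists_normalForm ℓ N hcore (noBad_of_mem ℓ hwR) a s hs ha h
  have hs0 := evalAtJ_ne_zero_of_redPoly ℓ hs'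
  refine ⟨fun i => (evalAtJ s')⁻¹ * evalAtJ (a'.coeff i), fun i => ?_, ?_⟩
  · exact ⟨a'.coeff i, s', hs', by rw [← mul_assoc, mul_inv_cancel₀ hs0, one_mul]⟩
  · have : w = (evalAtJ s')⁻¹ * a'.eval₂ evalAtJ (jqN N) := by
      rw [← h', ← mul_assoc, inv_mul_cancel₀ hs0, one_mul]
    rw [this, eval₂_eq_sum_range' evalAtJ ha', Finset.mul_sum]
    refine Finset.sum_congr rfl fun i _ => ?_
    ring

end Fermat.Agent.S28
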