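import Mathlib
import Fermat.Prelude.Def_ModularCurve_IgusaScheme
import Fermat.Prelude.Def_ModularCurve_X0ModL

/-!
# S28 bridge: the two inputs of the bridge (83-P11..P13), as `Prop`-valued definitions

* `CoreStatement ℓ N` (83-P10, CORE): `1, j_N, …, j_N^(ψ(N)-1)` are linearly independent over
  `𝔽_ℓ(j)` inside `𝔽_ℓ((q))`, in polynomial form.
* `GenStatement N` (83-P2): every element of the full function field is `a(j, j_N)/s(j)` with
  integer polynomials and `deg_X a < ψ(N)`.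
-/

set_option autoImplicit false
open ModularCurve

noncomputable section
namespace Fermat.Agent.S28

/-- evaluation of `𝔽_ℓ[Y]` at `j mod ℓ` -/
def evalAtJbar (ℓ : ℕ) [Fact ℓ.Prime] : Polynomial (ZMod ℓ) →+* LaurentSeries (ZMod ℓ) :=
  (Polynomial.aeval (R := ZMod ℓ) (jqModC (ZMod ℓ))).toRingHom

theorem evalAtJbar_X (ℓ : ℕ) [Fact ℓ.Prime] : evalAtJbar ℓ Polynomial.X = jqModC (ZMod ℓ) := by
  simp [evalAtJbar]

theorem evalAtJbar_C (ℓ : ℕ) [Fact ℓ.Prime] (c : ZMod ℓ) :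
    evalAtJbar ℓ (Polynomial.C c) = algebraMap (ZMod ℓ) (LaurentSeries (ZMod ℓ)) c := by
  simp [evalAtJbar]

/-- **CORE** (83-P10) in the form used by the bridge. -/
def CoreStatement (ℓ N : ℕ) [Fact ℓ.Prime] [NeZero N] : Prop :=
  ∀ P : Polynomial (Polynomial (ZMod ℓ)), P.natDegree < dedekindPsi N →
    P.eval₂ (evalAtJbar ℓ) (jqNModC (ZMod ℓ) N) = 0 → P = 0

/-- **GEN** (83-P2) in the form used by the bridge. -/
def GenStatement (N : ℕ) [NeZero N] : Prop :=
  ∀ f ∈ modularFunctionFieldFull N, ∃ (a : Polynomial (Polynomial ℤ)) (s : Polynomial ℤ),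
    s ≠ 0 ∧ a.natDegree < dedekindPsi N ∧ evalAtJ s * f = a.eval₂ evalAtJ (jqN N)

end Fermat.Agent.S28
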