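import Mathlib
import Fermat.Prelude.Def_ModularCurve_LaurentCoeff

/-!
# S28, piece 83-P2 (GEN), part 1: pure algebra

* descent of a polynomial relation between Laurent series with rational coefficients from an
  extension field `L` of `ℚ` to `ℚ`, by applying a `ℚ`-linear functional `L → ℚ` coefficientwise;
* clearing the denominators of finitely many polynomials over `ℚ`.
-/

set_option autoImplicit false
open Polynomial ModularCurve

noncomputable section
namespace Fermat.Agent.S28

section Descent

variable {L : Type*} [Field L] [Algebra ℚ L]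

/-- a `ℚ`-linear functional applied to the coefficients of a polynomial -/
def polyFunctional (φ : L →ₗ[ℚ] ℚ) : L[X] →+ ℚ[X] where
  toFun p := p.sum fun k c => monomial k (φ c)
  map_zero' := by simp
  map_add' p q := Polynomial.sum_add_index p q _ (by simp) (by simp)

theorem polyFunctional_monomial (φ : L →ₗ[ℚ] ℚ) (m : ℕ) (c : L) :
    polyFunctional φ (monomial m c) = monomial m (φ c) := by
  show (monomial m c).sum (fun k c => monomial k (φ c)) = _
  rw [Polynomial.sum_monomial_index]
  simp

@[simp] theorem coeff_polyFunctional (φ : L →ₗ[ℚ] ℚ) (p : L[X]) (k : ℕ) :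
    (polyFunctional φ p).coeff k = φ (p.coeff k) := by
  induction p using Polynomial.induction_on' with
  | add p q hp hq => rw [map_add, coeff_add, coeff_add, hp, hq, map_add]
  | monomial m c =>
    rw [polyFunctional_monomial, coeff_monomial, coeff_monomial]
    split_ifs <;> simp

/-- a `ℚ`-linear functional applied to the coefficients of a Laurent series -/
def serFunctional (φ : L →ₗ[ℚ] ℚ) : LaurentSeries L →+ LaurentSeries ℚ where
  toFun x := x.map φ
  map_zero' := by
    ext k
    simp
  map_add' x y := by
    ext k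
    simp

@[simp] theorem coeff_serFunctional (φ : L →ₗ[ℚ] ℚ) (x : LaurentSeries L) (k : ℤ) :
    (serFunctional φ x).coeff k = φ (x.coeff k) := rfl

theorem serFunctional_C_mul (φ : L →ₗ[ℚ] ℚ) (c : L) (x : LaurentSeries ℚ) :
    serFunctional φ (HahnSeries.C c * coeffEmb L x) = HahnSeries.C (φ c) * x := by
  ext k
  rw [coeff_serFunctional, HahnSeries.C_mul_eq_smul, HahnSeries.C_mul_eq_smul,
    HahnSeries.coeff_smul, HahnSeries.coeff_smul, coeffEmb_coeff, smul_eq_mul, smul_eq_mul,
    mul_comm c, ← Algebra.smul_def, map_smul, smul_eq_mul, mul_comm]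

theorem serFunctional_aeval_mul (φ : L →ₗ[ℚ] ℚ) (J x : LaurentSeries ℚ) (p : L[X]) :
    serFunctional φ (aeval (coeffEmb L J) p * coeffEmb L x) =
      aeval J (polyFunctional φ p) * x := by
  induction p using Polynomial.induction_on' with
  | add p q hp hq =>
    rw [map_add, add_mul, map_add, hp, hq, map_add, map_add, add_mul]
  | monomial m c =>
    rw [polyFunctional_monomial, aeval_monomial, aeval_monomial, mul_assoc, ← map_pow,
      ← map_mul, mul_assoc]
    have h1 : algebraMap L (LaurentSeries L) c = HahnSeries.C c := by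
      rw [algebraMap_laurentSeries_eq_single]
      rfl
    have h2 : algebraMap ℚ (LaurentSeries ℚ) (φ c) = HahnSeries.C (φ c) := by
      rw [algebraMap_laurentSeries_eq_single]
      rfl
    rw [h1, h2, serFunctional_C_mul]

/-- **Descent of a relation**: a relation `s(J) f = ∑_{k<n} A_k(J) Θ^k` with coefficients in `L`
between series with rational coefficients gives the same relation with the coefficients
replaced by their images under any `ℚ`-linear functional. -/
theorem descend_relation (φ : L →ₗ[ℚ] ℚ) (J Θ f : LaurentSeries ℚ) (n : ℕ) (s : L[X])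
    (A : ℕ → L[X])
    (h : aeval (coeffEmb L J) s * coeffEmb L f =
      ∑ k ∈ Finset.range n, aeval (coeffEmb L J) (A k) * (coeffEmb L Θ) ^ k) :
    aeval J (polyFunctional φ s) * f =
      ∑ k ∈ Finset.range n, aeval J (polyFunctional φ (A k)) * Θ ^ k := by
  have h1 := congrArg (serFunctional φ) h
  rw [serFunctional_aeval_mul, map_sum] at h1
  rw [h1]
  refine Finset.sum_congr rfl fun k _ => ?_
  rw [← map_pow, serFunctional_aeval_mul]

/-- a nonzero polynomial stays nonzero under a suitable functional -/
theorem exists_polyFunctional_ne_zero {s : L[X]} (hs : s ≠ 0) :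
    ∃ φ : L →ₗ[ℚ] ℚ, polyFunctional φ s ≠ 0 := by
  obtain ⟨m, hm⟩ : ∃ m, s.coeff m ≠ 0 := by
    by_contra hcon
    exact hs (Polynomial.ext fun k => by
      rw [coeff_zero]
      by_contra hk
      exact hcon ⟨k, hk⟩)
  obtain ⟨φ, hφ⟩ := Module.Projective.exists_dual_ne_zero ℚ hm
  refine ⟨φ, fun h0 => hφ ?_⟩
  have := congrArg (fun p : ℚ[X] => p.coeff m) h0
  simpa using this

end Descent

section Clear

/-- clearing the denominator of one polynomial -/
theorem exists_int_multiple_one (p : ℚ[X]) :
    ∃ d : ℤ, d ≠ 0 ∧ ∃ p' : ℤ[X], p'.map (Int.castRingHom ℚ) = C (d : ℚ) * p := by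
  obtain ⟨b, hb, hb2⟩ := IsLocalization.integerNormalization_spec (nonZeroDivisors ℤ) p
  refine ⟨b, nonZeroDivisors.ne_zero hb, IsLocalization.integerNormalization (nonZeroDivisors ℤ) p,
    ?_⟩
  have h3 : algebraMap ℤ ℚ = Int.castRingHom ℚ := rfl
  rw [h3] at hb2
  rw [hb2]
  ext k
  simp [zsmul_eq_mul]

/-- clearing the denominators of finitely many polynomials -/
theorem exists_int_multiple (n : ℕ) (p : ℕ → ℚ[X]) :
    ∃ d : ℤ, d ≠ 0 ∧ ∀ k < n, ∃ p' : ℤ[X], p'.map (Int.castRingHom ℚ) = C (d : ℚ) * p k := by
  induction n with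
  | zero => exact ⟨1, one_ne_zero, fun k hk => absurd hk (Nat.not_lt_zero k)⟩
  | succ n ih =>
    obtain ⟨d, hd, hdp⟩ := ih
    obtain ⟨e, he, q, hq⟩ := exists_int_multiple_one (p n)
    refine ⟨d * e, mul_ne_zero hd he, fun k hk => ?_⟩
    rcases Nat.lt_succ_iff_lt_or_eq.mp hk with hk' | rfl
    · obtain ⟨p', hp'⟩ := hdp k hk'
      refine ⟨C e * p', ?_⟩
      rw [Polynomial.map_mul, hp', Polynomial.map_C]
      simp only [eq_intCast, Int.cast_mul, map_mul]
      ring
    · refine ⟨C d * q, ?_⟩
      rw [Polynomial.map_mul, hq, Polynomial.map_C]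
      simp only [eq_intCast, Int.cast_mul, map_mul]
      ring

end Clear

end Fermat.Agent.S28
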