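import Mathlib
import Fermat.Agent.S28.GenAlg
import Fermat.Agent.S28.GenBar
import Fermat.Agent.S28.BridgeDefs

/-!
# S28, piece 83-P2: `GenStatement N`

Every element `f` of the full modular function field `ℚ(j_d : d ∣ N) ⊂ ℚ((q))` satisfies
`s(j) f = a(j, j_N)` with `s ∈ ℤ[Y]` nonzero and `a ∈ ℤ[Y][X]` of `X`-degree `< ψ(N)`.
-/

set_option autoImplicit false
open Polynomial ModularCurve

noncomputable section
namespace Fermat.Agent.S28

theorem dedekindPsi_pos (N : ℕ) [NeZero N] : 0 < dedekindPsi N := by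
  rw [← Fermat.Agent.FF.card_X_eq N]
  exact Nat.card_pos

theorem evalAtJ_eq_aeval_map (p : ℤ[X]) :
    evalAtJ p = aeval jq (p.map (Int.castRingHom ℚ)) := by
  have h : evalAtJ = ((aeval jq : ℚ[X] →ₐ[ℚ] LaurentSeries ℚ).toRingHom).comp
      (Polynomial.mapRingHom (Int.castRingHom ℚ)) := by
    refine Polynomial.ringHom_ext' (Subsingleton.elim _ _) ?_
    simp [evalAtJ]
  rw [h]
  rfl

/-- **83-P2 (GEN)** -/
theorem gen (N : ℕ) [NeZero N] : GenStatement N := by
  intro f hf
  obtain ⟨s, hs, A, hA⟩ := gen_bar_series N f hf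
  obtain ⟨φ, hφ⟩ := exists_polyFunctional_ne_zero hs
  have h1 := descend_relation φ jq (jqN N) f (dedekindPsi N) s A hA
  obtain ⟨d, hd, hdp⟩ := exists_int_multiple (dedekindPsi N + 1)
    (fun k => if k = 0 then polyFunctional φ s else polyFunctional φ (A (k - 1)))
  obtain ⟨s', hs'⟩ := hdp 0 (Nat.succ_pos _)
  rw [if_pos rfl] at hs'
  have hA' : ∀ k, k < dedekindPsi N → ∃ a' : ℤ[X],
      a'.map (Int.castRingHom ℚ) = C (d : ℚ) * polyFunctional φ (A k) := fun k hk => by
    have h := hdp (k + 1) (Nat.succ_lt_succ hk)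
    rwa [if_neg (Nat.succ_ne_zero k), Nat.add_sub_cancel] at h
  choose! A' hA'' using hA'
  have hd' : (d : ℚ) ≠ 0 := by exact_mod_cast hd
  refine ⟨∑ k ∈ Finset.range (dedekindPsi N), C (A' k) * X ^ k, s', ?_, ?_, ?_⟩
  · intro h0
    rw [h0, Polynomial.map_zero] at hs'
    rcases mul_eq_zero.mp hs'.symm with h | h
    · exact hd' (by simpa using h)
    · exact hφ h
  · have hpos := dedekindPsi_pos N
    have hle : (∑ k ∈ Finset.range (dedekindPsi N), C (A' k) * X ^ k :
        Polynomial (Polynomial ℤ)).natDegree ≤ dedekindPsi N - 1 := by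
      rw [Polynomial.natDegree_le_iff_coeff_eq_zero]
      intro m hm
      rw [Polynomial.finsetSum_coeff]
      refine Finset.sum_eq_zero fun k hk => ?_
      rw [Polynomial.coeff_C_mul, Polynomial.coeff_X_pow, if_neg, mul_zero]
      have := Finset.mem_range.mp hk
      omega
    omega
  · rw [evalAtJ_eq_aeval_map, hs', map_mul, Polynomial.aeval_C, mul_assoc, h1,
      Polynomial.eval₂_finsetSum, Finset.mul_sum]
    refine Finset.sum_congr rfl fun k hk => ?_
    rw [Polynomial.eval₂_mul, Polynomial.eval₂_C, Polynomial.eval₂_pow, Polynomial.eval₂_X,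
      evalAtJ_eq_aeval_map, hA'' k (Finset.mem_range.mp hk), map_mul, Polynomial.aeval_C,
      mul_assoc]

end Fermat.Agent.S28
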