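import Mathlib
import Fermat.Prelude.Def_GaloisRep_Flat
import Fermat.Prelude.Def_ModularCurve_LaurentCoeff

/-!
# S28, piece 83-P3: `R ⊗_{ℤ_(ℓ)} K` is a domain

If a `ℤ_(ℓ)`-algebra `R` has a ring homomorphism `red : R →+* 𝔽_ℓ((q))` whose kernel is contained
in `ℓ R`, then for every field `K` of characteristic `ℓ` (with any `ℤ_(ℓ)`-algebra structure) the
ring `R ⊗_{ℤ_(ℓ)} K` embeds into `K((q))`; in particular it is a domain.
-/

set_option autoImplicit false

open scoped TensorProduct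

namespace Fermat.Agent.S28

/-- Ring homomorphisms out of `ℤ_(ℓ) = ratLocalizedAt ℓ` are unique. -/
theorem ratLocalizedAt_ringHom_ext (ℓ : ℕ) {S : Type*} [Ring S]
    (f g : ↥(GaloisRep.ratLocalizedAt ℓ) →+* S) : f = g := by
  ext ⟨x, hx⟩
  have hd0 : (x.den : ℚ) ≠ 0 := by exact_mod_cast x.den_nz
  have hu : ((x.den : ℚ))⁻¹ ∈ GaloisRep.ratLocalizedAt ℓ := by
    show ((x.den : ℚ)⁻¹).den.Coprime ℓ
    have h1 : ((x.den : ℚ)⁻¹).den = x.den := by
      have := Rat.inv_natCast_den_of_pos (Nat.pos_of_ne_zero x.den_nz)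
      simpa using this
    rw [h1]; exact hx
  set u : ↥(GaloisRep.ratLocalizedAt ℓ) := ⟨(x.den : ℚ)⁻¹, hu⟩ with hudef
  have h1 : ((x.den : ℕ) : ↥(GaloisRep.ratLocalizedAt ℓ)) * u = 1 := by
    apply Subtype.ext
    simp [hudef, hd0]
  have hx' : (⟨x, hx⟩ : ↥(GaloisRep.ratLocalizedAt ℓ)) =
      ((x.num : ℤ) : ↥(GaloisRep.ratLocalizedAt ℓ)) * u := by
    apply Subtype.ext
    simp only [hudef, Subring.coe_mul, Subring.coe_intCast]
    rw [← div_eq_mul_inv, Rat.num_div_den]
  have hf : (x.den : S) * f u = 1 := by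
    have := congrArg f h1
    simpa using this
  have hg : (x.den : S) * g u = 1 := by
    have := congrArg g h1
    simpa using this
  have hf' : f u * (x.den : S) = 1 := by
    have h2 : u * ((x.den : ℕ) : ↥(GaloisRep.ratLocalizedAt ℓ)) = 1 := by
      rw [mul_comm]; exact h1
    have := congrArg f h2
    simpa using this
  have hfg : f u = g u := by
    calc f u = f u * ((x.den : S) * g u) := by rw [hg, mul_one]
      _ = (f u * (x.den : S)) * g u := by rw [mul_assoc]
      _ = g u := by rw [hf', one_mul]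
  rw [hx', map_mul, map_mul, map_intCast, map_intCast, hfg]

section Main

variable (ℓ : ℕ) [Fact ℓ.Prime]
variable (R : Type) [CommRing R] [Algebra ↥(GaloisRep.ratLocalizedAt ℓ) R]
variable (K : Type) [Field K] [CharP K ℓ] [Algebra ↥(GaloisRep.ratLocalizedAt ℓ) K]

/-- the canonical map `𝔽_ℓ((q)) → K((q))` for a field `K` of characteristic `ℓ` -/
noncomputable def coeffToK : LaurentSeries (ZMod ℓ) →+* LaurentSeries K :=
  ModularCurve.coeffMap (ZMod.castHom (dvd_refl ℓ) K)

/-- the first factor `R → K((q))` as a `ℤ_(ℓ)`-algebra homomorphism -/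
noncomputable def redAlgHom (red : R →+* LaurentSeries (ZMod ℓ)) :
    R →ₐ[↥(GaloisRep.ratLocalizedAt ℓ)] LaurentSeries K where
  __ := (coeffToK ℓ K).comp red
  commutes' a := by
    have h := ratLocalizedAt_ringHom_ext ℓ
      (((coeffToK ℓ K).comp red).comp (algebraMap ↥(GaloisRep.ratLocalizedAt ℓ) R))
      (algebraMap ↥(GaloisRep.ratLocalizedAt ℓ) (LaurentSeries K))
    exact congrArg (fun f => f a) h

/-- the second factor `K → K((q))` as a `ℤ_(ℓ)`-algebra homomorphism -/
noncomputable def constAlgHom :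
    K →ₐ[↥(GaloisRep.ratLocalizedAt ℓ)] LaurentSeries K where
  __ := algebraMap K (LaurentSeries K)
  commutes' a := by
    have h := ratLocalizedAt_ringHom_ext ℓ
      ((algebraMap K (LaurentSeries K)).comp (algebraMap ↥(GaloisRep.ratLocalizedAt ℓ) K))
      (algebraMap ↥(GaloisRep.ratLocalizedAt ℓ) (LaurentSeries K))
    exact congrArg (fun f => f a) h

/-- the map `R ⊗_{ℤ_(ℓ)} K → K((q))`, `r ⊗ c ↦ c • red r`. -/
noncomputable def tensorToLaurent (red : R →+* LaurentSeries (ZMod ℓ)) :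
    (R ⊗[↥(GaloisRep.ratLocalizedAt ℓ)] K) →ₐ[↥(GaloisRep.ratLocalizedAt ℓ)] LaurentSeries K :=
  Algebra.TensorProduct.productMap (redAlgHom ℓ R K red) (constAlgHom ℓ K)

theorem tensorToLaurent_tmul (red : R →+* LaurentSeries (ZMod ℓ)) (r : R) (c : K) :
    tensorToLaurent ℓ R K red (r ⊗ₜ c) =
      coeffToK ℓ K (red r) * algebraMap K (LaurentSeries K) c := by
  rw [tensorToLaurent, Algebra.TensorProduct.productMap_apply_tmul]
  rfl

theorem tensorToLaurent_tmul_coeff (red : R →+* LaurentSeries (ZMod ℓ)) (r : R) (c : K) (n : ℤ) :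
    (tensorToLaurent ℓ R K red (r ⊗ₜ c)).coeff n =
      ZMod.castHom (dvd_refl ℓ) K ((red r).coeff n) * c := by
  rw [tensorToLaurent_tmul, ModularCurve.algebraMap_laurentSeries_eq_single,
    HahnSeries.coeff_mul_single_zero]  
  rfl

/-- every element of `R ⊗ K` is a finite sum `∑ r_β ⊗ b_β` over a basis `b` of `K` over `𝔽_ℓ` -/
theorem exists_basis_repr_tensor {ι : Type*}
    (b : letI : Algebra (ZMod ℓ) K := ZMod.algebra K ℓ; Module.Basis ι (ZMod ℓ) K)
    (x : R ⊗[↥(GaloisRep.ratLocalizedAt ℓ)] K) :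
    ∃ c : ι →₀ R, x = c.sum (fun β r => r ⊗ₜ[↥(GaloisRep.ratLocalizedAt ℓ)] b β) := by
  classical
  letI : Algebra (ZMod ℓ) K := ZMod.algebra K ℓ
  haveI : NeZero ℓ := ⟨(Fact.out : ℓ.Prime).ne_zero⟩
  induction x using TensorProduct.induction_on with
  | zero => exact ⟨0, by simp⟩
  | tmul r k =>
    refine ⟨Finsupp.mapRange (fun z : ZMod ℓ => (z.val : ℕ) • r) (by simp) (b.repr k), ?_⟩
    rw [Finsupp.sum_mapRange_index (by intro β; simp)]
    have hk : k = (b.repr k).sum (fun β z => (z.val : ℕ) • b β) := by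
      conv_lhs => rw [← b.linearCombination_repr k, Finsupp.linearCombination_apply]
      refine Finsupp.sum_congr fun β _ => ?_
      rw [← Nat.cast_smul_eq_nsmul (ZMod ℓ), ZMod.natCast_zmod_val]
    conv_lhs => rw [hk]
    rw [Finsupp.sum, TensorProduct.tmul_sum, Finsupp.sum]
    refine Finset.sum_congr rfl fun β _ => ?_
    rw [TensorProduct.smul_tmul]
  | add x y hx hy =>
    obtain ⟨c₁, rfl⟩ := hx
    obtain ⟨c₂, rfl⟩ := hy
    refine ⟨c₁ + c₂, ?_⟩
    rw [Finsupp.sum_add_index' (by intro β; simp) (by intro β r₁ r₂; rw [TensorProduct.add_tmul])]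

/-- **83-P3**: `R ⊗_{ℤ_(ℓ)} K` embeds in `K((q))` when `R / ℓ` embeds in `𝔽_ℓ((q))`. -/
theorem tensorToLaurent_injective (red : R →+* LaurentSeries (ZMod ℓ))
    (hker : ∀ r : R, red r = 0 → ∃ s : R, r = (ℓ : R) * s) :
    Function.Injective (tensorToLaurent ℓ R K red) := by
  classical
  letI : Algebra (ZMod ℓ) K := ZMod.algebra K ℓ
  let b := Module.Free.chooseBasis (ZMod ℓ) K
  rw [injective_iff_map_eq_zero]
  intro x hx
  obtain ⟨c, rfl⟩ := exists_basis_repr_tensor ℓ R K b x
  have hred : ∀ β, red (c β) = 0 := by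
    intro β
    ext n
    have hn := congrArg (fun y : LaurentSeries K => y.coeff n) hx
    simp only [Finsupp.sum, map_sum, HahnSeries.coeff_zero] at hn
    rw [HahnSeries.coeff_sum] at hn
    simp only [tensorToLaurent_tmul_coeff] at hn
    set g : Module.Free.ChooseBasisIndex (ZMod ℓ) K →₀ ZMod ℓ :=
      Finsupp.mapRange (fun r : R => (red r).coeff n) (by simp) c with hg
    have hlc : Finsupp.linearCombination (ZMod ℓ) b g = 0 := by
      rw [Finsupp.linearCombination_apply, hg,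
        Finsupp.sum_mapRange_index (by intro β; simp), Finsupp.sum]
      rw [← hn]
      refine Finset.sum_congr rfl fun β _ => ?_
      rw [Algebra.smul_def]
      rfl
    have hg0 : g = 0 := by
      have := b.repr_linearCombination g
      rw [hlc, map_zero] at this
      exact this.symm
    have := DFunLike.congr_fun hg0 β
    simpa [hg] using this
  rw [Finsupp.sum]
  refine Finset.sum_eq_zero fun β _ => ?_
  obtain ⟨s, hs⟩ := hker (c β) (hred β)
  rw [hs, ← nsmul_eq_mul, TensorProduct.smul_tmul, nsmul_eq_mul, CharP.cast_eq_zero, zero_mul,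
    TensorProduct.tmul_zero]

/-- **83-P3**: `R ⊗_{ℤ_(ℓ)} K` is a domain as soon as `R` has a reduction map to `𝔽_ℓ((q))` with
kernel `ℓ R`. -/
theorem isDomain_tensor_of_red (red : R →+* LaurentSeries (ZMod ℓ))
    (hker : ∀ r : R, red r = 0 → ∃ s : R, r = (ℓ : R) * s) :
    IsDomain (R ⊗[↥(GaloisRep.ratLocalizedAt ℓ)] K) :=
  Function.Injective.isDomain (tensorToLaurent ℓ R K red).toRingHom
    (tensorToLaurent_injective ℓ R K red hker)

/-- **83-P3**, in the form proposed by the bridge (83-P11..P13): the kernel of the reduction is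
the ideal generated by `ℓ`. -/
theorem isDomain_tensor_of_reduction (ρ : R →+* LaurentSeries (ZMod ℓ))
    (hρ : RingHom.ker ρ = Ideal.span {((ℓ : ℕ) : R)}) :
    IsDomain (R ⊗[↥(GaloisRep.ratLocalizedAt ℓ)] K) := by
  refine isDomain_tensor_of_red ℓ R K ρ fun r hr => ?_
  have hmem : r ∈ Ideal.span {((ℓ : ℕ) : R)} := by
    rw [← hρ]; exact hr
  obtain ⟨s, hs⟩ := Ideal.mem_span_singleton'.mp hmem
  exact ⟨s, by rw [← hs, mul_comm]⟩

end Main

end Fermat.Agent.S28
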