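import Fermat.Agent.S28.Glue
import Fermat.Agent.S28.TensorDomain

/-!
# S28, piece 83-P14 (assembly skeleton)

The base change of the Igusa scheme to a field `K` of characteristic `ℓ` is integral as soon as
each of the three chart algebras has a reduction map to `𝔽_ℓ((q))` with kernel `(ℓ)`.
-/

set_option autoImplicit false
open AlgebraicGeometry CategoryTheory CategoryTheory.Limits ModularCurve ModularCurve.IgusaScheme
open TensorProduct

noncomputable section

namespace Fermat.Agent.S28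

/-- **83-P14**: glue (83-P4) + tensor domain (83-P3), from the reductions of the three charts
(the output of the bridge 83-P11..P13). -/
theorem igusa_isIntegral_of_reductions (N : ℕ) [NeZero N] (ℓ : ℕ) [Fact ℓ.Prime]
    (K : Type) [Field K] [CharP K ℓ] [Algebra ↥(GaloisRep.ratLocalizedAt ℓ) K]
    (hred : ∀ S : Set ↥(modularFunctionFieldFull N),
      (S = {jFull N} ∨ S = {(jFull N)⁻¹} ∨ S = {jFull N, (jFull N)⁻¹}) →
        ∃ ρ : ↥(chartAlg N ℓ S) →+* LaurentSeries (ZMod ℓ),
          RingHom.ker ρ = Ideal.span {((ℓ : ℕ) : ↥(chartAlg N ℓ S))}) :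
    IsIntegral ↑(pullback (igusaTo N ℓ)
      (Spec.map (CommRingCat.ofHom (algebraMap ↥(GaloisRep.ratLocalizedAt ℓ) K)))) := by
  obtain ⟨ρF, hF⟩ := hred {jFull N} (Or.inl rfl)
  obtain ⟨ρI, hI⟩ := hred {(jFull N)⁻¹} (Or.inr (Or.inl rfl))
  obtain ⟨ρM, hM⟩ := hred {jFull N, (jFull N)⁻¹} (Or.inr (Or.inr rfl))
  exact igusa_isIntegral_of_charts N ℓ K
    (isDomain_tensor_of_reduction ℓ _ K ρF hF)
    (isDomain_tensor_of_reduction ℓ _ K ρI hI)
    (isDomain_tensor_of_reduction ℓ _ K ρM hM)

end Fermat.Agent.S28
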