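import Mathlib
import Fermat.Prelude.Def_ModularCurve_IgusaScheme

/-!
# S28 bridge, chart interface (for helper4's bridge 83-P11..P13)

* `exists_mul_isIntegralElem` (CLEAR): clearing denominators in an integrality equation.
* `chartAlg_clear` (CH1): every element of a one-generator chart `chartAlg N ℓ {θ}` becomes
  integral over `ℤ[θ]` after multiplication by an integer prime to `ℓ`.
* `mem_chartAlg_of_isIntegralElem` (CH2): the converse.
-/

set_option autoImplicit false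
set_option linter.unusedSectionVars false

open ModularCurve ModularCurve.IgusaScheme Polynomial

noncomputable section

namespace Fermat.Agent.S28

section Clear

variable {A B L : Type*} [CommRing A] [CommRing B] [CommRing L]

/-- a common denominator for finitely many elements -/
theorem chart_exists_common_denominator (φ : A →+* L) (ψ : B →+* L) (M : Submonoid A)
    (hB : ∀ b : B, ∃ s ∈ M, ∃ p : A, φ s * ψ b = φ p) (c : ℕ → B) (m : ℕ) :
    ∃ s ∈ M, ∀ i < m, ∃ p : A, φ s * ψ (c i) = φ p := by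
  induction m with
  | zero => exact ⟨1, M.one_mem, fun i hi => absurd hi (Nat.not_lt_zero i)⟩
  | succ m ih =>
    obtain ⟨s, hs, h⟩ := ih
    obtain ⟨s', hs', p', hp'⟩ := hB (c m)
    refine ⟨s * s', M.mul_mem hs hs', fun i hi => ?_⟩
    rcases Nat.lt_succ_iff_lt_or_eq.mp hi with hlt | rfl
    · obtain ⟨p, hp⟩ := h i hlt
      refine ⟨s' * p, ?_⟩
      rw [map_mul, map_mul, ← hp]
      ring
    · refine ⟨s * p', ?_⟩
      rw [map_mul, map_mul, ← hp']
      ring

/-- **CLEAR**, general form: `B → L` any ring hom whose values have denominators in `M`. -/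
theorem exists_mul_isIntegralElem_of_hom (φ : A →+* L) (ψ : B →+* L) (M : Submonoid A)
    (hB : ∀ b : B, ∃ s ∈ M, ∃ p : A, φ s * ψ b = φ p)
    {x : L} (hx : ψ.IsIntegralElem x) : ∃ s ∈ M, φ.IsIntegralElem (φ s * x) := by
  classical
  rcases subsingleton_or_nontrivial L with hL | hL
  · exact ⟨1, M.one_mem, Polynomial.X, Polynomial.monic_X, Subsingleton.elim _ _⟩
  obtain ⟨P, hmonic, hroot⟩ := hx
  obtain ⟨s, hs, hc⟩ := chart_exists_common_denominator φ ψ M hB (fun i => P.coeff i) P.natDegree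
  refine ⟨s, hs, ?_⟩
  set q : L[X] := (P.map ψ).scaleRoots (φ s) with hq
  have hqmonic : q.Monic := (Polynomial.monic_scaleRoots_iff _).mpr (hmonic.map _)
  have hqroot : q.eval (φ s * x) = 0 := by
    rw [hq, Polynomial.scaleRoots_eval_mul, Polynomial.eval_map, hroot, mul_zero]
  have hqcoeff : ∀ i, q.coeff i ∈ Set.range φ := by
    intro i
    rw [hq, Polynomial.coeff_scaleRoots, Polynomial.coeff_map, hmonic.natDegree_map]
    by_cases hi : i < P.natDegree
    · obtain ⟨p, hp⟩ := hc i hi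
      obtain ⟨k, hk⟩ : ∃ k, P.natDegree - i = k + 1 := ⟨P.natDegree - i - 1, by omega⟩
      refine ⟨p * s ^ k, ?_⟩
      rw [hk, pow_succ, map_mul, map_pow, ← hp]
      ring
    · rcases (not_lt.mp hi).lt_or_eq with hlt | heq
      · rw [Polynomial.coeff_eq_zero_of_natDegree_lt hlt, map_zero, zero_mul]
        exact ⟨0, map_zero φ⟩
      · rw [← heq, hmonic.coeff_natDegree, map_one, one_mul, Nat.sub_self, pow_zero]
        exact ⟨1, map_one φ⟩
  have hlifts : q ∈ Polynomial.lifts φ := (Polynomial.lifts_iff_coeff_lifts q).mpr hqcoeff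
  obtain ⟨q', hq'q, -, hq'monic⟩ := Polynomial.lifts_and_natDegree_eq_and_monic hlifts hqmonic
  refine ⟨q', hq'monic, ?_⟩
  rw [Polynomial.eval₂_eq_eval_map, hq'q, hqroot]

/-- **CLEAR** (H7-1), helper4's statement. -/
theorem exists_mul_isIntegralElem (φ : A →+* L) (M : Submonoid A) (A' : Subring L)
    (hA : ∀ c ∈ A', ∃ s ∈ M, ∃ p : A, φ s * c = φ p)
    {x : L} (hx : IsIntegral A' x) : ∃ s ∈ M, φ.IsIntegralElem (φ s * x) :=
  exists_mul_isIntegralElem_of_hom φ A'.subtype M (fun b => hA b b.2) hx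

end Clear

section Chart

variable (N : ℕ) [NeZero N] (ℓ : ℕ) [Fact ℓ.Prime]

theorem chart_not_dvd_one : ¬ (ℓ : ℤ) ∣ 1 := by
  intro h
  have hp : 1 < ℓ := (Fact.out : ℓ.Prime).one_lt
  have h2 : ℓ ∣ 1 := Int.natCast_dvd_natCast.mp (by simpa using h)
  have := Nat.le_of_dvd one_pos h2
  omega

/-- the constant polynomials `C t`, `ℓ ∤ t` -/
def chartConstMonoid : Submonoid (Polynomial ℤ) where
  carrier := {s | ∃ t : ℤ, ¬ (ℓ : ℤ) ∣ t ∧ s = Polynomial.C t}
  one_mem' := by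
    exact ⟨1, chart_not_dvd_one ℓ, by simp⟩
  mul_mem' := by
    rintro _ _ ⟨t, ht, rfl⟩ ⟨t', ht', rfl⟩
    refine ⟨t * t', ?_, by simp⟩
    intro h
    have hp : Prime (ℓ : ℤ) := Nat.prime_iff_prime_int.mp (Fact.out : ℓ.Prime)
    rcases hp.dvd_or_dvd h with h1 | h1
    · exact ht h1
    · exact ht' h1

/-- the coercion `F_N → ℚ((q))` as a ring homomorphism -/
abbrev chartVal : ↥(modularFunctionFieldFull N) →+* LaurentSeries ℚ :=
  ((modularFunctionFieldFull N).val : ↥(modularFunctionFieldFull N) →+* LaurentSeries ℚ)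

theorem chartVal_apply (x : ↥(modularFunctionFieldFull N)) :
    chartVal N x = (x : LaurentSeries ℚ) := rfl

theorem chartVal_injective : Function.Injective (chartVal N) := Subtype.val_injective

/-- ADJ: every element of `ℤ_(ℓ)[θ]` is `p(θ)/t` with `p ∈ ℤ[X]`, `ℓ ∤ t`. -/
theorem chart_adjoin_clear (θ : ↥(modularFunctionFieldFull N))
    (c : ↥(modularFunctionFieldFull N))
    (hc : c ∈ Algebra.adjoin ↥(GaloisRep.ratLocalizedAt ℓ) ({θ} : Set ↥(modularFunctionFieldFull N))) :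
    ∃ t : ℤ, ¬ (ℓ : ℤ) ∣ t ∧ ∃ p : Polynomial ℤ,
      (t : LaurentSeries ℚ) * (c : LaurentSeries ℚ) =
        Polynomial.aeval (R := ℤ) (θ : LaurentSeries ℚ) p := by
  have hℓ : ℓ.Prime := Fact.out
  have hpint : Prime (ℓ : ℤ) := Nat.prime_iff_prime_int.mp hℓ
  induction hc using Algebra.adjoin_induction with
  | mem y hy =>
    rw [Set.mem_singleton_iff] at hy
    subst hy
    exact ⟨1, chart_not_dvd_one ℓ, Polynomial.X, by simp⟩
  | algebraMap r =>
    have hr : (r : ℚ).den.Coprime ℓ := r.2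
    refine ⟨((r : ℚ).den : ℤ), ?_, Polynomial.C (r : ℚ).num, ?_⟩
    · intro h
      have h2 : ℓ ∣ (r : ℚ).den := Int.natCast_dvd_natCast.mp h
      have h3 : ℓ ∣ Nat.gcd (r : ℚ).den ℓ := Nat.dvd_gcd h2 dvd_rfl
      rw [hr] at h3
      exact hℓ.one_lt.ne' (Nat.dvd_one.mp h3)
    · have h1 : ((algebraMap ↥(GaloisRep.ratLocalizedAt ℓ) ↥(modularFunctionFieldFull N) r :
          ↥(modularFunctionFieldFull N)) : LaurentSeries ℚ)
          = algebraMap ℚ (LaurentSeries ℚ) (r : ℚ) := by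
        rw [IsScalarTower.algebraMap_apply ↥(GaloisRep.ratLocalizedAt ℓ) ℚ
          ↥(modularFunctionFieldFull N)]
        simp only [eq_ratCast, SubfieldClass.coe_ratCast]
        rfl
      rw [h1, Polynomial.aeval_C]
      have h2 : (((r : ℚ).den : ℤ) : LaurentSeries ℚ) = algebraMap ℚ (LaurentSeries ℚ) ((r : ℚ).den : ℚ) := by
        simp
      have h3 : algebraMap ℤ (LaurentSeries ℚ) (r : ℚ).num
          = algebraMap ℚ (LaurentSeries ℚ) ((r : ℚ).num : ℚ) := by
        simp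
      rw [h2, h3, ← map_mul]
      congr 1
      exact_mod_cast Rat.den_mul_eq_num (r : ℚ)
  | add y z _ _ hy hz =>
    obtain ⟨t, ht, p, hp⟩ := hy
    obtain ⟨t', ht', p', hp'⟩ := hz
    refine ⟨t * t', fun h => (hpint.dvd_or_dvd h).elim ht ht',
      Polynomial.C t' * p + Polynomial.C t * p', ?_⟩
    rw [map_add, map_mul, map_mul, Polynomial.aeval_C, Polynomial.aeval_C, ← hp, ← hp']
    push_cast
    simp only [eq_intCast]
    ring
  | mul y z _ _ hy hz =>
    obtain ⟨t, ht, p, hp⟩ := hy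
    obtain ⟨t', ht', p', hp'⟩ := hz
    refine ⟨t * t', fun h => (hpint.dvd_or_dvd h).elim ht ht', p * p', ?_⟩
    rw [map_mul, ← hp, ← hp']
    push_cast
    ring

/-- **CH1** (H7-2): an element of the one-generator chart is integral over `ℤ[θ]` after
multiplication by an integer prime to `ℓ`. -/
theorem chartAlg_clear (θ x : ↥(modularFunctionFieldFull N)) (hx : x ∈ chartAlg N ℓ {θ}) :
    ∃ t : ℤ, ¬ (ℓ : ℤ) ∣ t ∧
      ((Polynomial.aeval (R := ℤ) (θ : LaurentSeries ℚ)).toRingHom).IsIntegralElem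
        ((t : LaurentSeries ℚ) * (x : LaurentSeries ℚ)) := by
  have hB : ∀ b : ↥(Algebra.adjoin ↥(GaloisRep.ratLocalizedAt ℓ)
      ({θ} : Set ↥(modularFunctionFieldFull N))),
      ∃ s ∈ chartConstMonoid ℓ, ∃ p : Polynomial ℤ,
        ((Polynomial.aeval (R := ℤ) (θ : LaurentSeries ℚ)).toRingHom) s *
          ((chartVal N).comp (algebraMap _ ↥(modularFunctionFieldFull N))) b =
        ((Polynomial.aeval (R := ℤ) (θ : LaurentSeries ℚ)).toRingHom) p := by
    intro b
    obtain ⟨t, ht, p, hp⟩ := chart_adjoin_clear N ℓ θ b b.2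
    refine ⟨Polynomial.C t, ⟨t, ht, rfl⟩, p, ?_⟩
    simpa using hp
  have hxψ : ((chartVal N).comp (algebraMap ↥(Algebra.adjoin ↥(GaloisRep.ratLocalizedAt ℓ)
      ({θ} : Set ↥(modularFunctionFieldFull N))) ↥(modularFunctionFieldFull N))).IsIntegralElem
      (x : LaurentSeries ℚ) := by
    obtain ⟨P, hmonic, hroot⟩ := (mem_chartAlg_iff N ℓ).mp hx
    refine ⟨P, hmonic, ?_⟩
    rw [← chartVal_apply N x, ← Polynomial.hom_eval₂, hroot, map_zero]
  obtain ⟨s, ⟨t, ht, rfl⟩, hs⟩ :=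
    exists_mul_isIntegralElem_of_hom _ _ (chartConstMonoid ℓ) hB hxψ
  refine ⟨t, ht, ?_⟩
  simpa using hs

theorem chart_inv_intCast_mem (t : ℤ) (ht : ¬ (ℓ : ℤ) ∣ t) :
    ((t : ℚ)⁻¹) ∈ GaloisRep.ratLocalizedAt ℓ := by
  have hℓ : ℓ.Prime := Fact.out
  show ((t : ℚ)⁻¹).den.Coprime ℓ
  have ht0 : t ≠ 0 := by
    rintro rfl
    exact ht (dvd_zero _)
  rw [Rat.inv_intCast_den, if_neg ht0]
  rw [Nat.coprime_comm, hℓ.coprime_iff_not_dvd]
  intro h
  exact ht (Int.natCast_dvd.mpr h)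

/-- **CH2** (H7-3): the converse of `chartAlg_clear`. -/
theorem mem_chartAlg_of_isIntegralElem (θ x : ↥(modularFunctionFieldFull N)) (t : ℤ)
    (ht : ¬ (ℓ : ℤ) ∣ t)
    (h : ((Polynomial.aeval (R := ℤ) (θ : LaurentSeries ℚ)).toRingHom).IsIntegralElem
      ((t : LaurentSeries ℚ) * (x : LaurentSeries ℚ))) : x ∈ chartAlg N ℓ {θ} := by
  have ht0 : t ≠ 0 := by
    rintro rfl
    exact ht (dvd_zero _)
  obtain ⟨Q, hQmonic, hQroot⟩ := h
  have hcomp : (chartVal N).comp ((algebraMap ↥(Algebra.adjoin ↥(GaloisRep.ratLocalizedAt ℓ)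
      ({θ} : Set ↥(modularFunctionFieldFull N))) ↥(modularFunctionFieldFull N)).comp
      ((Polynomial.aeval (R := ℤ) (⟨θ, Algebra.subset_adjoin (Set.mem_singleton θ)⟩ :
        ↥(Algebra.adjoin ↥(GaloisRep.ratLocalizedAt ℓ)
          ({θ} : Set ↥(modularFunctionFieldFull N))))).toRingHom))
      = (Polynomial.aeval (R := ℤ) (θ : LaurentSeries ℚ)).toRingHom := by
    apply Polynomial.ringHom_ext
    · intro a
      simp
    · simp
  have h1 : IsIntegral ↥(Algebra.adjoin ↥(GaloisRep.ratLocalizedAt ℓ)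
      ({θ} : Set ↥(modularFunctionFieldFull N))) ((t : ↥(modularFunctionFieldFull N)) * x) := by
    refine ⟨Q.map ((Polynomial.aeval (R := ℤ) (⟨θ, Algebra.subset_adjoin (Set.mem_singleton θ)⟩ :
        ↥(Algebra.adjoin ↥(GaloisRep.ratLocalizedAt ℓ)
          ({θ} : Set ↥(modularFunctionFieldFull N))))).toRingHom), hQmonic.map _, ?_⟩
    apply chartVal_injective N
    rw [map_zero, Polynomial.eval₂_map, Polynomial.hom_eval₂, hcomp]
    rw [map_mul, map_intCast]
    exact hQroot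
  have h2 : x = algebraMap ↥(GaloisRep.ratLocalizedAt ℓ) ↥(modularFunctionFieldFull N)
      ⟨(t : ℚ)⁻¹, chart_inv_intCast_mem ℓ t ht⟩ * ((t : ↥(modularFunctionFieldFull N)) * x) := by
    rw [IsScalarTower.algebraMap_apply ↥(GaloisRep.ratLocalizedAt ℓ) ℚ
      ↥(modularFunctionFieldFull N)]
    have h3 : algebraMap ↥(GaloisRep.ratLocalizedAt ℓ) ℚ
        ⟨(t : ℚ)⁻¹, chart_inv_intCast_mem ℓ t ht⟩ = (t : ℚ)⁻¹ := rfl
    rw [h3, map_inv₀, ← mul_assoc]
    have h4 : algebraMap ℚ ↥(modularFunctionFieldFull N) (t : ℚ)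
        = (t : ↥(modularFunctionFieldFull N)) := by
      simp
    rw [h4, inv_mul_cancel₀, one_mul]
    exact_mod_cast ht0
  rw [h2]
  exact (chartAlg N ℓ {θ}).mul_mem ((chartAlg N ℓ {θ}).algebraMap_mem _)
    ((mem_chartAlg_iff N ℓ).mpr h1)

end Chart

end Fermat.Agent.S28
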