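import Mathlib
import Fermat.Prelude.Def_ModularCurve_X0

/-!
# S28 bridge, helper lemmas

* `isIntegral_of_span_pow`: a subring `W` of a field which is spanned, over a subring `A' ≤ W`,
  by finitely many powers of one element is integral over `A'`.
* `aeval_jq_injective`, `aeval_jq_inv_injective`: `j` and `1/j` are transcendental over `ℤ`
  (as Laurent series with rational coefficients).
-/

set_option autoImplicit false
open Polynomial ModularCurve

noncomputable section
namespace Fermat.Agent.S28

/-- finite module ⟹ integral -/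
theorem isIntegral_of_span_pow {L : Type*} [Field L] (A' W : Subring L) (hAW : A' ≤ W) (θ : L)
    (hθ : θ ∈ W) (n : ℕ)
    (hW : ∀ w ∈ W, ∃ c : ℕ → L, (∀ i, c i ∈ A') ∧ w = ∑ i ∈ Finset.range n, c i * θ ^ i)
    (x : L) (hx : x ∈ W) : IsIntegral ↥A' x := by
  let Nn : Submodule ↥A' L := Submodule.span ↥A' (Set.range fun i : Fin n => θ ^ (i : ℕ))
  have hsub : ∀ y, y ∈ Nn → y ∈ W := by
    intro y hy
    induction hy using Submodule.span_induction with
    | mem y hy =>
      obtain ⟨i, rfl⟩ := hy
      exact W.pow_mem hθ _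
    | zero => exact W.zero_mem
    | add y z _ _ hy hz => exact W.add_mem hy hz
    | smul a y _ hy => exact W.mul_mem (hAW a.2) hy
  have hsup : ∀ y, y ∈ W → y ∈ Nn := by
    intro y hy
    obtain ⟨c, hc, rfl⟩ := hW y hy
    refine Submodule.sum_mem _ fun i hi => ?_
    have h1 : c i * θ ^ i = (⟨c i, hc i⟩ : ↥A') • θ ^ i := rfl
    rw [h1]
    exact Submodule.smul_mem _ _
      (Submodule.subset_span ⟨⟨i, Finset.mem_range.mp hi⟩, rfl⟩)
  refine isIntegral_of_smul_mem_submodule Nn ?_ ?_ x ?_
  · intro h0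
    have h1 : (1 : L) ∈ Nn := hsup 1 W.one_mem
    rw [h0, Submodule.mem_bot] at h1
    exact one_ne_zero h1
  · exact Submodule.fg_span (Set.finite_range _)
  · intro y hy
    exact hsup _ (W.mul_mem hx (hsub y hy))

theorem coeff_intCast_mul_series (n : ℤ) (x : LaurentSeries ℚ) (m : ℤ) :
    ((n : LaurentSeries ℚ) * x).coeff m = (n : ℚ) * x.coeff m := by
  rw [← map_intCast (HahnSeries.C : ℚ →+* LaurentSeries ℚ) n, HahnSeries.C_mul_eq_smul,
    HahnSeries.coeff_smul, smul_eq_mul]

/-- the coefficients of `p(x)` for an integer polynomial `p` -/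
theorem coeff_aeval_int (p : ℤ[X]) (x : LaurentSeries ℚ) (m : ℤ) :
    (aeval (R := ℤ) x p).coeff m =
      ∑ k ∈ Finset.range (p.natDegree + 1), (p.coeff k : ℚ) * (x ^ k).coeff m := by
  rw [Polynomial.aeval_eq_sum_range, HahnSeries.coeff_sum]
  refine Finset.sum_congr rfl fun k _ => ?_
  rw [Algebra.smul_def, eq_intCast, coeff_intCast_mul_series]

/-- the coefficient of `q^(-d)` in `p(j)`, `d = deg p`, is the leading coefficient of `p` -/
theorem coeff_aeval_jq_natDegree (p : ℤ[X]) :
    (aeval (R := ℤ) jq p).coeff (-(p.natDegree : ℤ)) = (p.leadingCoeff : ℚ) := by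
  rw [coeff_aeval_int, Finset.sum_eq_single p.natDegree]
  · rw [coeff_jq_pow_self, Polynomial.coeff_natDegree, mul_one]
  · intro k hk hne
    have hk' : k < p.natDegree :=
      lt_of_le_of_ne (Nat.lt_succ_iff.mp (Finset.mem_range.mp hk)) hne
    rw [coeff_jq_pow_of_lt (by omega), mul_zero]
  · intro h
    exact absurd (Finset.mem_range.mpr (Nat.lt_succ_self _)) h

/-- `j` is transcendental over `ℤ` -/
theorem aeval_jq_injective :
    Function.Injective (Polynomial.aeval (R := ℤ) ModularCurve.jq :
      Polynomial ℤ →ₐ[ℤ] LaurentSeries ℚ) := by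
  rw [injective_iff_map_eq_zero]
  intro p hp
  have h := coeff_aeval_jq_natDegree p
  rw [hp, HahnSeries.coeff_zero] at h
  have h2 : p.leadingCoeff = 0 := by exact_mod_cast h.symm
  exact Polynomial.leadingCoeff_eq_zero.mp h2

/-- `1/j` is transcendental over `ℤ` -/
theorem aeval_jq_inv_injective :
    Function.Injective (Polynomial.aeval (R := ℤ) (ModularCurve.jq)⁻¹ :
      Polynomial ℤ →ₐ[ℤ] LaurentSeries ℚ) := by
  rw [← transcendental_iff_injective]
  intro h
  exact (transcendental_iff_injective.mpr aeval_jq_injective) (IsAlgebraic.inv_iff.mp h)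

end Fermat.Agent.S28
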