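import Mathlib

/-!
# S28 bridge, part 2: the saturation lemma (abstract, Mathlib only)

`A` an integrally closed domain, `S` a torsion free domain over `A`, `ℓ` a prime element, `ℓ ∤ s`.
If `(t ℓ) g` and `s g` are integral over `A`, then `t g` is integral over `A`.
-/

set_option autoImplicit false
open Polynomial

namespace Fermat.Agent.S28

variable {A S : Type*} [CommRing A] [IsDomain A] [IsIntegrallyClosed A]
  [CommRing S] [IsDomain S] [Algebra A S] [Module.IsTorsionFree A S]

/-- the minimal polynomial of `c z` is the root-scaled minimal polynomial of `z` (`c ≠ 0`). -/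
theorem minpoly_smul_eq_scaleRoots {c : A} (hc : c ≠ 0) {z : S} (hz : IsIntegral A z) :
    minpoly A (algebraMap A S c * z) = (minpoly A z).scaleRoots c := by
  have hcz : IsIntegral A (algebraMap A S c * z) := isIntegral_algebraMap.mul hz
  have hkill : aeval (algebraMap A S c * z) ((minpoly A z).scaleRoots c) = 0 :=
    scaleRoots_aeval_eq_zero (minpoly.aeval A z)
  have hdvd : minpoly A (algebraMap A S c * z) ∣ (minpoly A z).scaleRoots c :=
    minpoly.isIntegrallyClosed_dvd hcz hkill
  -- degree bound: ν.comp (C c * X) kills z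
  set ν := minpoly A (algebraMap A S c * z) with hν
  have hνm : ν.Monic := minpoly.monic hcz
  have hcomp : aeval z (ν.comp (C c * X)) = 0 := by
    rw [aeval_comp]
    have : aeval z (C c * X : A[X]) = algebraMap A S c * z := by simp
    rw [this]
    exact minpoly.aeval A _
  have hdvd2 : minpoly A z ∣ ν.comp (C c * X) := minpoly.isIntegrallyClosed_dvd hz hcomp
  have hdeg1 : (C c * X : A[X]).natDegree = 1 := by
    rw [natDegree_C_mul hc, natDegree_X]
  have hne : ν.comp (C c * X) ≠ 0 := by
    intro h0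
    have := comp_eq_zero_iff.mp h0
    rcases this with h | ⟨_, h⟩
    · exact hνm.ne_zero h
    · have h1 : (C c * X : A[X]).natDegree = 0 := by rw [h]; simp
      omega
  have hle : (minpoly A z).natDegree ≤ ν.natDegree := by
    have := natDegree_le_of_dvd hdvd2 hne
    rwa [natDegree_comp, hdeg1, mul_one] at this
  symm
  refine eq_of_monic_of_dvd_of_natDegree_le hνm ((monic_scaleRoots_iff c).mpr (minpoly.monic hz))
    hdvd ?_
  rw [natDegree_scaleRoots]
  exact hle

/-- **saturation lemma.** -/
theorem isIntegral_of_sat {ℓ s t : A} (hℓ : Prime ℓ) (hs : ¬ ℓ ∣ s) (ht : t ≠ 0) {g : S}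
    (h1 : IsIntegral A (algebraMap A S (t * ℓ) * g))
    (h2 : IsIntegral A (algebraMap A S s * g)) :
    IsIntegral A (algebraMap A S t * g) := by
  classical
  have hs0 : s ≠ 0 := fun h => hs (h ▸ dvd_zero ℓ)
  have hℓ0 : ℓ ≠ 0 := hℓ.ne_zero
  have htℓ : t * ℓ ≠ 0 := mul_ne_zero ht hℓ0
  set x := algebraMap A S (t * ℓ) * g with hx
  set y := algebraMap A S s * g with hy
  -- s x = (t ℓ) y
  have hxy : algebraMap A S s * x = algebraMap A S (t * ℓ) * y := by
    rw [hx, hy]; ring
  have e1 := minpoly_smul_eq_scaleRoots hs0 h1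
  have e2 := minpoly_smul_eq_scaleRoots htℓ h2
  rw [hxy, e2] at e1
  -- e1 : (minpoly A y).scaleRoots (t * ℓ) = (minpoly A x).scaleRoots s
  set μ := minpoly A x with hμ
  set μ' := minpoly A y with hμ'
  have hμm : μ.Monic := minpoly.monic h1
  have hdeg : μ'.natDegree = μ.natDegree := by
    have := congrArg natDegree e1
    rwa [natDegree_scaleRoots, natDegree_scaleRoots] at this
  set m := μ.natDegree with hm
  have hcoef : ∀ i, μ'.coeff i * (t * ℓ) ^ (m - i) = μ.coeff i * s ^ (m - i) := by
    intro i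
    have := congrArg (fun p : A[X] => p.coeff i) e1
    simp only [coeff_scaleRoots, hdeg] at this
    rw [← hm] at this
    exact this
  have hdiv : ∀ i, ℓ ^ (m - i) ∣ μ.coeff i := by
    intro i
    have hns : ¬ ℓ ∣ s ^ (m - i) := fun h => hs (hℓ.dvd_of_dvd_pow h)
    refine hℓ.pow_dvd_of_dvd_mul_right (m - i) hns ?_
    rw [← hcoef i, mul_pow]
    exact ⟨μ'.coeff i * t ^ (m - i), by ring⟩
  choose c hc using hdiv
  -- the polynomial with coefficients c i
  let P : A[X] := X ^ m + ∑ i ∈ Finset.range m, C (c i) * X ^ i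
  have hPdeg : (∑ i ∈ Finset.range m, C (c i) * X ^ i : A[X]).degree < (m : WithBot ℕ) := by
    rw [degree_lt_iff_coeff_zero]
    intro k hk
    rw [finsetSum_coeff]
    refine Finset.sum_eq_zero fun i hi => ?_
    rw [coeff_C_mul_X_pow, if_neg]
    have := Finset.mem_range.mp hi
    omega
  have hPm : P.Monic := monic_X_pow_add hPdeg
  refine ⟨P, hPm, ?_⟩
  -- ℓ^m * P(t g) = μ(x) = 0
  have hμx : aeval x μ = 0 := minpoly.aeval A x
  have hexp : aeval x μ = algebraMap A S ℓ ^ m * aeval (algebraMap A S t * g) P := by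
    have hμsum : μ = X ^ m + ∑ i ∈ Finset.range m, C (μ.coeff i) * X ^ i := by
      conv_lhs => rw [hμm.as_sum]
    conv_lhs => rw [hμsum]
    simp only [P, map_add, map_pow, aeval_X, map_sum, map_mul, aeval_C]
    rw [mul_add, Finset.mul_sum]
    congr 1
    · rw [hx, map_mul]; ring
    · refine Finset.sum_congr rfl fun i hi => ?_
      have him : i < m := Finset.mem_range.mp hi
      have hsplit : algebraMap A S ℓ ^ m = algebraMap A S ℓ ^ (m - i) * algebraMap A S ℓ ^ i := by
        rw [← pow_add]; congr 1; omega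
      rw [hc i, hx, map_mul, map_mul, map_pow, hsplit]
      ring
  have hℓS : algebraMap A S ℓ ^ m ≠ 0 :=
    pow_ne_zero _ ((map_ne_zero_iff _ (FaithfulSMul.algebraMap_injective A S)).mpr hℓ0)
  rw [hμx] at hexp
  have := mul_eq_zero.mp hexp.symm
  rcases this with h | h
  · exact absurd h hℓS
  · rw [← aeval_def]; exact h

end Fermat.Agent.S28
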