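import Fermat.Agent.S28.BridgeFM
import Fermat.Agent.S28.BridgeSat
import Fermat.Agent.S28.BridgeChart
import Fermat.Agent.S28.BridgeFin

/-!
# S28 bridge, part 5: the reduction maps of the three charts and their kernels
-/

set_option autoImplicit false
open ModularCurve ModularCurve.IgusaScheme Polynomial

noncomputable section
namespace Fermat.Agent.S28

section Main

variable (ℓ : ℕ) [Fact ℓ.Prime] (N : ℕ) [NeZero N]

/-! ### Part A: elements of `W` are integral over `ℤ[j]` up to a Gauss unit -/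

theorem exists_gauss_mul_isIntegralElem (hcore : CoreStatement ℓ N) (hgen : GenStatement N)
    {x : LaurentSeries ℚ} (hx : x ∈ redField ℓ N) :
    ∃ s : ℤ[X], redPoly ℓ s ≠ 0 ∧ (evalAtJ).IsIntegralElem (evalAtJ s * x) := by
  have h1 : IsIntegral ↥(gaussLoc ℓ) x :=
    isIntegral_of_span_pow (gaussLoc ℓ) (redField ℓ N) (gaussLoc_le_redField ℓ N) (jqN N)
      (jqN_mem_redField ℓ N) (dedekindPsi N) (fun w hw => exists_coeffs ℓ N hcore hgen hw) x hx
  obtain ⟨s, hs, h⟩ := exists_mul_isIntegralElem evalAtJ (gaussMonoid ℓ) (gaussLoc ℓ)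
    (fun c hc => by
      obtain ⟨p, s, hs, h⟩ := hc
      exact ⟨s, hs, p, h⟩) h1
  exact ⟨s, hs, h⟩

/-! ### Part B: the saturation lemma for `ℤ[Y] → ℚ((q))` -/

omit [NeZero N] in
theorem sat_ringHom (φ : ℤ[X] →+* LaurentSeries ℚ) (hφ : Function.Injective φ) {s : ℤ[X]} {t : ℤ}
    (hs : redPoly ℓ s ≠ 0) (ht : t ≠ 0) {g : LaurentSeries ℚ}
    (h1 : φ.IsIntegralElem (φ (C t * C (ℓ : ℤ)) * g)) (h2 : φ.IsIntegralElem (φ s * g)) :
    φ.IsIntegralElem (φ (C t) * g) := by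
  letI : Algebra ℤ[X] (LaurentSeries ℚ) := φ.toAlgebra
  haveI : Module.IsTorsionFree ℤ[X] (LaurentSeries ℚ) :=
    Module.isTorsionFree_iff_algebraMap_injective.mpr hφ
  have hℓ : Prime (C (ℓ : ℤ) : ℤ[X]) :=
    Polynomial.prime_C_iff.mpr (Nat.prime_iff_prime_int.mp (Fact.out : ℓ.Prime))
  have hs' : ¬ (C (ℓ : ℤ) : ℤ[X]) ∣ s := fun h => hs ((redPoly_eq_zero_iff ℓ).mpr h)
  have ht' : (C t : ℤ[X]) ≠ 0 := by simpa using ht
  exact isIntegral_of_sat (A := ℤ[X]) (S := LaurentSeries ℚ) hℓ hs' ht' h1 h2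

/-! ### Part C: dividing a series with zero reduction by `ℓ` -/

omit [NeZero N] in
theorem exists_eq_natCast_mul_of_piZ_eq_zero {y : LaurentSeries ℤ} (h : piZ ℓ y = 0) :
    ∃ y' : LaurentSeries ℤ, y = ((ℓ : ℕ) : LaurentSeries ℤ) * y' := by
  have hdvd : ∀ n, (ℓ : ℤ) ∣ y.coeff n := fun n => by
    have := congrArg (fun z : LaurentSeries (ZMod ℓ) => z.coeff n) h
    simp only [piZ, coeffMap_coeff, HahnSeries.coeff_zero, eq_intCast] at this
    exact (ZMod.intCast_zmod_eq_zero_iff_dvd _ _).mp this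
  refine ⟨y.map (⟨fun c => c / (ℓ : ℤ), by simp⟩ : ZeroHom ℤ ℤ), ?_⟩
  ext n
  rw [show ((ℓ : ℕ) : LaurentSeries ℤ) = HahnSeries.C ((ℓ : ℕ) : ℤ) from (map_natCast _ _).symm,
    HahnSeries.C_mul_eq_smul, HahnSeries.coeff_smul, HahnSeries.map_coeff]
  simp only [ZeroHom.coe_mk, smul_eq_mul]
  exact (Int.mul_ediv_cancel' (hdvd n)).symm

omit [NeZero N] in
variable {ℓ} in
theorem IsRed.div_prime {x : LaurentSeries ℚ} (h : IsRed ℓ x 0) :
    ((ℓ : ℕ) : LaurentSeries ℚ)⁻¹ * x ∈ redSubring ℓ := by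
  obtain ⟨s, y, hs, hx, hr⟩ := h
  rw [mul_zero] at hr
  obtain ⟨y', rfl⟩ := exists_eq_natCast_mul_of_piZ_eq_zero ℓ hr.symm
  have hℓ0 : ((ℓ : ℕ) : LaurentSeries ℚ) ≠ 0 :=
    natCast_laurent_rat_ne_zero (Fact.out : ℓ.Prime).ne_zero
  have : IsRed ℓ (evalAtJ s * (((ℓ : ℕ) : LaurentSeries ℚ)⁻¹ * x)) (piZ ℓ y') := by
    have h1 : evalAtJ s * (((ℓ : ℕ) : LaurentSeries ℚ)⁻¹ * x) = iotaZ y' := by
      rw [map_mul, map_natCast] at hx
      apply mul_left_cancel₀ hℓ0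
      rw [← hx]
      field_simp
    rw [h1]
    exact isRed_iotaZ y'
  exact (IsRed.of_mul s hs this).mem

/-! ### Part D: the charts consist of reducible series -/

/-- the chart `S` consists of reducible series -/
def ChartRed (S : Set ↥(modularFunctionFieldFull N)) : Prop :=
  ∀ x ∈ chartAlg N ℓ S, (x : LaurentSeries ℚ) ∈ redSubring ℓ

/-- the chart `S` is saturated at `ℓ`: a series of the chart with zero reduction is `ℓ` times a
series of the chart -/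
def ChartSat (S : Set ↥(modularFunctionFieldFull N)) : Prop :=
  ∀ x ∈ chartAlg N ℓ S, IsRed ℓ (x : LaurentSeries ℚ) 0 →
    ∃ g ∈ chartAlg N ℓ S, x = ((ℓ : ℕ) : ↥(modularFunctionFieldFull N)) * g

theorem chartRed_fin (hcore : CoreStatement ℓ N) (hgen : GenStatement N) :
    ChartRed ℓ N {jFull N} := by
  intro x hx
  obtain ⟨t, ht, h⟩ := chartAlg_clear N ℓ (jFull N) x hx
  have h' : (evalAtJ).IsIntegralElem ((t : LaurentSeries ℚ) * (x : LaurentSeries ℚ)) := h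
  have hbad := noBad_of_isIntegralElem ℓ ht h'
  obtain ⟨a, s, hs, ha, hfa⟩ := hgen (x : LaurentSeries ℚ) x.2
  obtain ⟨a', s', hs', ha', h''⟩ := exists_normalForm ℓ N hcore hbad a s hs ha hfa
  have := IsRed.of_mul (ℓ := ℓ) (x := (x : LaurentSeries ℚ)) s' hs'
    (by rw [h'']; exact isRed_eval₂ ℓ N a')
  exact this.mem

theorem evalAtJ_X_pow (n : ℕ) : evalAtJ (X ^ n) = jq ^ n := by
  rw [map_pow, evalAtJ_X]

omit [NeZero N] in
theorem redPoly_X_pow_ne_zero (n : ℕ) : redPoly ℓ (X ^ n) ≠ 0 := by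
  haveI : Nontrivial (ZMod ℓ) := ZMod.nontrivial_iff.mpr (Fact.out : ℓ.Prime).ne_one
  rw [redPoly, Polynomial.map_pow, Polynomial.map_X]
  exact pow_ne_zero _ X_ne_zero

theorem chartRed_mid (hcore : CoreStatement ℓ N) (hgen : GenStatement N) :
    ChartRed ℓ N {jFull N, (jFull N)⁻¹} := by
  intro x hx
  have hz : x ∈ chartAlg N ℓ (insert (jFull N)⁻¹ {jFull N}) := by
    rw [show insert (jFull N)⁻¹ ({jFull N} : Set ↥(modularFunctionFieldFull N)) =
      {jFull N, (jFull N)⁻¹} from Set.pair_comm _ _]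
    exact hx
  obtain ⟨n, hn⟩ := exists_pow_mul_mem_chartAlg (Set.mem_singleton _) (jFull_ne_zero N) hz
  obtain ⟨r, hr⟩ := chartRed_fin ℓ N hcore hgen _ hn
  have hr' : IsRed ℓ (evalAtJ (X ^ n) * (x : LaurentSeries ℚ)) r := by
    rw [evalAtJ_X_pow]
    exact hr
  exact (IsRed.of_mul (X ^ n) (redPoly_X_pow_ne_zero ℓ n) hr').mem

theorem chartRed_inf (hcore : CoreStatement ℓ N) (hgen : GenStatement N) :
    ChartRed ℓ N {(jFull N)⁻¹} := fun x hx =>
  chartRed_mid ℓ N hcore hgen x (chartAlg_mono N ℓ (sInf_subset N) hx)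

/-! ### Part E: the charts are saturated at `ℓ` -/

theorem evalAtJ_injective : Function.Injective evalAtJ := fun _ _ h => aeval_jq_injective h

omit [NeZero N] in
theorem redPoly_C_mul_X_pow_ne_zero {t : ℤ} (ht : ¬ (ℓ : ℤ) ∣ t) (n : ℕ) :
    redPoly ℓ (C t * X ^ n) ≠ 0 := by
  haveI : Nontrivial (ZMod ℓ) := ZMod.nontrivial_iff.mpr (Fact.out : ℓ.Prime).ne_one
  rw [redPoly, Polynomial.map_mul, Polynomial.map_pow, Polynomial.map_X, Polynomial.map_C]
  refine mul_ne_zero ?_ (pow_ne_zero _ X_ne_zero)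
  rw [Ne, C_eq_zero, eq_intCast, ZMod.intCast_zmod_eq_zero_iff_dvd]
  exact ht

theorem chartSat_fin (hcore : CoreStatement ℓ N) (hgen : GenStatement N) :
    ChartSat ℓ N {jFull N} := by
  intro x hx hred
  have hℓ0 : ((ℓ : ℕ) : LaurentSeries ℚ) ≠ 0 :=
    natCast_laurent_rat_ne_zero (Fact.out : ℓ.Prime).ne_zero
  have hℓF : ((ℓ : ℕ) : ↥(modularFunctionFieldFull N)) ≠ 0 := by
    intro h
    apply hℓ0
    have := congrArg (fun z : ↥(modularFunctionFieldFull N) => (z : LaurentSeries ℚ)) h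
    simpa using this
  set g : ↥(modularFunctionFieldFull N) := ((ℓ : ℕ) : ↥(modularFunctionFieldFull N))⁻¹ * x
    with hg
  have hgL : (g : LaurentSeries ℚ) = ((ℓ : ℕ) : LaurentSeries ℚ)⁻¹ * (x : LaurentSeries ℚ) := by
    rw [hg]; simp
  have hgW : (g : LaurentSeries ℚ) ∈ redField ℓ N := ⟨g.2, by rw [hgL]; exact hred.div_prime⟩
  obtain ⟨s₂, hs₂, h2⟩ := exists_gauss_mul_isIntegralElem ℓ N hcore hgen hgW
  obtain ⟨t₁, ht₁, h1⟩ := chartAlg_clear N ℓ (jFull N) x hx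
  have h1' : (evalAtJ).IsIntegralElem (evalAtJ (C t₁ * C (ℓ : ℤ)) * (g : LaurentSeries ℚ)) := by
    have : evalAtJ (C t₁ * C (ℓ : ℤ)) * (g : LaurentSeries ℚ) =
        (t₁ : LaurentSeries ℚ) * (x : LaurentSeries ℚ) := by
      rw [map_mul, evalAtJ_C_intCast, evalAtJ_C_natCast, hgL]
      field_simp
    rw [this]
    exact h1
  have ht₁0 : t₁ ≠ 0 := fun h => ht₁ (h ▸ dvd_zero _)
  have h3 := sat_ringHom ℓ evalAtJ evalAtJ_injective hs₂ ht₁0 h1' h2
  rw [evalAtJ_C_intCast] at h3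
  refine ⟨g, mem_chartAlg_of_isIntegralElem N ℓ (jFull N) g t₁ ht₁ h3, ?_⟩
  rw [hg, ← mul_assoc, mul_inv_cancel₀ hℓF, one_mul]

theorem chartSat_mid (hcore : CoreStatement ℓ N) (hgen : GenStatement N) :
    ChartSat ℓ N {jFull N, (jFull N)⁻¹} := by
  intro x hx hred
  have hz : x ∈ chartAlg N ℓ (insert (jFull N)⁻¹ {jFull N}) := by
    rw [show insert (jFull N)⁻¹ ({jFull N} : Set ↥(modularFunctionFieldFull N)) =
      {jFull N, (jFull N)⁻¹} from Set.pair_comm _ _]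
    exact hx
  obtain ⟨n, hn⟩ := exists_pow_mul_mem_chartAlg (Set.mem_singleton _) (jFull_ne_zero N) hz
  have hred' : IsRed ℓ (((jFull N ^ n * x : ↥(modularFunctionFieldFull N))) : LaurentSeries ℚ) 0 := by
    have := ((isRed_jq (ℓ := ℓ)).pow n).mul hred
    rw [mul_zero] at this
    exact this
  obtain ⟨g₁, hg₁, hxg⟩ := chartSat_fin ℓ N hcore hgen _ hn hred'
  refine ⟨(jFull N)⁻¹ ^ n * g₁, ?_, ?_⟩
  · refine mul_mem (pow_mem (subset_chartAlg N ℓ _ (by simp)) n) ?_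
    exact chartAlg_mono N ℓ (sFin_subset N) hg₁
  · have hj := jFull_ne_zero N
    have hjn : jFull N ^ n ≠ 0 := pow_ne_zero _ hj
    apply mul_left_cancel₀ hjn
    rw [hxg, inv_pow]
    field_simp

theorem chartSat_inf (hcore : CoreStatement ℓ N) (hgen : GenStatement N) :
    ChartSat ℓ N {(jFull N)⁻¹} := by
  intro x hx hred
  obtain ⟨g, hg, hxg⟩ := chartSat_mid ℓ N hcore hgen x (chartAlg_mono N ℓ (sInf_subset N) hx) hred
  have hz : g ∈ chartAlg N ℓ (insert (jFull N)⁻¹⁻¹ {(jFull N)⁻¹}) := by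
    rw [inv_inv]; exact hg
  obtain ⟨n, hn⟩ := exists_pow_mul_mem_chartAlg (Set.mem_singleton _)
    (inv_ne_zero (jFull_ne_zero N)) hz
  obtain ⟨t₁, ht₁, h1⟩ := chartAlg_clear N ℓ (jFull N)⁻¹ x hx
  obtain ⟨t₂, ht₂, h2⟩ := chartAlg_clear N ℓ (jFull N)⁻¹ _ hn
  have hθ : (((jFull N)⁻¹ : ↥(modularFunctionFieldFull N)) : LaurentSeries ℚ) = jq⁻¹ := rfl
  rw [hθ] at h1 h2
  set φ : ℤ[X] →+* LaurentSeries ℚ := (Polynomial.aeval (R := ℤ) (jq⁻¹ : LaurentSeries ℚ)).toRingHom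
    with hφ
  have hφinj : Function.Injective φ := fun _ _ h => aeval_jq_inv_injective h
  have hφC : ∀ t : ℤ, φ (C t) = (t : LaurentSeries ℚ) := fun t => by simp [hφ]
  have hφX : φ X = jq⁻¹ := by simp [hφ]
  have h1' : φ.IsIntegralElem (φ (C t₁ * C (ℓ : ℤ)) * (g : LaurentSeries ℚ)) := by
    have : φ (C t₁ * C (ℓ : ℤ)) * (g : LaurentSeries ℚ) =
        (t₁ : LaurentSeries ℚ) * (x : LaurentSeries ℚ) := by
      rw [map_mul, hφC, hφC, hxg]
      push_cast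
      ring
    rw [this]
    exact h1
  have h2' : φ.IsIntegralElem (φ (C t₂ * X ^ n) * (g : LaurentSeries ℚ)) := by
    have : φ (C t₂ * X ^ n) * (g : LaurentSeries ℚ) =
        (t₂ : LaurentSeries ℚ) *
          (((jFull N)⁻¹ ^ n * g : ↥(modularFunctionFieldFull N)) : LaurentSeries ℚ) := by
      rw [map_mul, map_pow, hφC, hφX]
      push_cast
      rw [coe_jFull]
      ring
    rw [this]
    exact h2
  have ht₁0 : t₁ ≠ 0 := fun h => ht₁ (h ▸ dvd_zero _)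
  have h3 := sat_ringHom ℓ φ hφinj (redPoly_C_mul_X_pow_ne_zero ℓ ht₂ n) ht₁0 h1' h2'
  rw [hφC] at h3
  exact ⟨g, mem_chartAlg_of_isIntegralElem N ℓ (jFull N)⁻¹ g t₁ ht₁ (by rw [hθ]; exact h3), hxg⟩

/-! ### Part F: the reduction map of a chart and its kernel -/

/-- the reduction map of a chart of reducible series -/
def chartRedHom (S : Set ↥(modularFunctionFieldFull N)) (h : ChartRed ℓ N S) :
    ↥(chartAlg N ℓ S) →+* LaurentSeries (ZMod ℓ) where
  toFun x := redFun ℓ ⟨((x : ↥(modularFunctionFieldFull N)) : LaurentSeries ℚ), h x.1 x.2⟩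
  map_one' := redFun_eq isRed_one
  map_mul' x y := redFun_eq ((redFun_spec ℓ ⟨_, h x.1 x.2⟩).mul (redFun_spec ℓ ⟨_, h y.1 y.2⟩))
  map_zero' := redFun_eq isRed_zero
  map_add' x y := redFun_eq ((redFun_spec ℓ ⟨_, h x.1 x.2⟩).add (redFun_spec ℓ ⟨_, h y.1 y.2⟩))

omit [NeZero N] in
theorem chartRedHom_spec (S : Set ↥(modularFunctionFieldFull N)) (h : ChartRed ℓ N S)
    (x : ↥(chartAlg N ℓ S)) :
    IsRed ℓ (((x : ↥(modularFunctionFieldFull N)) : LaurentSeries ℚ)) (chartRedHom ℓ N S h x) :=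
  redFun_spec ℓ ⟨_, h x.1 x.2⟩

omit [NeZero N] in
theorem ker_chartRedHom (S : Set ↥(modularFunctionFieldFull N)) (h : ChartRed ℓ N S)
    (hsat : ChartSat ℓ N S) :
    RingHom.ker (chartRedHom ℓ N S h) = Ideal.span {((ℓ : ℕ) : ↥(chartAlg N ℓ S))} := by
  ext x
  rw [RingHom.mem_ker, Ideal.mem_span_singleton]
  constructor
  · intro hx
    have hspec := chartRedHom_spec ℓ N S h x
    rw [hx] at hspec
    obtain ⟨g, hg, hxg⟩ := hsat x.1 x.2 hspec
    exact ⟨⟨g, hg⟩, Subtype.ext (by simpa using hxg)⟩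
  · rintro ⟨g, rfl⟩
    rw [map_mul, map_natCast, natCast_laurent_zmod, zero_mul]

/-- all three charts at once (section-variable form) -/
theorem exists_reduction_aux (hcore : CoreStatement ℓ N) (hgen : GenStatement N)
    (S : Set ↥(modularFunctionFieldFull N))
    (hS : S = {jFull N} ∨ S = {(jFull N)⁻¹} ∨ S = {jFull N, (jFull N)⁻¹}) :
    ∃ ρ : ↥(chartAlg N ℓ S) →+* LaurentSeries (ZMod ℓ),
      RingHom.ker ρ = Ideal.span {((ℓ : ℕ) : ↥(chartAlg N ℓ S))} := by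
  rcases hS with rfl | rfl | rfl
  · exact ⟨_, ker_chartRedHom ℓ N _ (chartRed_fin ℓ N hcore hgen) (chartSat_fin ℓ N hcore hgen)⟩
  · exact ⟨_, ker_chartRedHom ℓ N _ (chartRed_inf ℓ N hcore hgen) (chartSat_inf ℓ N hcore hgen)⟩
  · exact ⟨_, ker_chartRedHom ℓ N _ (chartRed_mid ℓ N hcore hgen) (chartSat_mid ℓ N hcore hgen)⟩

end Main

/-- **the bridge (83-P11, P12, P13).** From CORE and GEN: each of the three chart rings has a ring
homomorphism to `𝔽_ℓ((q))` (the reduction of `q`-expansions) whose kernel is generated by `ℓ`. -/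
theorem exists_reduction (N : ℕ) [NeZero N] (ℓ : ℕ) [Fact ℓ.Prime]
    (hcore : CoreStatement ℓ N) (hgen : GenStatement N)
    (S : Set ↥(modularFunctionFieldFull N))
    (hS : S = {jFull N} ∨ S = {(jFull N)⁻¹} ∨ S = {jFull N, (jFull N)⁻¹}) :
    ∃ ρ : ↥(chartAlg N ℓ S) →+* LaurentSeries (ZMod ℓ),
      RingHom.ker ρ = Ideal.span {((ℓ : ℕ) : ↥(chartAlg N ℓ S))} :=
  exists_reduction_aux ℓ N hcore hgen S hS

end Fermat.Agent.S28
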