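import Fermat.Agent.S28.BridgeRed

/-!
# S28 bridge, part 3: the ring of reducible series, the reduction map, normal forms

* `redSubring ℓ`, `redHom ℓ`: the subring of `ℚ((q))` of series having a reduction mod `ℓ`, and the
  reduction homomorphism to `𝔽_ℓ((q))`.
* `noDiv`: if `x` reduces to `r` and `x / ℓ` is integral over a ring of reducible series, then `r = 0`.
* `exists_normalForm`: GEN + CORE give, for every `f` of the full field for which "`ℓ s(j) f` never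
  reduces to a nonzero series", a presentation `s(j) f = a(j, j_N)` with `s` nonzero mod `ℓ`.
-/

set_option autoImplicit false
open ModularCurve Polynomial

noncomputable section
namespace Fermat.Agent.S28

variable (ℓ : ℕ) [Fact ℓ.Prime]

/-- the subring of `ℚ((q))` of series that have a reduction mod `ℓ` -/
def redSubring : Subring (LaurentSeries ℚ) where
  carrier := {x | ∃ r, IsRed ℓ x r}
  mul_mem' := by rintro _ _ ⟨r, h⟩ ⟨r', h'⟩; exact ⟨_, h.mul h'⟩
  one_mem' := ⟨1, isRed_one⟩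
  add_mem' := by rintro _ _ ⟨r, h⟩ ⟨r', h'⟩; exact ⟨_, h.add h'⟩
  zero_mem' := ⟨0, isRed_zero⟩
  neg_mem' := by rintro _ ⟨r, h⟩; exact ⟨_, h.neg⟩

theorem mem_redSubring {x : LaurentSeries ℚ} : x ∈ redSubring ℓ ↔ ∃ r, IsRed ℓ x r := Iff.rfl

variable {ℓ} in
theorem IsRed.mem {x : LaurentSeries ℚ} {r : LaurentSeries (ZMod ℓ)} (h : IsRed ℓ x r) :
    x ∈ redSubring ℓ := ⟨r, h⟩

/-- the reduction of a reducible series -/
def redFun (x : redSubring ℓ) : LaurentSeries (ZMod ℓ) := Classical.choose x.2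

theorem redFun_spec (x : redSubring ℓ) : IsRed ℓ (x : LaurentSeries ℚ) (redFun ℓ x) :=
  Classical.choose_spec x.2

variable {ℓ} in
theorem redFun_eq {x : redSubring ℓ} {r : LaurentSeries (ZMod ℓ)}
    (h : IsRed ℓ (x : LaurentSeries ℚ) r) : redFun ℓ x = r :=
  (redFun_spec ℓ x).unique h

/-- the reduction homomorphism -/
def redHom : redSubring ℓ →+* LaurentSeries (ZMod ℓ) where
  toFun := redFun ℓ
  map_one' := redFun_eq isRed_one
  map_mul' x y := redFun_eq ((redFun_spec ℓ x).mul (redFun_spec ℓ y))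
  map_zero' := redFun_eq isRed_zero
  map_add' x y := redFun_eq ((redFun_spec ℓ x).add (redFun_spec ℓ y))

theorem redHom_spec (x : redSubring ℓ) : IsRed ℓ (x : LaurentSeries ℚ) (redHom ℓ x) :=
  redFun_spec ℓ x

variable {ℓ} in
theorem redHom_eq {x : redSubring ℓ} {r : LaurentSeries (ZMod ℓ)}
    (h : IsRed ℓ (x : LaurentSeries ℚ) r) : redHom ℓ x = r :=
  redFun_eq h

variable {ℓ} in
theorem redHom_mk {x : LaurentSeries ℚ} {r : LaurentSeries (ZMod ℓ)} (h : IsRed ℓ x r) :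
    redHom ℓ ⟨x, h.mem⟩ = r :=
  redFun_eq (x := ⟨x, h.mem⟩) h

/-! ### the prime `ℓ` and integers -/

theorem natCast_laurent_zmod : ((ℓ : ℕ) : LaurentSeries (ZMod ℓ)) = 0 := by
  have := map_natCast (algebraMap (ZMod ℓ) (LaurentSeries (ZMod ℓ))) ℓ
  rw [← this, ZMod.natCast_self, map_zero]

theorem isRed_intCast (t : ℤ) : IsRed ℓ (t : LaurentSeries ℚ) (t : LaurentSeries (ZMod ℓ)) := by
  have := isRed_iotaZ (ℓ := ℓ) (t : LaurentSeries ℤ)
  rwa [map_intCast, map_intCast] at this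

theorem isRed_natCast_self : IsRed ℓ ((ℓ : ℕ) : LaurentSeries ℚ) 0 := by
  have := isRed_iotaZ (ℓ := ℓ) ((ℓ : ℕ) : LaurentSeries ℤ)
  rwa [map_natCast, map_natCast, natCast_laurent_zmod] at this

theorem intCast_laurent_zmod_ne_zero {t : ℤ} (ht : ¬ (ℓ : ℤ) ∣ t) :
    (t : LaurentSeries (ZMod ℓ)) ≠ 0 := by
  intro h
  have h1 := map_intCast (HahnSeries.C : ZMod ℓ →+* LaurentSeries (ZMod ℓ)) t
  rw [h] at h1
  have h2 : ((t : ZMod ℓ)) = 0 :=
    HahnSeries.C_injective (h1.trans (map_zero _).symm)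
  exact ht ((ZMod.intCast_zmod_eq_zero_iff_dvd t ℓ).mp h2)

omit [Fact ℓ.Prime] in
variable {ℓ} in
theorem natCast_laurent_rat_ne_zero (h : ℓ ≠ 0) : ((ℓ : ℕ) : LaurentSeries ℚ) ≠ 0 := by
  intro h0
  have h1 := map_natCast (HahnSeries.C : ℚ →+* LaurentSeries ℚ) ℓ
  rw [h0] at h1
  have h2 : ((ℓ : ℚ)) = 0 := HahnSeries.C_injective (h1.trans (map_zero _).symm)
  exact h (by exact_mod_cast h2)

/-! ### polynomials mod `ℓ` -/

omit [Fact ℓ.Prime] in
theorem redPoly_eq_zero_iff {s : ℤ[X]} : redPoly ℓ s = 0 ↔ C (ℓ : ℤ) ∣ s := by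
  rw [Polynomial.C_dvd_iff_dvd_coeff, Polynomial.ext_iff]
  refine forall_congr' fun i => ?_
  rw [redPoly, coeff_map, coeff_zero, eq_intCast, ZMod.intCast_zmod_eq_zero_iff_dvd]

/-- reduction of a two-variable integer polynomial -/
abbrev redPoly₂ (a : ℤ[X][X]) : (ZMod ℓ)[X][X] :=
  a.map (Polynomial.mapRingHom (Int.castRingHom (ZMod ℓ)))

theorem redPoly₂_eq_zero_iff {a : ℤ[X][X]} : redPoly₂ ℓ a = 0 ↔ C (C (ℓ : ℤ)) ∣ a := by
  rw [Polynomial.C_dvd_iff_dvd_coeff, Polynomial.ext_iff]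
  refine forall_congr' fun i => ?_
  rw [redPoly₂, coeff_map, coeff_zero]
  exact redPoly_eq_zero_iff ℓ

theorem natDegree_redPoly₂_le (a : ℤ[X][X]) : (redPoly₂ ℓ a).natDegree ≤ a.natDegree :=
  natDegree_map_le

theorem evalAtJ_C_intCast (t : ℤ) : evalAtJ (C t) = (t : LaurentSeries ℚ) := by
  simp [evalAtJ]

omit [Fact ℓ.Prime] in
theorem evalAtJ_C_natCast : evalAtJ (C (ℓ : ℤ)) = ((ℓ : ℕ) : LaurentSeries ℚ) := by
  simp [evalAtJ]

/-! ### evaluation of two-variable polynomials at `(j, j_N)` -/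

variable (N : ℕ) [NeZero N]

theorem isRed_eval₂ (a : ℤ[X][X]) :
    IsRed ℓ (a.eval₂ evalAtJ (jqN N))
      ((redPoly₂ ℓ a).eval₂ (evalAtJbar ℓ) (jqNModC (ZMod ℓ) N)) := by
  have := isRed_iotaZ (ℓ := ℓ) (a.eval₂ evZ (jqNModC ℤ N))
  rwa [Polynomial.hom_eval₂, Polynomial.hom_eval₂, iotaZ_comp_evZ, piZ_comp_evZ, iotaZ_jqNModC,
    piZ_jqNModC, ← Polynomial.eval₂_map] at this

/-! ### `x / ℓ` integral forces the reduction of `x` to vanish -/

omit [NeZero N] in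
/-- if `x` reduces to `r` and `x / ℓ` is integral over a ring mapping into the reducible series,
then `r = 0`. -/
theorem noDiv {A : Type*} [CommRing A] (φ : A →+* LaurentSeries ℚ)
    (hφ : ∀ a, φ a ∈ redSubring ℓ) {x g : LaurentSeries ℚ} {r : LaurentSeries (ZMod ℓ)}
    (hx : IsRed ℓ x r) (hg : φ.IsIntegralElem g)
    (hxg : ((ℓ : ℕ) : LaurentSeries ℚ) * g = x) : r = 0 := by
  obtain ⟨P, hP, hPg⟩ := hg
  set Q := P.scaleRoots ((ℓ : ℕ) : A) with hQ
  have hQm : Q.Monic := (monic_scaleRoots_iff _).mpr hP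
  have hQx : Q.eval₂ φ x = 0 := by
    rw [← hxg, ← map_natCast φ ℓ, hQ, scaleRoots_eval₂_mul, hPg, mul_zero]
  let φ' : A →+* redSubring ℓ := φ.codRestrict (redSubring ℓ) hφ
  let ψ : A →+* LaurentSeries (ZMod ℓ) := (redHom ℓ).comp φ'
  have hψℓ : ψ ((ℓ : ℕ) : A) = 0 := by rw [map_natCast]; exact natCast_laurent_zmod ℓ
  have hx' : eval₂ φ' ⟨x, hx.mem⟩ Q = 0 := by
    apply Subtype.ext
    have := Polynomial.hom_eval₂ Q φ' (redSubring ℓ).subtype ⟨x, hx.mem⟩
    rw [show ((redSubring ℓ).subtype.comp φ') = φ from rfl] at this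
    exact this.trans hQx
  have h1 : eval₂ ψ r Q = 0 := by
    have := Polynomial.hom_eval₂ Q φ' (redHom ℓ) ⟨x, hx.mem⟩
    rw [hx', map_zero, redHom_mk hx] at this
    exact this.symm
  have h2 : eval₂ ψ r Q = r ^ Q.natDegree := by
    rw [eval₂_eq_sum_range, Finset.sum_range_succ, Finset.sum_eq_zero, zero_add,
      hQm.coeff_natDegree, map_one, one_mul]
    intro i hi
    have hi' : i < P.natDegree := by
      have := Finset.mem_range.mp hi
      rwa [hQ, natDegree_scaleRoots] at this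
    rw [hQ, coeff_scaleRoots, map_mul, map_pow, hψℓ, zero_pow (by omega), mul_zero, zero_mul]
  rw [h2] at h1
  exact eq_zero_of_pow_eq_zero h1

/-! ### normal form -/

/-- hypothesis on `f`: whenever `ℓ s(j) f` has a reduction, this reduction is `0`. -/
def NoBad (f : LaurentSeries ℚ) : Prop :=
  ∀ (s' : ℤ[X]) (r : LaurentSeries (ZMod ℓ)),
    IsRed ℓ (((ℓ : ℕ) : LaurentSeries ℚ) * (evalAtJ s' * f)) r → r = 0

omit [NeZero N] in
theorem noBad_of_mem {f : LaurentSeries ℚ} (hf : f ∈ redSubring ℓ) : NoBad ℓ f := by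
  intro s' r hr
  obtain ⟨r', hr'⟩ := hf
  have := (isRed_natCast_self ℓ).mul ((isRed_evalAtJ (ℓ := ℓ) s').mul hr')
  rw [zero_mul] at this
  exact hr.unique this

omit [NeZero N] in
theorem noBad_of_isIntegralElem {f : LaurentSeries ℚ} {t : ℤ} (ht : ¬ (ℓ : ℤ) ∣ t)
    (hf : (evalAtJ).IsIntegralElem ((t : LaurentSeries ℚ) * f)) : NoBad ℓ f := by
  intro s' r hr
  have h1 : IsRed ℓ ((t : LaurentSeries ℚ) * (((ℓ : ℕ) : LaurentSeries ℚ) * (evalAtJ s' * f)))
      ((t : LaurentSeries (ZMod ℓ)) * r) := (isRed_intCast ℓ t).mul hr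
  have hg : (evalAtJ).IsIntegralElem (evalAtJ s' * ((t : LaurentSeries ℚ) * f)) :=
    RingHom.IsIntegralElem.mul _ (RingHom.isIntegralElem_map _) hf
  have h2 := noDiv ℓ evalAtJ (fun a => (isRed_evalAtJ (ℓ := ℓ) a).mem) h1 hg (by ring)
  rcases mul_eq_zero.mp h2 with h | h
  · exact absurd h (intCast_laurent_zmod_ne_zero ℓ ht)
  · exact h

/-- **normal form.** GEN-presentation + CORE: the denominator can be chosen nonzero mod `ℓ`. -/
theorem exists_normalForm (hcore : CoreStatement ℓ N) {f : LaurentSeries ℚ} (hbad : NoBad ℓ f)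
    (a : ℤ[X][X]) (s : ℤ[X]) (hs : s ≠ 0) (ha : a.natDegree < dedekindPsi N)
    (h : evalAtJ s * f = a.eval₂ evalAtJ (jqN N)) :
    ∃ (a' : ℤ[X][X]) (s' : ℤ[X]), redPoly ℓ s' ≠ 0 ∧ a'.natDegree < dedekindPsi N ∧
      evalAtJ s' * f = a'.eval₂ evalAtJ (jqN N) := by
  induction' hn : s.leadingCoeff.natAbs using Nat.strong_induction_on with n ih generalizing s a
  by_cases hred : redPoly ℓ s = 0
  · obtain ⟨s', rfl⟩ := (redPoly_eq_zero_iff ℓ).mp hred
    have hs' : s' ≠ 0 := right_ne_zero_of_mul hs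
    have hℓpos : 0 < ℓ := (Fact.out : ℓ.Prime).pos
    have hx := isRed_eval₂ ℓ N a
    rw [← h, map_mul, evalAtJ_C_natCast, mul_assoc] at hx
    have h0 := hbad s' _ hx
    have ha0 : redPoly₂ ℓ a = 0 :=
      hcore _ (lt_of_le_of_lt (natDegree_redPoly₂_le ℓ a) ha) h0
    obtain ⟨a', rfl⟩ := (redPoly₂_eq_zero_iff ℓ).mp ha0
    have hℓ0 : ((ℓ : ℕ) : LaurentSeries ℚ) ≠ 0 := natCast_laurent_rat_ne_zero hℓpos.ne'
    have h' : evalAtJ s' * f = a'.eval₂ evalAtJ (jqN N) := by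
      apply mul_left_cancel₀ hℓ0
      rw [← mul_assoc, ← evalAtJ_C_natCast, ← map_mul, h, eval₂_mul, eval₂_C]
    have hdeg : a'.natDegree < dedekindPsi N := by
      have : (C (C (ℓ : ℤ)) * a').natDegree = a'.natDegree :=
        natDegree_C_mul (by simp [hℓpos.ne'])
      rwa [this] at ha
    have hlt : s'.leadingCoeff.natAbs < n := by
      rw [← hn, leadingCoeff_mul, leadingCoeff_C, Int.natAbs_mul, Int.natAbs_natCast]
      have h1 : 0 < s'.leadingCoeff.natAbs :=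
        Int.natAbs_pos.mpr (leadingCoeff_ne_zero.mpr hs')
      have h2 : 2 ≤ ℓ := (Fact.out : ℓ.Prime).two_le
      nlinarith
    exact ih _ hlt a' s' hs' hdeg h' rfl
  · exact ⟨a, s, hred, ha, h⟩

end Fermat.Agent.S28
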