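import Fermat.Agent.S28.BridgeDefs
import Fermat.Prelude.Thm_ModularCurve_coeff_jqModC_pow_self
import Fermat.Prelude.Thm_ModularCurve_coeff_jqModC_pow_of_lt

/-!
# S28 bridge, part 1: reduction mod `ℓ` of Laurent series with Gauss-unit denominators

`IsRed ℓ x r`: the series `x ∈ ℚ((q))` reduces to `r ∈ 𝔽_ℓ((q))`, i.e. there is `s ∈ ℤ[Y]`, nonzero
mod `ℓ`, such that `s(j) x` has integer coefficients and `s̄(j̄) r` is its reduction.
-/

set_option autoImplicit false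
open ModularCurve

noncomputable section
namespace Fermat.Agent.S28

/-- `ℤ((q)) → ℚ((q))` -/
def iotaZ : LaurentSeries ℤ →+* LaurentSeries ℚ := coeffMap (Int.castRingHom ℚ)

/-- `ℤ((q)) → 𝔽_ℓ((q))` -/
def piZ (ℓ : ℕ) : LaurentSeries ℤ →+* LaurentSeries (ZMod ℓ) := coeffMap (Int.castRingHom (ZMod ℓ))

theorem iotaZ_injective : Function.Injective iotaZ := by
  intro x y h
  ext n
  have := congrArg (fun z : LaurentSeries ℚ => z.coeff n) h
  simpa [iotaZ] using this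

/-- evaluation of `ℤ[Y]` at `j` inside `ℤ((q))` -/
def evZ : Polynomial ℤ →+* LaurentSeries ℤ :=
  (Polynomial.aeval (R := ℤ) (jqModC ℤ)).toRingHom

theorem iotaZ_jqModC : iotaZ (jqModC ℤ) = jq := by
  rw [iotaZ, coeffMap_jqModC, jqModC_rat]

theorem piZ_jqModC (ℓ : ℕ) : piZ ℓ (jqModC ℤ) = jqModC (ZMod ℓ) := by
  rw [piZ, coeffMap_jqModC]

theorem iotaZ_jqNModC (N : ℕ) [NeZero N] : iotaZ (jqNModC ℤ N) = jqN N := by
  rw [iotaZ, coeffMap_jqNModC, jqNModC_rat]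

theorem piZ_jqNModC (ℓ : ℕ) (N : ℕ) [NeZero N] : piZ ℓ (jqNModC ℤ N) = jqNModC (ZMod ℓ) N := by
  rw [piZ, coeffMap_jqNModC]

theorem iotaZ_comp_evZ : iotaZ.comp evZ = evalAtJ := by
  refine Polynomial.ringHom_ext' (Subsingleton.elim _ _) ?_
  simp [evZ, evalAtJ, iotaZ_jqModC]

theorem iotaZ_evZ (s : Polynomial ℤ) : iotaZ (evZ s) = evalAtJ s := by
  rw [← iotaZ_comp_evZ]; rfl

theorem piZ_comp_evZ (ℓ : ℕ) [Fact ℓ.Prime] :
    (piZ ℓ).comp evZ = (evalAtJbar ℓ).comp (Polynomial.mapRingHom (Int.castRingHom (ZMod ℓ))) := by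
  refine Polynomial.ringHom_ext' (Subsingleton.elim _ _) ?_
  simp [evZ, evalAtJbar, piZ_jqModC]

theorem piZ_evZ (ℓ : ℕ) [Fact ℓ.Prime] (s : Polynomial ℤ) :
    piZ ℓ (evZ s) = evalAtJbar ℓ (s.map (Int.castRingHom (ZMod ℓ))) := by
  have := congrArg (fun f => f s) (piZ_comp_evZ ℓ)
  simpa using this

/-- `j mod ℓ` is transcendental over `𝔽_ℓ`: the coefficient of `q^(-deg p)` of `p(j)` is the leading
coefficient of `p`. -/
theorem coeff_evalAtJbar (ℓ : ℕ) [Fact ℓ.Prime] (p : Polynomial (ZMod ℓ)) :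
    (evalAtJbar ℓ p).coeff (-(p.natDegree : ℤ)) = p.leadingCoeff := by
  classical
  have hsum : evalAtJbar ℓ p = ∑ i ∈ Finset.range (p.natDegree + 1),
      algebraMap (ZMod ℓ) (LaurentSeries (ZMod ℓ)) (p.coeff i) * jqModC (ZMod ℓ) ^ i := by
    conv_lhs => rw [p.as_sum_range]
    simp [evalAtJbar, Polynomial.aeval_monomial]
  have hcoef : ∀ (c : ZMod ℓ) (y : LaurentSeries (ZMod ℓ)) (m : ℤ),
      (algebraMap (ZMod ℓ) (LaurentSeries (ZMod ℓ)) c * y).coeff m = c * y.coeff m := by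
    intro c y m
    rw [algebraMap_laurentSeries_eq_single]
    have : (HahnSeries.single (0 : ℤ) c * y).coeff (m + 0) = c * y.coeff m :=
      HahnSeries.coeff_single_mul_add
    simpa using this
  rw [hsum]
  have hmap : ∀ (S : Finset ℕ) (F : ℕ → LaurentSeries (ZMod ℓ)) (m : ℤ),
      (∑ i ∈ S, F i).coeff m = ∑ i ∈ S, (F i).coeff m := by
    intro S F m
    induction S using Finset.induction_on with
    | empty => simp
    | insert a S ha ih => rw [Finset.sum_insert ha, Finset.sum_insert ha, HahnSeries.coeff_add, ih]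
  rw [hmap, Finset.sum_eq_single p.natDegree]
  · rw [hcoef, coeff_jqModC_pow_self, mul_one, Polynomial.leadingCoeff]
  · intro i hi hne
    rw [hcoef, coeff_jqModC_pow_of_lt, mul_zero]
    have : i < p.natDegree := lt_of_le_of_ne (Nat.lt_succ_iff.mp (Finset.mem_range.mp hi)) hne
    omega
  · intro h
    exact absurd (Finset.mem_range.mpr (Nat.lt_succ_self _)) h

theorem evalAtJbar_ne_zero (ℓ : ℕ) [Fact ℓ.Prime] {p : Polynomial (ZMod ℓ)} (hp : p ≠ 0) :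
    evalAtJbar ℓ p ≠ 0 := by
  intro h
  have := coeff_evalAtJbar ℓ p
  rw [h] at this
  exact Polynomial.leadingCoeff_ne_zero.mpr hp (by simpa using this.symm)

theorem evalAtJbar_injective (ℓ : ℕ) [Fact ℓ.Prime] : Function.Injective (evalAtJbar ℓ) := by
  rw [injective_iff_map_eq_zero]
  intro p hp
  by_contra h
  exact evalAtJbar_ne_zero ℓ h hp

/-- reduction of an integer polynomial mod `ℓ` -/
abbrev redPoly (ℓ : ℕ) (s : Polynomial ℤ) : Polynomial (ZMod ℓ) :=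
  s.map (Int.castRingHom (ZMod ℓ))

/-- `x ∈ ℚ((q))` reduces to `r ∈ 𝔽_ℓ((q))`. -/
def IsRed (ℓ : ℕ) [Fact ℓ.Prime] (x : LaurentSeries ℚ) (r : LaurentSeries (ZMod ℓ)) : Prop :=
  ∃ (s : Polynomial ℤ) (y : LaurentSeries ℤ), redPoly ℓ s ≠ 0 ∧ evalAtJ s * x = iotaZ y ∧
    evalAtJbar ℓ (redPoly ℓ s) * r = piZ ℓ y

variable {ℓ : ℕ} [Fact ℓ.Prime]

theorem IsRed.unique {x : LaurentSeries ℚ} {r r' : LaurentSeries (ZMod ℓ)}
    (h : IsRed ℓ x r) (h' : IsRed ℓ x r') : r = r' := by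
  obtain ⟨s, y, hs, hx, hr⟩ := h
  obtain ⟨s', y', hs', hx', hr'⟩ := h'
  -- s' y = s y' in ℤ((q))
  have hZ : evZ s' * y = evZ s * y' := by
    apply iotaZ_injective
    rw [map_mul, map_mul, iotaZ_evZ, iotaZ_evZ, ← hx, ← hx']
    ring
  have hπ := congrArg (piZ ℓ) hZ
  rw [map_mul, map_mul, piZ_evZ, piZ_evZ, ← hr, ← hr'] at hπ
  have h1 := evalAtJbar_ne_zero ℓ hs
  have h2 := evalAtJbar_ne_zero ℓ hs'
  have : evalAtJbar ℓ (redPoly ℓ s) * evalAtJbar ℓ (redPoly ℓ s') * (r - r') = 0 := by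
    have : evalAtJbar ℓ (redPoly ℓ s) * evalAtJbar ℓ (redPoly ℓ s') * r =
        evalAtJbar ℓ (redPoly ℓ s) * evalAtJbar ℓ (redPoly ℓ s') * r' := by
      calc evalAtJbar ℓ (redPoly ℓ s) * evalAtJbar ℓ (redPoly ℓ s') * r
          = evalAtJbar ℓ (redPoly ℓ s') * (evalAtJbar ℓ (redPoly ℓ s) * r) := by ring
        _ = evalAtJbar ℓ (redPoly ℓ s) * (evalAtJbar ℓ (redPoly ℓ s') * r') := hπ
        _ = _ := by ring
    rw [mul_sub, this, sub_self]
  rcases mul_eq_zero.mp this with h | h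
  · rcases mul_eq_zero.mp h with h | h
    · exact absurd h h1
    · exact absurd h h2
  · exact sub_eq_zero.mp h

theorem isRed_iotaZ (y : LaurentSeries ℤ) : IsRed ℓ (iotaZ y) (piZ ℓ y) :=
  ⟨1, y, by simp [redPoly], by simp, by simp [redPoly]⟩

theorem isRed_zero : IsRed ℓ 0 0 := by
  simpa using isRed_iotaZ (ℓ := ℓ) 0

theorem isRed_one : IsRed ℓ 1 1 := by
  simpa using isRed_iotaZ (ℓ := ℓ) 1

theorem isRed_jq : IsRed ℓ jq (jqModC (ZMod ℓ)) := by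
  have := isRed_iotaZ (ℓ := ℓ) (jqModC ℤ)
  rwa [iotaZ_jqModC, piZ_jqModC] at this

theorem isRed_jqN (N : ℕ) [NeZero N] : IsRed ℓ (jqN N) (jqNModC (ZMod ℓ) N) := by
  have := isRed_iotaZ (ℓ := ℓ) (jqNModC ℤ N)
  rwa [iotaZ_jqNModC, piZ_jqNModC] at this

theorem redPoly_mul_ne_zero {s s' : Polynomial ℤ} (hs : redPoly ℓ s ≠ 0)
    (hs' : redPoly ℓ s' ≠ 0) : redPoly ℓ (s * s') ≠ 0 := by
  rw [redPoly, Polynomial.map_mul]
  exact mul_ne_zero hs hs'

theorem IsRed.add {x x' : LaurentSeries ℚ} {r r' : LaurentSeries (ZMod ℓ)}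
    (h : IsRed ℓ x r) (h' : IsRed ℓ x' r') : IsRed ℓ (x + x') (r + r') := by
  obtain ⟨s, y, hs, hx, hr⟩ := h
  obtain ⟨s', y', hs', hx', hr'⟩ := h'
  refine ⟨s * s', evZ s' * y + evZ s * y', redPoly_mul_ne_zero hs hs', ?_, ?_⟩
  · rw [map_add, map_mul, map_mul, map_mul, iotaZ_evZ, iotaZ_evZ, ← hx, ← hx']
    ring
  · rw [map_add, map_mul, map_mul, piZ_evZ, piZ_evZ, ← hr, ← hr', redPoly, Polynomial.map_mul,
      map_mul]
    ring

theorem IsRed.mul {x x' : LaurentSeries ℚ} {r r' : LaurentSeries (ZMod ℓ)}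
    (h : IsRed ℓ x r) (h' : IsRed ℓ x' r') : IsRed ℓ (x * x') (r * r') := by
  obtain ⟨s, y, hs, hx, hr⟩ := h
  obtain ⟨s', y', hs', hx', hr'⟩ := h'
  refine ⟨s * s', y * y', redPoly_mul_ne_zero hs hs', ?_, ?_⟩
  · rw [map_mul, map_mul, ← hx, ← hx']
    ring
  · rw [map_mul, ← hr, ← hr', redPoly, Polynomial.map_mul, map_mul]
    ring

theorem IsRed.neg {x : LaurentSeries ℚ} {r : LaurentSeries (ZMod ℓ)}
    (h : IsRed ℓ x r) : IsRed ℓ (-x) (-r) := by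
  obtain ⟨s, y, hs, hx, hr⟩ := h
  exact ⟨s, -y, hs, by rw [map_neg, ← hx]; ring, by rw [map_neg, ← hr]; ring⟩

theorem IsRed.pow {x : LaurentSeries ℚ} {r : LaurentSeries (ZMod ℓ)}
    (h : IsRed ℓ x r) (n : ℕ) : IsRed ℓ (x ^ n) (r ^ n) := by
  induction n with
  | zero => simpa using isRed_one (ℓ := ℓ)
  | succ n ih => rw [pow_succ, pow_succ]; exact ih.mul h

/-- dividing by a Gauss unit: if `s(j) x` reduces to `r'` then `x` reduces to `r' / s̄(j̄)`. -/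
theorem IsRed.of_mul {x : LaurentSeries ℚ} {r' : LaurentSeries (ZMod ℓ)} (s : Polynomial ℤ)
    (hs : redPoly ℓ s ≠ 0) (h : IsRed ℓ (evalAtJ s * x) r') :
    IsRed ℓ x (r' * (evalAtJbar ℓ (redPoly ℓ s))⁻¹) := by
  obtain ⟨s', y, hs', hx, hr⟩ := h
  refine ⟨s' * s, y, redPoly_mul_ne_zero hs' hs, ?_, ?_⟩
  · rw [map_mul, ← hx]; ring
  · rw [← hr, redPoly, Polynomial.map_mul, map_mul]
    have h1 := evalAtJbar_ne_zero ℓ hs
    field_simp

/-- integer constants prime to `ℓ` are invertible for the reduction. -/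
theorem isRed_evalAtJ (s : Polynomial ℤ) : IsRed ℓ (evalAtJ s) (evalAtJbar ℓ (redPoly ℓ s)) := by
  have := isRed_iotaZ (ℓ := ℓ) (evZ s)
  rwa [iotaZ_evZ, piZ_evZ] at this

end Fermat.Agent.S28
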