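import Fermat.Agent.S28.KeyLemma
import Fermat.Agent.S28.LemmaK

/-!
# S28: abstract CORE = KEY LEMMA (83-P8a) + LEMMA K (83-P9) in one statement

`jb ∈ k((t))` with a pole; `r i` (`i ∈ ι`) pairwise distinct with `∏ (X - r i)` over `k[jb]`;
types `a i ∣ N`, only `i₀` has type `N`; for every `m ∣ N` a system of units `u m i` with
`∏ (X - u m i)`, `∏ (X - (u m i)⁻¹)` and the Lagrange sum over `k[jb]`, of orders
`c m * (gcd(m, a i)^2 - m)` with `c m ≠ 0`.  Then `r i₀` has degree `card ι` over `k(jb)`.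
-/

set_option autoImplicit false

open Polynomial

noncomputable section

namespace Fermat.Agent.S28.Key

variable {k ι : Type*} [Field k] [Fintype ι] [DecidableEq ι]

theorem core_abstract {jb : LaurentSeries k} (hjb : jb.order < 0) {N : ℕ} (hN : 0 < N)
    (r : ι → LaurentSeries k) (hr : Function.Injective r)
    (Φ : Polynomial (Polynomial k)) (hΦ : Φ.map (evJ jb) = ∏ i : ι, (X - C (r i)))
    (a : ι → ℕ) (ha : ∀ i, a i ∣ N) (i₀ : ι) (htop : ∀ i, a i = N → i = i₀)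
    (u : ℕ → ι → LaurentSeries k) (c : ℕ → ℤ) (hc : ∀ m, m ∣ N → c m ≠ 0)
    (hord : ∀ m, m ∣ N → ∀ i, (u m i).order = c m * (((Nat.gcd m (a i) : ℕ) : ℤ) ^ 2 - (m : ℤ)))
    (hu : ∀ m, m ∣ N → ∀ i, u m i ≠ 0)
    (M M' G : ℕ → Polynomial (Polynomial k))
    (hM : ∀ m, m ∣ N → (M m).map (evJ jb) = ∏ i : ι, (X - C (u m i)))
    (hM' : ∀ m, m ∣ N → (M' m).map (evJ jb) = ∏ i : ι, (X - C (u m i)⁻¹))
    (hG : ∀ m, m ∣ N → (G m).map (evJ jb) =
      ∑ i : ι, C (u m i) * ∏ i' ∈ Finset.univ.erase i, (X - C (r i')))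
    (P : Polynomial (Polynomial k)) (hdeg : P.natDegree < Fintype.card ι)
    (hP : P.eval₂ (evJ jb) (r i₀) = 0) : P = 0 := by
  have hrel : ∀ (I : Finset ι), (∀ m, m ∣ N → ∑ i ∈ I, (u m i).order = 0) →
      ∀ m, m ∣ N → ∑ i ∈ I, (((Nat.gcd m (a i) : ℕ) : ℤ) ^ 2 - (m : ℤ)) = 0 := by
    intro I hI m hm
    have h1 := hI m hm
    simp only [hord m hm, ← Finset.mul_sum] at h1
    rcases mul_eq_zero.mp h1 with h | h
    · exact absurd h (hc m hm)
    · exact h
  have hI : rootSetJ jb r i₀ = Finset.univ := by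
    refine lemmaK_eq hN Finset.univ (rootSetJ jb r i₀) (Finset.subset_univ _) a
      (fun i _ => ha i) (fun i _ hi => ?_) ?_ ?_
    · rw [htop i hi]; exact self_mem_rootSetJ jb r i₀
    · refine hrel _ (fun m hm => ?_)
      obtain ⟨hHd, hH⟩ := lagrange_interp r (u m) hr Φ (G m) hΦ (hG m hm)
      exact sum_order_rootSetJ hjb r (u m) hr (hu m hm) Φ (G m) (derivative Φ) (M m) (M' m)
        hΦ hHd hH (hM m hm) (hM' m hm) i₀
    · exact hrel _ (fun m hm =>
        sum_order_univ hjb (u m) (hu m hm) (M m) (M' m) (hM m hm) (hM' m hm))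
  exact eq_zero_of_rootSetJ_eq_univ hjb r hr Φ hΦ i₀ hI P hdeg hP

end Fermat.Agent.S28.Key

end
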