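import Mathlib
import Fermat.Agent.S28.BridgeDefs

/-!
# S28, 83-P10-a: descent of CORE from an arbitrary field of characteristic `ℓ`
and from the variable `t = q^(1/N)` to `CoreStatement ℓ N`

`CoreOverT k N` is the statement of CORE over a field `k`, with all series expanded in the
variable `t = q^(1/N)`, i.e. after applying `qExpand k N`.  Since the map
`LaurentSeries (ZMod ℓ) → LaurentSeries k`, "map the coefficients, then substitute `q = t^N`",
is an injective ring homomorphism which sends `j mod ℓ` and `j_N mod ℓ` to the series occurring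
in `CoreOverT`, the statement `CoreOverT k N` for one field `k` of characteristic `ℓ`
implies `CoreStatement ℓ N`.
-/

set_option autoImplicit false
open ModularCurve

noncomputable section
namespace Fermat.Agent.S28

/-- **CORE over `k`, in the variable `t = q^(1/N)`**: `1, j_N, …, j_N^(ψ(N)-1)` are linearly
independent over `k(j)`; the inner variable is sent to `j(t^N)`, the outer one to `j(t^(N*N))`. -/
def CoreOverT (k : Type*) [Field k] (N : ℕ) [NeZero N] : Prop :=
  ∀ P : Polynomial (Polynomial k), P.natDegree < ModularCurve.dedekindPsi N →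
    P.eval₂ (Polynomial.aeval (ModularCurve.qExpand k N (ModularCurve.jqModC k))).toRingHom
      (ModularCurve.qExpand k N (ModularCurve.jqNModC k N)) = 0 → P = 0

namespace Descent

variable {R S : Type*} [CommRing R] [CommRing S]

/-- coefficientwise map followed by `q ↦ t^N`, as a ring homomorphism -/
def baseT (f : R →+* S) (N : ℕ) [NeZero N] : LaurentSeries R →+* LaurentSeries S :=
  (qExpand S N).comp (coeffMap f)

theorem baseT_apply (f : R →+* S) (N : ℕ) [NeZero N] (x : LaurentSeries R) :
    baseT f N x = qExpand S N (coeffMap f x) := rfl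

theorem coeffMap_injective {f : R →+* S} (hf : Function.Injective f) :
    Function.Injective (coeffMap f) := by
  intro x y hxy
  ext n
  apply hf
  have := congrArg (fun z => z.coeff n) hxy
  simpa using this

theorem baseT_injective {f : R →+* S} (hf : Function.Injective f) (N : ℕ) [NeZero N] :
    Function.Injective (baseT f N) :=
  (qExpand_injective (R := S) N).comp (coeffMap_injective hf)

theorem baseT_jqModC (f : R →+* S) (N : ℕ) [NeZero N] :
    baseT f N (jqModC R) = qExpand S N (jqModC S) := by
  rw [baseT_apply, coeffMap_jqModC]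

theorem baseT_jqNModC (f : R →+* S) (N : ℕ) [NeZero N] :
    baseT f N (jqNModC R N) = qExpand S N (jqNModC S N) := by
  rw [baseT_apply, coeffMap_jqNModC]

end Descent

open Descent in
/-- the two ways of evaluating a polynomial over `ZMod ℓ` at `j` in `k((t))` agree -/
theorem baseT_comp_evalAtJbar (ℓ N : ℕ) [Fact ℓ.Prime] [NeZero N] (k : Type*) [Field k]
    (φ : ZMod ℓ →+* k) :
    (baseT φ N).comp (evalAtJbar ℓ) =
      ((Polynomial.aeval (R := k) (qExpand k N (jqModC k))).toRingHom).comp
        (Polynomial.mapRingHom φ) := by
  apply Polynomial.ringHom_ext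
  · intro c
    simp only [RingHom.comp_apply, evalAtJbar_C, Polynomial.coe_mapRingHom, Polynomial.map_C,
      AlgHom.toRingHom_eq_coe, RingHom.coe_coe, Polynomial.aeval_C, baseT_apply]
    rw [HahnSeries.algebraMap_apply', HahnSeries.algebraMap_apply']
    have h1 : algebraMap (ZMod ℓ) (PowerSeries (ZMod ℓ)) c = PowerSeries.C c := by simp
    have h2 : algebraMap k (PowerSeries k) (φ c) = PowerSeries.C (φ c) := by simp
    rw [h1, h2, HahnSeries.ofPowerSeries_C, HahnSeries.ofPowerSeries_C]
    have e1 : (HahnSeries.C c : LaurentSeries (ZMod ℓ)) = HahnSeries.single 0 c := rfl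
    have e2 : (HahnSeries.C (φ c) : LaurentSeries k) = HahnSeries.single 0 (φ c) := rfl
    rw [e1, e2, coeffMap_single, qExpand_single, mul_zero]
  · simp only [RingHom.comp_apply, evalAtJbar_X, Polynomial.coe_mapRingHom, Polynomial.map_X,
      AlgHom.toRingHom_eq_coe, RingHom.coe_coe, Polynomial.aeval_X]
    exact baseT_jqModC φ N

open Descent in
/-- **83-P10-a (descent)**: CORE over one field `k` of characteristic `ℓ`, in the variable
`t = q^(1/N)`, implies `CoreStatement ℓ N`. -/
theorem core_of_coreOverT (ℓ N : ℕ) [Fact ℓ.Prime] [NeZero N] (k : Type) [Field k] [CharP k ℓ]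
    (h : CoreOverT k N) : CoreStatement ℓ N := by
  intro P hdeg hP
  let φ : ZMod ℓ →+* k := ZMod.castHom (dvd_refl ℓ) k
  have hφ : Function.Injective φ := φ.injective
  have hmap : Function.Injective (Polynomial.mapRingHom φ) := Polynomial.map_injective φ hφ
  have hmap2 : Function.Injective (Polynomial.map (Polynomial.mapRingHom φ)) :=
    Polynomial.map_injective _ hmap
  apply hmap2
  rw [Polynomial.map_zero]
  apply h
  · exact lt_of_le_of_lt (Polynomial.natDegree_map_le) hdeg
  · rw [Polynomial.eval₂_map, ← baseT_comp_evalAtJbar ℓ N k φ, ← baseT_jqNModC φ N,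
      ← Polynomial.hom_eval₂, hP, map_zero]

end Fermat.Agent.S28
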