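import Fermat.Agent.S28.UnitRN
import Fermat.Agent.S28.RedBasic

/-!
# S28, piece 83-P10-b (first half): the reductions of the conjugates of the modular units

`A` a valuation subring of `ℚ̄` over `ℓ ∤ N`.  For every `γ ∈ SL(2,ℤ)` the expansions of
`u_m ∘ γ` and of its inverse have coefficients in `A`, their reductions are inverse to each other
and have order `± (N/m) (gcd(m, γ₁₀)² - m)`.
-/

set_option autoImplicit false

open scoped MatrixGroups

namespace Fermat.Agent.S28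

open Fermat.Agent.FF ModularCurve

/-- `coeffSubring A.toSubring` (83-P6) and `intSeries A` (83-P5) are the same subring -/
theorem mem_intSeries_of_mem_coeffSubring (A : ValuationSubring Kbar) {x : LaurentSeries Kbar}
    (hx : x ∈ coeffSubring A.toSubring) : x ∈ intSeries A :=
  (mem_intSeries_iff A).mpr hx

theorem mem_coeffSubring_of_mem_intSeries (A : ValuationSubring Kbar) {x : LaurentSeries Kbar}
    (hx : x ∈ intSeries A) : x ∈ coeffSubring A.toSubring :=
  (mem_intSeries_iff A).mp hx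

/-- reduction with the leading coefficient in the `HahnSeries.leadingCoeff` form -/
theorem redS_order_eq_of_leadingCoeff (A : ValuationSubring Kbar) (x : intSeries A)
    (hu : A.valuation (x : LaurentSeries Kbar).leadingCoeff = 1) :
    (redS A x).order = (x : LaurentSeries Kbar).order := by
  apply redS_order_eq
  rwa [HahnSeries.leadingCoeff_eq] at hu

section Units

variable (N m : ℕ) [NeZero N] [NeZero m] (hm : m ∣ N)
variable {ℓ : ℕ} (hℓ : ℓ.Prime) (hℓN : ¬ ℓ ∣ N)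
variable (A : ValuationSubring Kbar) (hA : A.LiesOverPrime ℓ)

include hℓ hℓN hA in
/-- all data on one conjugate of the unit `u_m` and of its inverse -/
theorem unit_conj_data (γ : SL(2, ℤ)) :
    expInf N (compSL N γ (uR N m hm)) ∈ intSeries A ∧
    expInf N (compSL N γ (uRinv N m hm)) ∈ intSeries A ∧
    A.valuation (expInf N (compSL N γ (uR N m hm))).leadingCoeff = 1 ∧
    A.valuation (expInf N (compSL N γ (uRinv N m hm))).leadingCoeff = 1 ∧
    (expInf N (compSL N γ (uR N m hm))).order =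
      ((N / m : ℕ) : ℤ) * (((Int.gcd (m : ℤ) (γ 1 0) : ℕ) : ℤ) ^ 2 - (m : ℤ)) ∧
    (expInf N (compSL N γ (uRinv N m hm))).order =
      -(((N / m : ℕ) : ℤ) * (((Int.gcd (m : ℤ) (γ 1 0) : ℕ) : ℤ) ^ 2 - (m : ℤ))) := by
  obtain ⟨a, d', e, _, _, ζ, h1, h2, h3, h4, h5, h6⟩ := expInf_compSL_uR N m hm γ
  have hd'N : d' ∣ N := ⟨e, h2.symm⟩
  have hd' : ¬ ℓ ∣ d' := fun h => hℓN (h.trans hd'N)
  have hd'0 : d' ≠ 0 := fun h => hd' (h ▸ dvd_zero ℓ)
  have hd'K : (d' : Kbar) ≠ 0 := by exact_mod_cast hd'0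
  have hζ0 : ζ ≠ 0 := by
    rintro rfl
    rw [zero_pow hd'0] at h4
    exact zero_ne_one h4
  have hζA : ζ ∈ A.toSubring := mem_of_pow_eq_one A hd'0 h4
  have hζinvA : ζ⁻¹ ∈ A.toSubring := inv_mem_of_pow_eq_one hζA (Nat.pos_of_ne_zero hd'0) h4
  have hvζ : A.valuation ζ = 1 := val_eq_one_of_pow_eq_one A hd'0 h4
  have hc1 : ((d' : Kbar)⁻¹) ^ 12 ∈ A.toSubring :=
    A.toSubring.pow_mem (inv_natCast_mem A hℓ hA hd') 12
  have hc2 : ((d' : Kbar)) ^ 12 ∈ A.toSubring :=
    A.toSubring.pow_mem (natCast_mem A.toSubring d') 12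
  have hvd : A.valuation (d' : Kbar) = 1 := val_natCast_eq_one A hℓ hA hd'
  -- arithmetic of the order
  have hq : ((N / m : ℕ) : ℤ) * (((Int.gcd (m : ℤ) (γ 1 0) : ℕ) : ℤ) ^ 2 - (m : ℤ)) =
      (e : ℤ) * a - N := by
    rw [h3]
    obtain ⟨q, hq⟩ := hm
    have hm0 : 0 < m := Nat.pos_of_ne_zero (NeZero.ne m)
    have hNm : N / m = q := by rw [hq, Nat.mul_div_cancel_left _ hm0]
    have he : e = a * q := by
      have : d' * e = d' * (a * q) := by
        rw [h2, hq, ← h1]; ring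
      exact Nat.eq_of_mul_eq_mul_left (Nat.pos_of_ne_zero hd'0) this
    rw [hNm, hq, ← h1, he]
    push_cast
    ring
  refine ⟨?_, ?_, ?_, ?_, ?_, ?_⟩
  · rw [h5]
    exact mem_intSeries_of_mem_coeffSubring A (unitSer_mem_coeffSubring N a e hc1 hζA hζinvA)
  · rw [h6]
    exact mem_intSeries_of_mem_coeffSubring A (unitInvSer_mem_coeffSubring N a e hc2 hζA hζinvA)
  · rw [h5, leadingCoeff_unitSer N a e hζ0, map_mul, map_pow, map_inv₀, hvd, hvζ]
    simp
  · rw [h6, leadingCoeff_unitInvSer N a e hζ0, map_mul, map_pow, map_inv₀, hvd, hvζ]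
    simp
  · rw [h5, order_unitSer N a e (pow_ne_zero 12 (inv_ne_zero hd'K)) hζ0, hq]
  · rw [h6, order_unitInvSer N a e (pow_ne_zero 12 hd'K) hζ0, hq]
    ring

include hℓ hℓN hA in
/-- **integrality** of the conjugates of the unit -/
theorem expInf_compSL_uR_mem (γ : SL(2, ℤ)) :
    expInf N (compSL N γ (uR N m hm)) ∈ intSeries A :=
  (unit_conj_data N m hm hℓ hℓN A hA γ).1

include hℓ hℓN hA in
theorem expInf_compSL_uRinv_mem (γ : SL(2, ℤ)) :
    expInf N (compSL N γ (uRinv N m hm)) ∈ intSeries A :=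
  (unit_conj_data N m hm hℓ hℓN A hA γ).2.1

/-- **order of the reduced unit**: `(N/m) (gcd(m, γ₁₀)² - m)` -/
theorem order_redS_uR (γ : SL(2, ℤ)) :
    (redS A ⟨expInf N (compSL N γ (uR N m hm)),
        expInf_compSL_uR_mem N m hm hℓ hℓN A hA γ⟩).order =
      ((N / m : ℕ) : ℤ) * (((Int.gcd (m : ℤ) (γ 1 0) : ℕ) : ℤ) ^ 2 - (m : ℤ)) := by
  obtain ⟨_, _, h3, _, h5, _⟩ := unit_conj_data N m hm hℓ hℓN A hA γ
  rw [redS_order_eq_of_leadingCoeff A _ h3, h5]

theorem order_redS_uRinv (γ : SL(2, ℤ)) :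
    (redS A ⟨expInf N (compSL N γ (uRinv N m hm)),
        expInf_compSL_uRinv_mem N m hm hℓ hℓN A hA γ⟩).order =
      -(((N / m : ℕ) : ℤ) * (((Int.gcd (m : ℤ) (γ 1 0) : ℕ) : ℤ) ^ 2 - (m : ℤ))) := by
  obtain ⟨_, _, _, h4, _, h6⟩ := unit_conj_data N m hm hℓ hℓN A hA γ
  rw [redS_order_eq_of_leadingCoeff A _ h4, h6]

/-- the reductions of a conjugate of the unit and of its inverse are inverse to each other -/
theorem redS_uR_mul_redS_uRinv (γ : SL(2, ℤ)) :
    redS A ⟨expInf N (compSL N γ (uR N m hm)), expInf_compSL_uR_mem N m hm hℓ hℓN A hA γ⟩ *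
      redS A ⟨expInf N (compSL N γ (uRinv N m hm)),
        expInf_compSL_uRinv_mem N m hm hℓ hℓN A hA γ⟩ = 1 := by
  rw [← map_mul, ← map_one (redS A)]
  congr 1
  apply Subtype.ext
  show expInf N (compSL N γ (uR N m hm)) * expInf N (compSL N γ (uRinv N m hm)) = 1
  rw [← map_mul, ← map_mul, uR_mul_uRinv, map_one, map_one]

theorem redS_uR_ne_zero (γ : SL(2, ℤ)) :
    redS A ⟨expInf N (compSL N γ (uR N m hm)),
      expInf_compSL_uR_mem N m hm hℓ hℓN A hA γ⟩ ≠ 0 := by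
  intro h
  have := redS_uR_mul_redS_uRinv N m hm hℓ hℓN A hA γ
  rw [h, zero_mul] at this
  exact zero_ne_one this

end Units

end Fermat.Agent.S28
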