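import Fermat.Agent.S28.JConj
import Fermat.Agent.S28.CoreOrd

/-!
# S28, piece 83-P10-b (second half), (R1): reduction is injective on the conjugates of `j(Nτ)`

`A` a valuation subring of `ℚ̄` over `ℓ ∤ N`.  The expansions of the conjugates
`j(N · γτ)`, `γ ∈ SL(2,ℤ)`, have coefficients in `A`, and two of them with the same reduction are
equal.
-/

set_option autoImplicit false

open scoped MatrixGroups

namespace Fermat.Agent.S28

open Fermat.Agent.FF ModularCurve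

section R1

variable (N : ℕ) [NeZero N] {ℓ : ℕ} (hℓ : ℓ.Prime) (hℓN : ¬ ℓ ∣ N)
variable (A : ValuationSubring Kbar) (hA : A.LiesOverPrime ℓ)

/-- integrality of a formal conjugate `j(ζ t^(a e))`, `ζ` a root of unity -/
theorem twSer_jq_mem_intSeries (a e : ℕ) [NeZero a] [NeZero e] {ζ : Kbar} {d : ℕ} (hd : d ≠ 0)
    (hζ : ζ ^ d = 1) : twSer Kbar a e ζ (jqModC Kbar) ∈ intSeries A := by
  have hζA : ζ ∈ A.toSubring := mem_of_pow_eq_one A hd hζ
  exact mem_intSeries_of_mem_coeffSubring A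
    (twSer_jq_mem_coeffSubring a e hζA (inv_mem_of_pow_eq_one hζA (Nat.pos_of_ne_zero hd) hζ))

/-- **integrality** of the conjugates of `j(dτ)`, `d ∣ N` -/
theorem expInf_compSL_jR_mem (d : ℕ) [NeZero d] (hd : d ∣ N) (γ : SL(2, ℤ)) :
    expInf N (compSL N γ (jR N d hd)) ∈ intSeries A := by
  obtain ⟨a, d', e, _, _, ζ, h1, h2, h3, h4, h5⟩ := expInf_compSL_jR N d hd γ
  have hd'0 : d' ≠ 0 := by
    rintro rfl
    rw [mul_zero] at h1
    exact NeZero.ne d h1.symm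
  rw [h5]
  exact twSer_jq_mem_intSeries A a e hd'0 h4

/-- order and leading coefficient of the reduction of a formal conjugate -/
theorem redS_twSer_jq_order (a e : ℕ) [NeZero a] [NeZero e] {ζ : Kbar} {d : ℕ} (hd : d ≠ 0)
    (hζ : ζ ^ d = 1) :
    (redS A ⟨twSer Kbar a e ζ (jqModC Kbar), twSer_jq_mem_intSeries A a e hd hζ⟩).order =
      -((e : ℤ) * a) := by
  have hζ0 : ζ ≠ 0 := by
    rintro rfl
    rw [zero_pow hd] at hζ
    exact zero_ne_one hζ
  rw [redS_order_eq_of_leadingCoeff A _ (by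
    show A.valuation (twSer Kbar a e ζ (jqModC Kbar)).leadingCoeff = 1
    rw [leadingCoeff_twSer_jq a e hζ0, map_inv₀, val_eq_one_of_pow_eq_one A hd hζ, inv_one])]
  exact order_twSer_jq a e hζ0

omit [NeZero N] in
include hℓ hℓN hA in
/-- **(R1)**: two formal conjugates `j(ζ t^(a²))`, `j(ζ' t^(a'²))` (`a d' = N = a' d''`,
`ζ^d' = 1 = ζ'^d''`) with the same reduction are equal. -/
theorem twSer_jq_eq_of_redS_eq {a d' a' d'' : ℕ} [NeZero a] [NeZero a'] {ζ ζ' : Kbar}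
    (h1 : a * d' = N) (h1' : a' * d'' = N) (hζ : ζ ^ d' = 1) (hζ' : ζ' ^ d'' = 1)
    (hd' : d' ≠ 0) (hd'' : d'' ≠ 0)
    (hred : redS A ⟨twSer Kbar a a ζ (jqModC Kbar), twSer_jq_mem_intSeries A a a hd' hζ⟩ =
      redS A ⟨twSer Kbar a' a' ζ' (jqModC Kbar), twSer_jq_mem_intSeries A a' a' hd'' hζ'⟩) :
    a = a' ∧ ζ = ζ' := by
  have hζ0 : ζ ≠ 0 := by
    rintro rfl
    rw [zero_pow hd'] at hζ
    exact zero_ne_one hζ
  have hζ'0 : ζ' ≠ 0 := by
    rintro rfl
    rw [zero_pow hd''] at hζ'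
    exact zero_ne_one hζ'
  -- orders
  have ho := redS_twSer_jq_order A a a hd' hζ
  have ho' := redS_twSer_jq_order A a' a' hd'' hζ'
  rw [hred, ho'] at ho
  have haa : a = a' := by
    have h2 : (a' : ℤ) * a' = (a : ℤ) * a := by linarith
    have h3 : a' * a' = a * a := by exact_mod_cast h2
    exact (Nat.mul_self_inj.mp h3).symm
  subst haa
  have hdd : d' = d'' := by
    have : a * d' = a * d'' := by rw [h1, h1']
    exact Nat.eq_of_mul_eq_mul_left (Nat.pos_of_ne_zero (NeZero.ne a)) this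
  subst hdd
  refine ⟨rfl, ?_⟩
  -- leading coefficients
  have hd'N : ¬ ℓ ∣ d' := fun h => hℓN (h.trans ⟨a, by rw [← h1, mul_comm]⟩)
  by_contra hne
  have hne' : ζ⁻¹ ≠ ζ'⁻¹ := fun h => hne (inv_injective h)
  have hv := val_sub_eq_one_of_pow_eq_one A hℓ hA hd'N
    (show (ζ⁻¹) ^ d' = 1 by rw [inv_pow, hζ, inv_one])
    (show (ζ'⁻¹) ^ d' = 1 by rw [inv_pow, hζ', inv_one]) hne'
  -- the coefficient of the difference at `-(a a)`
  have hc := congrArg (fun y : LaurentSeries (IsLocalRing.ResidueField A) =>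
    y.coeff (-((a : ℤ) * a))) hred
  simp only [redS_coeff] at hc
  rw [← sub_eq_zero, ← map_sub, IsLocalRing.residue_eq_zero_iff,
    ValuationSubring.valuation_lt_one_iff] at hc
  have hx : (twSer Kbar a a ζ (jqModC Kbar)).coeff (-((a : ℤ) * a)) = ζ⁻¹ := by
    rw [← order_twSer_jq a a hζ0, ← HahnSeries.leadingCoeff_eq, leadingCoeff_twSer_jq a a hζ0]
  have hx' : (twSer Kbar a a ζ' (jqModC Kbar)).coeff (-((a : ℤ) * a)) = ζ'⁻¹ := by
    rw [← order_twSer_jq a a hζ'0, ← HahnSeries.leadingCoeff_eq, leadingCoeff_twSer_jq a a hζ'0]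
  have hc' : A.valuation (ζ⁻¹ - ζ'⁻¹) < 1 := by
    rw [← hx, ← hx']
    exact hc
  rw [hv] at hc'
  exact lt_irrefl _ hc'

include hℓ hℓN hA in
/-- **(R1)**: reduction is injective on the conjugates of `j(Nτ)`. -/
theorem red_conj_jR_inj :
    (∀ γ : SL(2, ℤ), expInf N (compSL N γ (jR N N dvd_rfl)) ∈ intSeries A) ∧
    ∀ (γ γ' : SL(2, ℤ)) (h : expInf N (compSL N γ (jR N N dvd_rfl)) ∈ intSeries A)
      (h' : expInf N (compSL N γ' (jR N N dvd_rfl)) ∈ intSeries A),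
      redS A ⟨expInf N (compSL N γ (jR N N dvd_rfl)), h⟩ =
        redS A ⟨expInf N (compSL N γ' (jR N N dvd_rfl)), h'⟩ →
      expInf N (compSL N γ (jR N N dvd_rfl)) = expInf N (compSL N γ' (jR N N dvd_rfl)) := by
  refine ⟨fun γ => expInf_compSL_jR_mem N A N dvd_rfl γ, ?_⟩
  intro γ γ' h h' hred
  obtain ⟨a, d', _, ζ, h1, -, h4, h5⟩ := expInf_compSL_jRN N γ
  obtain ⟨a', d'', _, ζ', h1', -, h4', h5'⟩ := expInf_compSL_jRN N γ'
  have hd' : d' ≠ 0 := by
    rintro rfl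
    rw [mul_zero] at h1
    exact NeZero.ne N h1.symm
  have hd'' : d'' ≠ 0 := by
    rintro rfl
    rw [mul_zero] at h1'
    exact NeZero.ne N h1'.symm
  have hred' : redS A ⟨twSer Kbar a a ζ (jqModC Kbar), twSer_jq_mem_intSeries A a a hd' h4⟩ =
      redS A ⟨twSer Kbar a' a' ζ' (jqModC Kbar), twSer_jq_mem_intSeries A a' a' hd'' h4'⟩ := by
    have e1 : (⟨expInf N (compSL N γ (jR N N dvd_rfl)), h⟩ : intSeries A) =
        ⟨twSer Kbar a a ζ (jqModC Kbar), twSer_jq_mem_intSeries A a a hd' h4⟩ :=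
      Subtype.ext h5
    have e2 : (⟨expInf N (compSL N γ' (jR N N dvd_rfl)), h'⟩ : intSeries A) =
        ⟨twSer Kbar a' a' ζ' (jqModC Kbar), twSer_jq_mem_intSeries A a' a' hd'' h4'⟩ :=
      Subtype.ext h5'
    rw [← e1, ← e2]
    exact hred
  obtain ⟨haa, hζζ⟩ := twSer_jq_eq_of_redS_eq N hℓ hℓN A hA h1 h1' h4 h4' hd' hd'' hred'
  subst haa
  subst hζζ
  rw [h5, h5']

end R1

end Fermat.Agent.S28
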