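import Fermat.Agent.S28.CoreAbstract
import Fermat.Agent.S28.CoreR1
import Fermat.Agent.S28.CoreDescent
import Fermat.Agent.S28.CoreTypes
import Fermat.Agent.FF.ModDist
import Fermat.Agent.FF.CosetIndex
import Fermat.Agent.Lib.FrobeniusExists

/-!
# S28, piece 83-P10: assembly of CORE

`A` a valuation subring of `ℚ̄` over `ℓ ∤ N`, `k` its residue field.  `rRed N A i` is the
reduction of the expansion (in `t = q^(1/N)`) of the conjugate of `j(Nτ)` at the coset
`i ∈ SL(2,ℤ) ⧸ Γ₀(N)`, `uRed … m i` the reduction of the conjugate of the unit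
`u_m = Δ(mτ)/Δ(τ)`, `typeX N i = gcd(N, c_i)` the type of the coset.

* `coreOverT_of_normPolysRed`: from the reduced norm polynomials `NormPolysRed` (83-P7) the
  abstract CORE (`Key.core_abstract`) gives `CoreOverT k N`;
* `core_of_normPolysRed`: with the descent (83-P10-a) this is `CoreStatement ℓ N`.
-/

set_option autoImplicit false
open UpperHalfPlane hiding I
open scoped MatrixGroups
open Polynomial

namespace Fermat.Agent.S28
open Fermat.Agent.FF ModularCurve

section CoreMain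
variable (N : ℕ) [NeZero N] {ℓ : ℕ} (hℓ : ℓ.Prime) (hℓN : ¬ ℓ ∣ N)
variable (A : ValuationSubring Kbar) (hA : A.LiesOverPrime ℓ)

/-- the reduced conjugate of `j_N` at the coset `i` -/
noncomputable def rRed (i : X N) : LaurentSeries (IsLocalRing.ResidueField A) :=
  redS A ⟨expInf N (compSL N (Quotient.out i)⁻¹ (jR N N dvd_rfl)),
    expInf_compSL_jR_mem N A N dvd_rfl _⟩

theorem neZero_of_dvd_core {m : ℕ} (hm : m ∣ N) : NeZero m :=
  ⟨fun h => NeZero.ne N (by subst h; simpa using hm)⟩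

/-- the reduced conjugate of the unit `u_m` at the coset `i` (`1` if `m ∤ N`) -/
noncomputable def uRed (m : ℕ) (i : X N) : LaurentSeries (IsLocalRing.ResidueField A) :=
  if hm : m ∣ N then
    haveI : NeZero m := neZero_of_dvd_core N hm
    redS A ⟨expInf N (compSL N (Quotient.out i)⁻¹ (uR N m hm)),
      expInf_compSL_uR_mem N m hm hℓ hℓN A hA _⟩
  else 1

theorem uRed_of_dvd {m : ℕ} [NeZero m] (hm : m ∣ N) (i : X N) :
    uRed N hℓ hℓN A hA m i =
      redS A ⟨expInf N (compSL N (Quotient.out i)⁻¹ (uR N m hm)),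
        expInf_compSL_uR_mem N m hm hℓ hℓN A hA _⟩ := by
  unfold uRed
  rw [dif_pos hm]

theorem order_jbarT (k : Type*) [Field k] : (qExpand k N (jqModC k)).order < 0 := by
  rw [order_qExpand, order_jqModC']
  have hN : (0 : ℤ) < N := by exact_mod_cast Nat.pos_of_ne_zero (NeZero.ne N)
  omega

/-- distinct cosets give distinct conjugates of `j(Nτ)` (characteristic `0`) -/
theorem mk_eq_of_compSL_jR_eq (g h : SL(2, ℤ))
    (h1 : compSL N g⁻¹ (jR N N dvd_rfl) = compSL N h⁻¹ (jR N N dvd_rfl)) :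
    (QuotientGroup.mk g : X N) = QuotientGroup.mk h := by
  rw [QuotientGroup.eq]
  apply mem_Gamma0_of_jFun_scale_eq N (g⁻¹ * h) (fun τ => scaleH N ((g⁻¹ * h) • τ))
    (scaleH N) (fun τ => rfl) (fun τ => rfl)
  intro τ
  have h2 := congrArg (fun r : RN N => (r : ℍ → ℂ) (h • τ)) h1
  simp only [compSL_apply, jR_apply] at h2
  rw [← mul_smul, ← mul_smul, inv_mul_cancel, one_smul] at h2
  exact h2

include hℓ hℓN hA in
theorem rRed_injective : Function.Injective (rRed N A) := by
  intro i i' h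
  have h1 := (red_conj_jR_inj N hℓ hℓN A hA).2 _ _ _ _ h
  have h2 := expInf_injective N h1
  have h3 := mk_eq_of_compSL_jR_eq N _ _ h2
  rwa [QuotientGroup.out_eq', QuotientGroup.out_eq'] at h3

omit [NeZero N] in
theorem out_one_inv_mem : (Quotient.out ((1 : SL(2, ℤ)) : X N))⁻¹ ∈ CongruenceSubgroup.Gamma0 N := by
  apply inv_mem
  have h1 : ((Quotient.out ((1 : SL(2, ℤ)) : X N) : SL(2, ℤ)) : X N) = ((1 : SL(2, ℤ)) : X N) :=
    QuotientGroup.out_eq' _
  have h2 := QuotientGroup.eq.mp h1.symm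
  simpa using h2

theorem rRed_one : rRed N A ((1 : SL(2, ℤ)) : X N) =
    qExpand (IsLocalRing.ResidueField A) N (jqNModC (IsLocalRing.ResidueField A) N) := by
  have h : expInf N (compSL N (Quotient.out ((1 : SL(2, ℤ)) : X N))⁻¹ (jR N N dvd_rfl)) =
      qExpand Kbar N (jqNModC Kbar N) := by
    rw [compSL_jR N N dvd_rfl _ (out_one_inv_mem N), expInf_jR, Jd_eq_jqNModC]
  unfold rRed
  rw [← redS_jqNModC A N, ← redS_qExpand A N (jqNModC_mem A N)]
  congr 1
  exact Subtype.ext h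

/-- the type of a coset: `gcd(N, c)`, `c` the lower left entry of the conjugating matrix -/
noncomputable def typeX (i : X N) : ℕ := Int.gcd (N : ℤ) (((Quotient.out i)⁻¹ : SL(2, ℤ)) 1 0)

omit [NeZero N] in
theorem typeX_dvd (i : X N) : typeX N i ∣ N := by
  have := Int.gcd_dvd_left (N : ℤ) (((Quotient.out i)⁻¹ : SL(2, ℤ)) 1 0)
  exact Int.natCast_dvd_natCast.mp this

omit [NeZero N] in
theorem typeX_eq_self (i : X N) (h : typeX N i = N) : i = ((1 : SL(2, ℤ)) : X N) := by
  have h1 : ((N : ℤ)) ∣ (((Quotient.out i)⁻¹ : SL(2, ℤ)) 1 0) := by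
    have := Int.gcd_dvd_right (N : ℤ) (((Quotient.out i)⁻¹ : SL(2, ℤ)) 1 0)
    unfold typeX at h
    rwa [h] at this
  have h2 : (Quotient.out i)⁻¹ ∈ CongruenceSubgroup.Gamma0 N := by
    rw [CongruenceSubgroup.Gamma0_mem]
    exact (ZMod.intCast_zmod_eq_zero_iff_dvd _ N).mpr h1
  have h3 : (Quotient.out i) ∈ CongruenceSubgroup.Gamma0 N := by
    simpa using inv_mem h2
  have h4 : ((Quotient.out i : SL(2, ℤ)) : X N) = ((1 : SL(2, ℤ)) : X N) := by
    rw [QuotientGroup.eq]
    simpa using inv_mem h3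
  rw [← h4]
  exact (QuotientGroup.out_eq' i).symm

omit [NeZero N] in
theorem gcd_typeX (i : X N) {m : ℕ} (hm : m ∣ N) :
    Nat.gcd m (typeX N i) = Int.gcd (m : ℤ) (((Quotient.out i)⁻¹ : SL(2, ℤ)) 1 0) := by
  unfold typeX
  simp only [Int.gcd, Int.natAbs_natCast]
  rw [← Nat.gcd_assoc, Nat.gcd_eq_left hm]

theorem uRed_ne_zero {m : ℕ} (hm : m ∣ N) (i : X N) : uRed N hℓ hℓN A hA m i ≠ 0 := by
  have : NeZero m := neZero_of_dvd_core N hm
  rw [uRed_of_dvd N hℓ hℓN A hA hm]
  exact redS_uR_ne_zero N m hm hℓ hℓN A hA _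

theorem order_uRed {m : ℕ} (hm : m ∣ N) (i : X N) :
    (uRed N hℓ hℓN A hA m i).order =
      ((N / m : ℕ) : ℤ) * (((Nat.gcd m (typeX N i) : ℕ) : ℤ) ^ 2 - (m : ℤ)) := by
  have : NeZero m := neZero_of_dvd_core N hm
  rw [uRed_of_dvd N hℓ hℓN A hA hm, order_redS_uR N m hm hℓ hℓN A hA, gcd_typeX N i hm]

open scoped Classical in
/-- the package of reduced norm polynomials (83-P7) in the form consumed by the assembly -/
def NormPolysRed [Fintype (FF.X N)] : Prop :=
  (∃ Φ : Polynomial (Polynomial (IsLocalRing.ResidueField A)),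
    Φ.map (Key.evJ (qExpand (IsLocalRing.ResidueField A) N (jqModC (IsLocalRing.ResidueField A)))) =
      ∏ i : FF.X N, (Polynomial.X - Polynomial.C (rRed N A i))) ∧
  ∀ m, m ∣ N → ∃ M M' G : Polynomial (Polynomial (IsLocalRing.ResidueField A)),
    M.map (Key.evJ (qExpand (IsLocalRing.ResidueField A) N (jqModC (IsLocalRing.ResidueField A)))) =
      ∏ i : FF.X N, (Polynomial.X - Polynomial.C (uRed N hℓ hℓN A hA m i)) ∧
    M'.map (Key.evJ (qExpand (IsLocalRing.ResidueField A) N (jqModC (IsLocalRing.ResidueField A)))) =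
      ∏ i : FF.X N, (Polynomial.X - Polynomial.C (uRed N hℓ hℓN A hA m i)⁻¹) ∧
    G.map (Key.evJ (qExpand (IsLocalRing.ResidueField A) N (jqModC (IsLocalRing.ResidueField A)))) =
      ∑ i : FF.X N, Polynomial.C (uRed N hℓ hℓN A hA m i) *
        ∏ i' ∈ Finset.univ.erase i, (Polynomial.X - Polynomial.C (rRed N A i'))

open scoped Classical in
/-- **CORE over the residue field**, from the reduced norm polynomials -/
theorem coreOverT_of_normPolysRed [Fintype (FF.X N)] (h : NormPolysRed N hℓ hℓN A hA) :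
    CoreOverT (IsLocalRing.ResidueField A) N := by
  obtain ⟨⟨Φ, hΦ⟩, hU⟩ := h
  have hU' : ∀ m, ∃ M M' G : Polynomial (Polynomial (IsLocalRing.ResidueField A)), m ∣ N →
      (M.map (Key.evJ (qExpand (IsLocalRing.ResidueField A) N
          (jqModC (IsLocalRing.ResidueField A)))) =
        ∏ i : FF.X N, (Polynomial.X - Polynomial.C (uRed N hℓ hℓN A hA m i)) ∧
      M'.map (Key.evJ (qExpand (IsLocalRing.ResidueField A) N
          (jqModC (IsLocalRing.ResidueField A)))) =
        ∏ i : FF.X N, (Polynomial.X - Polynomial.C (uRed N hℓ hℓN A hA m i)⁻¹) ∧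
      G.map (Key.evJ (qExpand (IsLocalRing.ResidueField A) N
          (jqModC (IsLocalRing.ResidueField A)))) =
        ∑ i : FF.X N, Polynomial.C (uRed N hℓ hℓN A hA m i) *
          ∏ i' ∈ Finset.univ.erase i, (Polynomial.X - Polynomial.C (rRed N A i'))) := by
    intro m
    by_cases hm : m ∣ N
    · obtain ⟨M, M', G, h⟩ := hU m hm
      exact ⟨M, M', G, fun _ => h⟩
    · exact ⟨0, 0, 0, fun h => absurd h hm⟩
  choose M M' G hMG using hU'
  intro P hdeg hP
  have hcard : Fintype.card (FF.X N) = dedekindPsi N := by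
    rw [← Nat.card_eq_fintype_card]
    exact card_X_eq N
  have hN : 0 < N := Nat.pos_of_ne_zero (NeZero.ne N)
  refine Key.core_abstract (order_jbarT N _) hN (rRed N A) (rRed_injective N hℓ hℓN A hA) Φ hΦ
    (typeX N) (typeX_dvd N) ((1 : SL(2, ℤ)) : FF.X N) (typeX_eq_self N)
    (uRed N hℓ hℓN A hA) (fun m => ((N / m : ℕ) : ℤ)) ?_
    (fun m hm i => order_uRed N hℓ hℓN A hA hm i)
    (fun m hm i => uRed_ne_zero N hℓ hℓN A hA hm i)
    M M' G (fun m hm => (hMG m hm).1) (fun m hm => (hMG m hm).2.1) (fun m hm => (hMG m hm).2.2)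
    P (by rw [hcard]; exact hdeg) ?_
  · intro m hm
    have hm0 : 0 < m := Nat.pos_of_dvd_of_pos hm hN
    have : 0 < N / m := Nat.div_pos (Nat.le_of_dvd hN hm) hm0
    exact_mod_cast this.ne'
  · rw [rRed_one]
    exact hP

end CoreMain

/-- **CORE** from the reduced norm polynomials (83-P7) -/
theorem core_of_normPolysRed (ℓ N : ℕ) [Fact ℓ.Prime] [NeZero N] (hℓN : ¬ ℓ ∣ N)
    (h : ∀ (A : ValuationSubring Kbar) (hA : A.LiesOverPrime ℓ) (inst : Fintype (FF.X N)),
      @NormPolysRed N _ ℓ (Fact.out : ℓ.Prime) hℓN A hA inst) :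
    CoreStatement ℓ N := by
  have hℓ : ℓ.Prime := Fact.out
  obtain ⟨A, hA⟩ := Fermat.Agent.FrobLib.exists_liesOverPrime ℓ hℓ
  have : CharP (IsLocalRing.ResidueField A) ℓ := charP_residueField A hℓ hA
  let inst : Fintype (FF.X N) := Fintype.ofFinite _
  exact core_of_coreOverT ℓ N (IsLocalRing.ResidueField A)
    (coreOverT_of_normPolysRed N hℓ hℓN A hA (h A hA inst))

end Fermat.Agent.S28
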