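import Fermat.Agent.FF.JqExpansion
import Fermat.Agent.FF.ModExp2

/-!
# S28 (Igusa), piece P6a: the `q`-expansions of `Δ` and of `1/Δ`

`DeltaSer R = q · ∏ (1 - qⁿ)²⁴` and `DeltaInvSer R = q⁻¹ · ∏ (1 - qⁿ)⁻²⁴` as formal Laurent series
with integer coefficients (mapped to `R`), and the statements that they are the convergent
expansions of the analytic functions `Δ` and `1/Δ` on the upper half plane.
-/

set_option autoImplicit false

open UpperHalfPlane hiding I
open ModularForm EisensteinSeries Filter Topology Complex Function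
open scoped MatrixGroups Manifold Modular Real PowerSeries.WithPiTopology

namespace Fermat.Agent.S28

open Fermat.Agent.FF

local notation "Δ" => ModularForm.discriminant
local notation "𝕢" => Periodic.qParam

section formal

variable (R : Type*) [CommRing R]

/-- the formal `q`-expansion of `Δ`: `q ∏ (1 - qⁿ)²⁴` -/
noncomputable def DeltaSer : LaurentSeries R :=
  HahnSeries.single (1 : ℤ) (1 : R) *
    HahnSeries.ofPowerSeries ℤ R (ModularCurve.dedekindEtaUnit.map (Int.castRingHom R))

/-- the formal `q`-expansion of `1/Δ`: `q⁻¹ ∏ (1 - qⁿ)⁻²⁴` -/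
noncomputable def DeltaInvSer : LaurentSeries R :=
  HahnSeries.single (-1 : ℤ) (1 : R) *
    HahnSeries.ofPowerSeries ℤ R (ModularCurve.dedekindEtaUnitInv.map (Int.castRingHom R))

theorem DeltaSer_mul_DeltaInvSer : DeltaSer R * DeltaInvSer R = 1 := by
  rw [DeltaSer, DeltaInvSer]
  have h1 : HahnSeries.ofPowerSeries ℤ R (ModularCurve.dedekindEtaUnit.map (Int.castRingHom R)) *
      HahnSeries.ofPowerSeries ℤ R (ModularCurve.dedekindEtaUnitInv.map (Int.castRingHom R)) = 1 := by
    rw [← map_mul, ← map_mul, ModularCurve.dedekindEtaUnit_mul_inv, map_one, map_one]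
  have h2 : HahnSeries.single (1 : ℤ) (1 : R) * HahnSeries.single (-1 : ℤ) (1 : R) = 1 := by
    rw [HahnSeries.single_mul_single]
    simp
  calc _ = (HahnSeries.single (1 : ℤ) (1 : R) * HahnSeries.single (-1 : ℤ) (1 : R)) *
        (HahnSeries.ofPowerSeries ℤ R (ModularCurve.dedekindEtaUnit.map (Int.castRingHom R)) *
      HahnSeries.ofPowerSeries ℤ R (ModularCurve.dedekindEtaUnitInv.map (Int.castRingHom R))) := by
        ring
    _ = 1 := by rw [h1, h2, one_mul]

/-- coefficients of `q^k · P(q)` -/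
theorem coeff_single_mul_ofPowerSeries (k : ℤ) (P : PowerSeries R) (n : ℤ) :
    (HahnSeries.single k (1 : R) * HahnSeries.ofPowerSeries ℤ R P).coeff n =
      if 0 ≤ n - k then P.coeff (n - k).toNat else 0 := by
  rw [HahnSeries.coeff_single_mul, one_mul]
  split_ifs with h
  · obtain ⟨m, hm⟩ := Int.eq_ofNat_of_zero_le h
    rw [hm, HahnSeries.ofPowerSeries_apply_coeff, Int.toNat_natCast]
  · exact ModularCurve.ofPowerSeries_coeff_of_neg _ (by omega)

theorem coeff_DeltaSer (n : ℤ) :
    (DeltaSer R).coeff n =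
      if 0 ≤ n - 1 then ((ModularCurve.dedekindEtaUnit.coeff (n - 1).toNat : ℤ) : R) else 0 := by
  rw [DeltaSer, coeff_single_mul_ofPowerSeries]
  split_ifs <;> simp

theorem coeff_DeltaInvSer (n : ℤ) :
    (DeltaInvSer R).coeff n =
      if 0 ≤ n + 1 then ((ModularCurve.dedekindEtaUnitInv.coeff (n + 1).toNat : ℤ) : R) else 0 := by
  rw [DeltaInvSer, coeff_single_mul_ofPowerSeries]
  rw [sub_neg_eq_add]
  split_ifs <;> simp

theorem coeff_DeltaSer_one : (DeltaSer R).coeff 1 = 1 := by
  rw [coeff_DeltaSer, if_pos (by norm_num)]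
  have : ((1 : ℤ) - 1).toNat = 0 := by norm_num
  rw [this, PowerSeries.coeff_zero_eq_constantCoeff_apply, ModularCurve.constantCoeff_dedekindEtaUnit]
  simp

theorem coeff_DeltaSer_of_lt {n : ℤ} (hn : n < 1) : (DeltaSer R).coeff n = 0 := by
  rw [coeff_DeltaSer, if_neg (by omega)]

theorem coeff_DeltaInvSer_neg_one : (DeltaInvSer R).coeff (-1) = 1 := by
  rw [coeff_DeltaInvSer, if_pos (by norm_num)]
  have : ((-1 : ℤ) + 1).toNat = 0 := by norm_num
  rw [this, PowerSeries.coeff_zero_eq_constantCoeff_apply,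
    ModularCurve.constantCoeff_dedekindEtaUnitInv]
  simp

theorem coeff_DeltaInvSer_of_lt {n : ℤ} (hn : n < -1) : (DeltaInvSer R).coeff n = 0 := by
  rw [coeff_DeltaInvSer, if_neg (by omega)]

/-- the coefficients of `DeltaSer` are integers -/
theorem coeff_DeltaSer_mem (A : Subring R) (n : ℤ) : (DeltaSer R).coeff n ∈ A := by
  rw [coeff_DeltaSer]
  split_ifs
  · exact intCast_mem A _
  · exact zero_mem A

/-- the coefficients of `DeltaInvSer` are integers -/
theorem coeff_DeltaInvSer_mem (A : Subring R) (n : ℤ) : (DeltaInvSer R).coeff n ∈ A := by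
  rw [coeff_DeltaInvSer]
  split_ifs
  · exact intCast_mem A _
  · exact zero_mem A

theorem coeffMap_DeltaSer {S : Type*} [CommRing S] (f : R →+* S) :
    ModularCurve.coeffMap f (DeltaSer R) = DeltaSer S := by
  ext n
  rw [ModularCurve.coeffMap_coeff, coeff_DeltaSer, coeff_DeltaSer]
  split_ifs <;> simp

theorem coeffMap_DeltaInvSer {S : Type*} [CommRing S] (f : R →+* S) :
    ModularCurve.coeffMap f (DeltaInvSer R) = DeltaInvSer S := by
  ext n
  rw [ModularCurve.coeffMap_coeff, coeff_DeltaInvSer, coeff_DeltaInvSer]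
  split_ifs <;> simp

end formal

/-- a function `q^k f(q)` with `f` holomorphic on the unit disc has the expansion
`q^k · (Taylor series of f)` -/
theorem isExp_of_taylorPS {f : ℂ → ℂ} (hf : DifferentiableOn ℂ f (Metric.ball 0 1))
    (P : PowerSeries ℂ) (hP : taylorPS f = P) (k : ℤ) :
    IsExp 1 (HahnSeries.single k (1 : ℂ) * HahnSeries.ofPowerSeries ℤ ℂ P)
      (fun τ => 𝕢 1 τ ^ k * f (𝕢 1 τ)) := by
  intro τ
  have hu : uPar 1 τ = 𝕢 1 τ := by
    simp [uPar]
  rw [hu]
  have hq : ‖𝕢 1 (τ : ℂ)‖ < 1 := Periodic.norm_qParam_lt_one one_pos τ.im_pos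
  have hq0 : 𝕢 1 (τ : ℂ) ≠ 0 := Periodic.qParam_ne_zero _
  have h1 := (hasSum_taylorPS hf hq).mul_left (𝕢 1 (τ : ℂ) ^ k)
  rw [hP] at h1
  have hinj : Function.Injective (fun m : ℕ => (m : ℤ) + k) := by
    intro a b hab
    simp only at hab
    omega
  rw [← hinj.hasSum_iff]
  · refine h1.congr_fun ?_
    intro m
    simp only [Function.comp_apply]
    rw [coeff_single_mul_ofPowerSeries, if_pos (by omega), zpow_add₀ hq0, zpow_natCast]
    have : ((m : ℤ) + k - k).toNat = m := by omega
    rw [this]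
    ring
  · intro n hn
    have hneg : n - k < 0 := by
      by_contra hcon
      push Not at hcon
      exact hn ⟨(n - k).toNat, by simp; omega⟩
    rw [coeff_single_mul_ofPowerSeries, if_neg (by omega), zero_mul]

theorem discriminant_eq_qParam_mul (τ : ℍ) : Δ τ = 𝕢 1 τ * eulerFun (𝕢 1 τ) ^ 24 := by
  rw [discriminant_eq_q_prod, eulerFun_qParam]

theorem map_dedekindEtaUnit :
    ModularCurve.dedekindEtaUnit.map (Int.castRingHom ℂ) = PowerSeries.pentagonalSeries ℂ ^ 24 := by
  rw [ModularCurve.dedekindEtaUnit, map_pow, etaProd_eq_pentagonalSeries, map_pentagonalSeries]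

theorem differentiableOn_eulerFun_pow :
    DifferentiableOn ℂ (fun q => eulerFun q ^ 24) (Metric.ball 0 1) :=
  differentiableOn_eulerFun.pow 24

theorem taylorPS_eulerFun_pow :
    taylorPS (fun q => eulerFun q ^ 24) = ModularCurve.dedekindEtaUnit.map (Int.castRingHom ℂ) := by
  have hP := analyticAt_of_differentiableOn_ball differentiableOn_eulerFun
  have : (fun q => eulerFun q ^ 24) = eulerFun ^ 24 := rfl
  rw [this, taylorPS_pow hP, taylorPS_eulerFun, map_dedekindEtaUnit]

/-- **P6a** the `q`-expansion of `Δ` -/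
theorem isExp_discriminant : IsExp 1 (DeltaSer ℂ) (fun τ => Δ τ) := by
  have h := isExp_of_taylorPS differentiableOn_eulerFun_pow _ taylorPS_eulerFun_pow 1
  refine h.congr ?_
  intro τ
  rw [discriminant_eq_qParam_mul, zpow_one]

theorem differentiableOn_eulerFun_pow_inv :
    DifferentiableOn ℂ (fun q => (eulerFun q ^ 24)⁻¹) (Metric.ball 0 1) := by
  refine DifferentiableOn.inv differentiableOn_eulerFun_pow ?_
  intro q hq
  exact pow_ne_zero _ (eulerFun_ne_zero (by simpa using hq))

theorem taylorPS_eulerFun_pow_inv :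
    taylorPS (fun q => (eulerFun q ^ 24)⁻¹) =
      ModularCurve.dedekindEtaUnitInv.map (Int.castRingHom ℂ) := by
  have hJ := analyticAt_of_differentiableOn_ball differentiableOn_eulerFun_pow_inv
  have hP := analyticAt_of_differentiableOn_ball differentiableOn_eulerFun_pow
  have h1 : taylorPS ((fun q => (eulerFun q ^ 24)⁻¹) * (fun q => eulerFun q ^ 24)) =
      taylorPS (fun _ => (1 : ℂ)) := by
    apply taylorPS_congr
    filter_upwards [Metric.ball_mem_nhds (0 : ℂ) one_pos] with q hq
    have hne : eulerFun q ^ 24 ≠ 0 := pow_ne_zero _ (eulerFun_ne_zero (by simpa using hq))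
    simp only [Pi.mul_apply]
    exact inv_mul_cancel₀ hne
  have h1' : taylorPS (fun _ : ℂ => (1 : ℂ)) = 1 := by
    have := taylorPS_polynomial (1 : Polynomial ℂ)
    simpa using this
  rw [taylorPS_mul hJ hP, taylorPS_eulerFun_pow, h1'] at h1
  have h2 : (ModularCurve.dedekindEtaUnitInv.map (Int.castRingHom ℂ)) *
      (ModularCurve.dedekindEtaUnit.map (Int.castRingHom ℂ)) = 1 := by
    rw [← map_mul, mul_comm, ModularCurve.dedekindEtaUnit_mul_inv, map_one]
  have hne : ModularCurve.dedekindEtaUnit.map (Int.castRingHom ℂ) ≠ 0 := by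
    intro h0
    rw [h0, mul_zero] at h2
    exact zero_ne_one h2
  exact mul_right_cancel₀ hne (h1.trans h2.symm)

/-- **P6a** the `q`-expansion of `1/Δ` -/
theorem isExp_discriminant_inv : IsExp 1 (DeltaInvSer ℂ) (fun τ => (Δ τ)⁻¹) := by
  have h := isExp_of_taylorPS differentiableOn_eulerFun_pow_inv _ taylorPS_eulerFun_pow_inv (-1)
  refine h.congr ?_
  intro τ
  rw [discriminant_eq_qParam_mul, mul_inv, zpow_neg_one]

end Fermat.Agent.S28
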