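import Mathlib
import Fermat.Prelude.Def_ModularCurve_IgusaScheme

set_option autoImplicit false
set_option linter.style.haveILetI false
open AlgebraicGeometry CategoryTheory CategoryTheory.Limits ModularCurve ModularCurve.IgusaScheme
open TensorProduct

noncomputable section

namespace Fermat.Agent.S28

universe u

/-- A scheme with an open cover by integral schemes, indexed by a type with a distinguished
index `o` whose chart maps into every other chart, is integral. -/
theorem isIntegral_of_cover_of_common {X : Scheme.{u}} (𝒰 : X.OpenCover)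
    [∀ i, IsIntegral (𝒰.X i)] (o : 𝒰.I₀)
    (hfac : ∀ i, ∃ t : 𝒰.X o ⟶ 𝒰.X i, t ≫ 𝒰.f i = 𝒰.f o) : IsIntegral X := by
  haveI : IsReduced X := IsReduced.of_openCover X 𝒰
  obtain ⟨x₀⟩ : Nonempty (𝒰.X o) := inferInstance
  have hx₀ : ∀ i, 𝒰.f o x₀ ∈ (𝒰.f i).opensRange := by
    intro i
    obtain ⟨t, ht⟩ := hfac i
    refine ⟨t x₀, ?_⟩
    rw [← Scheme.Hom.comp_apply, ht]
  haveI : Nonempty X := ⟨𝒰.f o x₀⟩
  haveI : PreirreducibleSpace X := by
    refine PreirreducibleSpace.of_isOpenCover (U := fun i => (𝒰.f i).opensRange) ?_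
      𝒰.isOpenCover_opensRange ?_
    · intro i j _ hd
      have h : 𝒰.f o x₀ ∈ (𝒰.f i).opensRange ⊓ (𝒰.f j).opensRange := ⟨hx₀ i, hx₀ j⟩
      exact hd.le_bot h
    · intro i
      have h1 : IsPreirreducible (Set.univ : Set (𝒰.X i)) :=
        PreirreducibleSpace.isPreirreducible_univ
      have h2 : IsPreirreducible ((𝒰.f i) '' (Set.univ : Set (𝒰.X i))) :=
        h1.image _ (𝒰.f i).continuous.continuousOn
      rw [Set.image_univ] at h2
      exact Subtype.preirreducibleSpace h2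
  haveI : IrreducibleSpace X :=
    { toPreirreducibleSpace := inferInstance, toNonempty := inferInstance }
  exact isIntegral_of_irreducibleSpace_of_isReduced X

end Fermat.Agent.S28

namespace Fermat.Agent.S28

variable (N : ℕ) [NeZero N] (ℓ : ℕ) [Fact ℓ.Prime]

set_option quotPrecheck false in
local notation "ℤℓ" => ↥(GaloisRep.ratLocalizedAt ℓ)

/-- The three-chart open cover of the Igusa scheme (Mid, Fin, Inf). -/
def igusaOpenCover : (ModularCurve.IgusaScheme N ℓ).OpenCover :=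
  Scheme.IsLocallyDirected.openCover (span (fFin N ℓ) (fInf N ℓ))

theorem igusaOpenCover_f_left :
    (igusaOpenCover N ℓ).f WalkingSpan.left = ιFin N ℓ := rfl

theorem igusaOpenCover_f_right :
    (igusaOpenCover N ℓ).f WalkingSpan.right = ιInf N ℓ := rfl

theorem igusaOpenCover_f_zero :
    (igusaOpenCover N ℓ).f WalkingSpan.zero = fFin N ℓ ≫ ιFin N ℓ :=
  (colimit.w (span (fFin N ℓ) (fInf N ℓ)) WalkingSpan.Hom.fst).symm

theorem igusaOpenCover_f_zero' :
    (igusaOpenCover N ℓ).f WalkingSpan.zero = fInf N ℓ ≫ ιInf N ℓ :=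
  (colimit.w (span (fFin N ℓ) (fInf N ℓ)) WalkingSpan.Hom.snd).symm

end Fermat.Agent.S28

namespace Fermat.Agent.S28

variable (N : ℕ) [NeZero N] (ℓ : ℕ) [Fact ℓ.Prime]

set_option quotPrecheck false in
local notation "ℤℓ" => ↥(GaloisRep.ratLocalizedAt ℓ)

/-- The fibre product of two affine schemes over an affine base is integral as soon as the
tensor product of the rings is a domain. -/
theorem isIntegral_pullback_Spec_of_isDomain (R S T : Type) [CommRing R] [CommRing S]
    [CommRing T] [Algebra R S] [Algebra R T] [IsDomain (S ⊗[R] T)] :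
    IsIntegral (pullback (Spec.map (CommRingCat.ofHom (algebraMap R S)))
      (Spec.map (CommRingCat.ofHom (algebraMap R T)))) := by
  haveI : IsIntegral (Spec (CommRingCat.of (S ⊗[R] T))) := inferInstance
  haveI : Nonempty ↥(pullback (Spec.map (CommRingCat.ofHom (algebraMap R S)))
      (Spec.map (CommRingCat.ofHom (algebraMap R T)))) := by
    obtain ⟨x⟩ : Nonempty (Spec (CommRingCat.of (S ⊗[R] T))) := inferInstance
    exact ⟨(pullbackSpecIso R S T).inv x⟩
  exact isIntegral_of_isOpenImmersion (pullbackSpecIso R S T).hom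

theorem igusaOpenCover_f_left_igusaTo :
    (igusaOpenCover N ℓ).f WalkingSpan.left ≫ igusaTo N ℓ =
      Spec.map (CommRingCat.ofHom (algebraMap ℤℓ (chartAlgFin N ℓ))) :=
  ιFin_igusaTo N ℓ

theorem igusaOpenCover_f_right_igusaTo :
    (igusaOpenCover N ℓ).f WalkingSpan.right ≫ igusaTo N ℓ =
      Spec.map (CommRingCat.ofHom (algebraMap ℤℓ (chartAlgInf N ℓ))) :=
  ιInf_igusaTo N ℓ

theorem fFin_ιFin_igusaTo :
    (fFin N ℓ ≫ ιFin N ℓ) ≫ igusaTo N ℓ =
      Spec.map (CommRingCat.ofHom (algebraMap ℤℓ (chartAlgMid N ℓ))) := by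
  rw [Category.assoc, ιFin_igusaTo]
  have h : (inclFin N ℓ).toRingHom.comp (algebraMap ℤℓ (chartAlgFin N ℓ)) =
      algebraMap ℤℓ (chartAlgMid N ℓ) :=
    RingHom.ext fun a => (inclFin N ℓ).commutes a
  simp only [← Spec.map_comp, ← CommRingCat.ofHom_comp, h]

theorem igusaOpenCover_f_zero_igusaTo :
    (igusaOpenCover N ℓ).f WalkingSpan.zero ≫ igusaTo N ℓ =
      Spec.map (CommRingCat.ofHom (algebraMap ℤℓ (chartAlgMid N ℓ))) :=
  (congrArg (fun t => t ≫ igusaTo N ℓ) (igusaOpenCover_f_zero N ℓ)).trans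
    (fFin_ιFin_igusaTo N ℓ)

theorem isIntegral_pullback_of_eq {X Y Z : Scheme.{0}} {f f' : X ⟶ Z} (g : Y ⟶ Z) (h : f = f')
    (hi : IsIntegral (pullback f' g)) : IsIntegral (pullback f g) := by
  subst h; exact hi

theorem exists_pullback_map_comp {X₁ X₂ X Y Z : Scheme.{0}} (a : X₁ ⟶ X₂) (f₁ : X₁ ⟶ X)
    (f₂ : X₂ ⟶ X) (h : f₁ = a ≫ f₂) (f : X ⟶ Z) (g : Y ⟶ Z) :
    ∃ t : pullback (f₁ ≫ f) g ⟶ pullback (f₂ ≫ f) g,
      t ≫ pullback.map (f₂ ≫ f) g f g f₂ (𝟙 Y) (𝟙 Z) (by simp) (by simp) =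
        pullback.map (f₁ ≫ f) g f g f₁ (𝟙 Y) (𝟙 Z) (by simp) (by simp) := by
  subst h
  refine ⟨pullback.map _ _ _ _ a (𝟙 _) (𝟙 _) (by simp) (by simp), ?_⟩
  apply pullback.hom_ext
  · simp only [Category.assoc, pullback.lift_fst, pullback.lift_fst_assoc]
  · simp only [Category.assoc, pullback.lift_snd, Category.comp_id]

/-- **83-P4 (scheme glue)**: the base change of the Igusa scheme to `K` is integral as soon as
the three chart algebras tensored with `K` are domains. -/
theorem igusa_isIntegral_of_charts (K : Type) [Field K] [Algebra ℤℓ K]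
    (hFin : IsDomain (chartAlgFin N ℓ ⊗[ℤℓ] K)) (hInf : IsDomain (chartAlgInf N ℓ ⊗[ℤℓ] K))
    (hMid : IsDomain (chartAlgMid N ℓ ⊗[ℤℓ] K)) :
    IsIntegral ↑(pullback (igusaTo N ℓ) (Spec.map (CommRingCat.ofHom (algebraMap ℤℓ K)))) := by
  let g := Spec.map (CommRingCat.ofHom (algebraMap ℤℓ K))
  let 𝒱 := Scheme.Pullback.openCoverOfLeft (igusaOpenCover N ℓ) (igusaTo N ℓ) g
  haveI hint : ∀ i, IsIntegral (𝒱.X i) := by
    intro i
    rcases i with (_ | _ | _)
    · exact isIntegral_pullback_of_eq g (igusaOpenCover_f_zero_igusaTo N ℓ)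
        (isIntegral_pullback_Spec_of_isDomain ℤℓ (chartAlgMid N ℓ) K)
    · exact isIntegral_pullback_of_eq g (igusaOpenCover_f_left_igusaTo N ℓ)
        (isIntegral_pullback_Spec_of_isDomain ℤℓ (chartAlgFin N ℓ) K)
    · exact isIntegral_pullback_of_eq g (igusaOpenCover_f_right_igusaTo N ℓ)
        (isIntegral_pullback_Spec_of_isDomain ℤℓ (chartAlgInf N ℓ) K)
  refine isIntegral_of_cover_of_common 𝒱 WalkingSpan.zero ?_
  intro i
  rcases i with (_ | _ | _)
  · exact ⟨𝟙 _, Category.id_comp _⟩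
  · exact exists_pullback_map_comp (fFin N ℓ) _ _ (igusaOpenCover_f_zero N ℓ) (igusaTo N ℓ) g
  · exact exists_pullback_map_comp (fInf N ℓ) _ _ (igusaOpenCover_f_zero' N ℓ) (igusaTo N ℓ) g

end Fermat.Agent.S28
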