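import Fermat.Agent.FF.ModJA

/-!
# S28 (Igusa), piece P6b-1: Hermite normal form of `diag(m, 1) · γ` with all matrix relations

For `γ ∈ SL(2,ℤ)` and `m > 0`: `diag(m,1) γ = δ · [[a, b], [0, d']]` with `a d' = m`,
`a = gcd(m, γ₁₀)`, and the cocycle relation `γ₁₀ τ + γ₁₁ = d' (δ₁₀ w + δ₁₁)`, `w = (a τ + b)/d'`.
-/

set_option autoImplicit false

open UpperHalfPlane hiding I
open Complex Function
open scoped MatrixGroups Manifold Modular Real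

namespace Fermat.Agent.S28

open Fermat.Agent.FF

/-- Hermite normal form of `diag(m, 1) · γ`: the four matrix relations and the action on `ℍ`. -/
theorem exists_hnf_scale_full (m : ℕ) (hm : 0 < m) (γ : SL(2, ℤ)) :
    ∃ (δ : SL(2, ℤ)) (a d' : ℕ) (b : ℤ) (ha : 0 < a) (hd' : 0 < d'), a * d' = m ∧
      (m : ℤ) * γ 0 0 = δ 0 0 * a ∧
      (m : ℤ) * γ 0 1 = δ 0 0 * b + δ 0 1 * d' ∧
      γ 1 0 = δ 1 0 * a ∧
      γ 1 1 = δ 1 0 * b + δ 1 1 * d' ∧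
      ∀ (τ ψτ : ℍ), (ψτ : ℂ) = m * ((γ • τ : ℍ) : ℂ) → ψτ = δ • affineMap a d' b ha hd' τ := by
  have hdet : (!![(m : ℤ) * γ 0 0, (m : ℤ) * γ 0 1; γ 1 0, γ 1 1] : Matrix (Fin 2) (Fin 2) ℤ).det
      = m := by
    rw [Matrix.det_fin_two_of]
    have := γ.det_coe
    rw [Matrix.det_fin_two] at this
    linear_combination (m : ℤ) * this
  obtain ⟨δ, a, b, d', ha, hd', had, hA⟩ := exists_hnf
    (!![(m : ℤ) * γ 0 0, (m : ℤ) * γ 0 1; γ 1 0, γ 1 1]) (by rw [hdet]; exact_mod_cast hm)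
  rw [hdet] at had
  have e00 := congr_fun (congr_fun hA 0) 0
  have e01 := congr_fun (congr_fun hA 0) 1
  have e10 := congr_fun (congr_fun hA 1) 0
  have e11 := congr_fun (congr_fun hA 1) 1
  simp [Matrix.mul_apply, Fin.sum_univ_two] at e00 e01 e10 e11
  lift a to ℕ using ha.le
  lift d' to ℕ using hd'.le
  have ha' : 0 < a := by exact_mod_cast ha
  have hd'' : 0 < d' := by exact_mod_cast hd'
  refine ⟨δ, a, d', b, ha', hd'', by exact_mod_cast had, e00, e01, e10, e11, ?_⟩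
  intro τ ψτ hψ
  apply UpperHalfPlane.ext
  rw [hψ, UpperHalfPlane.coe_specialLinearGroup_apply, UpperHalfPlane.coe_specialLinearGroup_apply,
    coe_affineMap]
  have hden1 : ((algebraMap ℤ ℝ (γ 1 0) : ℝ) : ℂ) * τ + ((algebraMap ℤ ℝ (γ 1 1) : ℝ) : ℂ) ≠ 0 := by
    have := UpperHalfPlane.denom_ne_zero (Matrix.SpecialLinearGroup.mapGL ℝ γ) τ
    simpa [UpperHalfPlane.denom] using this
  have hden2 : ((algebraMap ℤ ℝ (δ 1 0) : ℝ) : ℂ) * (((a : ℂ) * τ + b) / d')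
      + ((algebraMap ℤ ℝ (δ 1 1) : ℝ) : ℂ) ≠ 0 := by
    have := UpperHalfPlane.denom_ne_zero (Matrix.SpecialLinearGroup.mapGL ℝ δ)
      (affineMap a d' b ha' hd'' τ)
    simpa [UpperHalfPlane.denom, coe_affineMap] using this
  have hd'0 : (d' : ℂ) ≠ 0 := by exact_mod_cast hd''.ne'
  have c00 : (m : ℂ) * (γ 0 0 : ℂ) = (δ 0 0 : ℂ) * a := by exact_mod_cast e00
  have c01 : (m : ℂ) * (γ 0 1 : ℂ) = (δ 0 0 : ℂ) * b + (δ 0 1 : ℂ) * d' := by exact_mod_cast e01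
  have c10 : (γ 1 0 : ℂ) = (δ 1 0 : ℂ) * a := by exact_mod_cast e10
  have c11 : (γ 1 1 : ℂ) = (δ 1 0 : ℂ) * b + (δ 1 1 : ℂ) * d' := by exact_mod_cast e11
  simp only [algebraMap_int_eq, Int.coe_castRingHom, Complex.ofReal_intCast] at hden1 hden2 ⊢
  have hden2' : (δ 1 0 : ℂ) * ((a : ℂ) * τ + b) + (δ 1 1 : ℂ) * d' ≠ 0 := by
    intro h0
    apply hden2
    have : (δ 1 0 : ℂ) * (((a : ℂ) * τ + b) / d') + (δ 1 1 : ℂ)
        = ((δ 1 0 : ℂ) * ((a : ℂ) * τ + b) + (δ 1 1 : ℂ) * d') / d' := by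
      field_simp
    rw [this, h0, zero_div]
  rw [mul_div_assoc', div_eq_div_iff hden1 hden2]
  field_simp
  rw [c10, c11]
  linear_combination ((δ 1 0 : ℂ) * ((a : ℂ) * τ + b) + (δ 1 1 : ℂ) * d') * (τ * c00 + c01)

/-- in the Hermite normal form, `a = gcd(m, γ₁₀)` -/
theorem hnf_gcd {m a d' : ℕ} {γ δ : SL(2, ℤ)} (ha : 0 < a) (had : a * d' = m)
    (e00 : (m : ℤ) * γ 0 0 = δ 0 0 * a) (e10 : γ 1 0 = δ 1 0 * a) :
    Int.gcd (m : ℤ) (γ 1 0) = a := by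
  -- δ₀₀ = d' γ₀₀
  have h00 : δ 0 0 = d' * γ 0 0 := by
    have ha0 : (a : ℤ) ≠ 0 := by exact_mod_cast ha.ne'
    have : (a : ℤ) * (d' * γ 0 0) = a * δ 0 0 := by
      have hm : (m : ℤ) = a * d' := by exact_mod_cast had.symm
      rw [hm] at e00
      linear_combination e00
    exact (mul_left_cancel₀ ha0 this).symm
  have hdet := δ.det_coe
  rw [Matrix.det_fin_two] at hdet
  have hcop : IsCoprime (d' : ℤ) (δ 1 0) := by
    refine ⟨γ 0 0 * δ 1 1, -δ 0 1, ?_⟩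
    rw [h00] at hdet
    linear_combination hdet
  have hm : (m : ℤ) = a * d' := by exact_mod_cast had.symm
  rw [hm, e10, mul_comm (δ 1 0) (a : ℤ), Int.gcd_mul_left, Int.isCoprime_iff_gcd_eq_one.mp hcop]
  simp

/-- the cocycle relation of the Hermite normal form -/
theorem hnf_denom {a d' : ℕ} {b : ℤ} {γ δ : SL(2, ℤ)} (ha : 0 < a) (hd' : 0 < d')
    (e10 : γ 1 0 = δ 1 0 * a) (e11 : γ 1 1 = δ 1 0 * b + δ 1 1 * d') (τ : ℍ) :
    denom (Matrix.SpecialLinearGroup.mapGL ℝ γ) τ =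
      (d' : ℂ) * denom (Matrix.SpecialLinearGroup.mapGL ℝ δ) (affineMap a d' b ha hd' τ) := by
  have hd'0 : (d' : ℂ) ≠ 0 := by exact_mod_cast hd'.ne'
  have c10 : (γ 1 0 : ℂ) = (δ 1 0 : ℂ) * a := by exact_mod_cast e10
  have c11 : (γ 1 1 : ℂ) = (δ 1 0 : ℂ) * b + (δ 1 1 : ℂ) * d' := by exact_mod_cast e11
  simp only [UpperHalfPlane.denom, coe_affineMap]
  simp
  rw [c10, c11]
  field_simp
  ring

end Fermat.Agent.S28
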