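import Fermat.Agent.S28.UnitSer
import Fermat.Agent.S28.UnitHNF
import Fermat.Agent.FF.ModReal

/-!
# S28 (Igusa), piece P6b-3: the modular units `u_m(τ) = Δ(mτ)/Δ(τ)` and their conjugates

* `uFun m τ = Δ(mτ)/Δ(τ)`, holomorphic and nowhere zero on `ℍ`;
* `uFun_smul_hnf`: `u_m(γτ) = d'⁻¹² Δ((aτ+b)/d')/Δ(τ)` for the Hermite normal form of `diag(m,1)γ`;
* `isExp_uFun_hnf`, `isExp_uFun_inv_hnf`: the convergent expansions of the conjugates.
-/

set_option autoImplicit false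

open UpperHalfPlane hiding I
open ModularForm EisensteinSeries Filter Topology Complex Function
open scoped MatrixGroups Manifold Modular Real

namespace Fermat.Agent.S28

open Fermat.Agent.FF

local notation "Δ" => ModularForm.discriminant

theorem discriminant_smul (γ : SL(2, ℤ)) (τ : ℍ) :
    Δ (γ • τ) = denom (Matrix.SpecialLinearGroup.mapGL ℝ γ) τ ^ (12 : ℤ) * Δ τ := by
  have hγ : (Matrix.SpecialLinearGroup.mapGL ℝ γ) ∈ 𝒮ℒ := ⟨γ, rfl⟩
  exact SlashInvariantForm.slash_action_eqn'' CuspForm.discriminant hγ τ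

/-- the modular unit `Δ(mτ)/Δ(τ)` -/
noncomputable def uFun (m : ℕ) [NeZero m] (τ : ℍ) : ℂ := Δ (scaleH m τ) / Δ τ

theorem uFun_def (m : ℕ) [NeZero m] (τ : ℍ) : uFun m τ = Δ (scaleH m τ) / Δ τ := rfl

theorem uFun_ne_zero (m : ℕ) [NeZero m] (τ : ℍ) : uFun m τ ≠ 0 :=
  div_ne_zero (discriminant_ne_zero _) (discriminant_ne_zero _)

theorem mdiff_discriminant_scale (m : ℕ) [NeZero m] : MDiff (fun τ => Δ (scaleH m τ)) :=
  mdiff_comp_of_coe mdiff_discriminant (scaleH m) (fun z => m * z) (by fun_prop) (fun _ => rfl)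

theorem mdiff_uFun (m : ℕ) [NeZero m] : MDiff (uFun m) := by
  have h1 := UpperHalfPlane.mdifferentiable_iff.mp (mdiff_discriminant_scale m)
  have h2 := UpperHalfPlane.mdifferentiable_iff.mp mdiff_discriminant
  rw [UpperHalfPlane.mdifferentiable_iff]
  have : (uFun m ∘ ofComplex) = fun z => ((fun τ => Δ (scaleH m τ)) ∘ ofComplex) z /
      ((Δ : ℍ → ℂ) ∘ ofComplex) z := rfl
  rw [this]
  exact h1.div h2 (fun z _ => discriminant_ne_zero _)

theorem mdiff_uFun_inv (m : ℕ) [NeZero m] : MDiff (fun τ => (uFun m τ)⁻¹) := by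
  have h1 := UpperHalfPlane.mdifferentiable_iff.mp (mdiff_discriminant_scale m)
  have h2 := UpperHalfPlane.mdifferentiable_iff.mp mdiff_discriminant
  rw [UpperHalfPlane.mdifferentiable_iff]
  have : ((fun τ => (uFun m τ)⁻¹) ∘ ofComplex) = fun z => ((Δ : ℍ → ℂ) ∘ ofComplex) z /
      ((fun τ => Δ (scaleH m τ)) ∘ ofComplex) z := by
    funext z
    simp only [Function.comp_apply, uFun, inv_div]
  rw [this]
  exact h2.div h1 (fun z _ => discriminant_ne_zero _)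

/-- the conjugates of the unit, via the Hermite normal form of `diag(m,1) γ` -/
theorem uFun_smul_hnf (m : ℕ) [NeZero m] (γ δ : SL(2, ℤ)) (a d' : ℕ) (b : ℤ) (ha : 0 < a)
    (hd' : 0 < d') (e10 : γ 1 0 = δ 1 0 * a) (e11 : γ 1 1 = δ 1 0 * b + δ 1 1 * d')
    (hact : ∀ (τ ψτ : ℍ), (ψτ : ℂ) = m * ((γ • τ : ℍ) : ℂ) →
      ψτ = δ • affineMap a d' b ha hd' τ) (τ : ℍ) :
    uFun m (γ • τ) = ((d' : ℂ)⁻¹) ^ 12 * (Δ (affineMap a d' b ha hd' τ) * (Δ τ)⁻¹) := by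
  have h1 : scaleH m (γ • τ) = δ • affineMap a d' b ha hd' τ := hact τ _ (by simp)
  have hd'0 : (d' : ℂ) ≠ 0 := by exact_mod_cast hd'.ne'
  have hD : denom (Matrix.SpecialLinearGroup.mapGL ℝ δ) (affineMap a d' b ha hd' τ) ≠ 0 :=
    denom_ne_zero _ _
  have hΔ : Δ τ ≠ 0 := discriminant_ne_zero τ
  rw [uFun, h1, discriminant_smul δ, discriminant_smul γ, hnf_denom ha hd' e10 e11 τ, mul_zpow]
  have e12 : ∀ z : ℂ, z ^ (12 : ℤ) = z ^ 12 := fun z => by
    rw [show (12 : ℤ) = ((12 : ℕ) : ℤ) from rfl, zpow_natCast]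
  rw [e12, e12]
  field_simp

/-- the root of unity of the expansion of `h((aτ+b)/d')` -/
noncomputable def zetaC (b : ℤ) (d' : ℕ) : ℂ := cexp (2 * π * I * b / (((1 : ℕ) : ℂ) * d'))

theorem zetaC_pow (b : ℤ) (d' : ℕ) (hd' : 0 < d') : zetaC b d' ^ d' = 1 := by
  rw [zetaC, ← Complex.exp_nat_mul, Complex.exp_eq_one_iff]
  refine ⟨b, ?_⟩
  have : (d' : ℂ) ≠ 0 := by exact_mod_cast hd'.ne'
  push_cast
  field_simp

theorem zetaC_ne_zero (b : ℤ) (d' : ℕ) : zetaC b d' ≠ 0 := Complex.exp_ne_zero _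

/-- the expansion of `c · Δ((aτ+b)/d') / Δ(τ)` at level `N = d' e` -/
theorem isExp_twist_unit (N a d' e : ℕ) [NeZero N] [NeZero a] [NeZero e] (b : ℤ) (ha : 0 < a)
    (hd' : 0 < d') (hN : d' * e = N) (c : ℂ) :
    IsExp N (unitSer ℂ N a e c (zetaC b d'))
      (fun τ => c * (Δ (affineMap a d' b ha hd' τ) * (Δ τ)⁻¹)) := by
  have h1 := (isExp_discriminant.comp_affine a d' b (affineMap a d' b ha hd')
    (fun τ => coe_affineMap a d' b ha hd' τ)).change_level e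
  have h2 := isExp_discriminant_inv.change_level N
  have hl1 : 1 * d' * e = N := by rw [one_mul, hN]
  have hl2 : 1 * N = N := one_mul N
  rw [hl1] at h1
  rw [hl2] at h2
  exact (h1.mul h2).const_mul c

/-- the expansion of `c · Δ(τ) / Δ((aτ+b)/d')` at level `N = d' e` -/
theorem isExp_twist_unit_inv (N a d' e : ℕ) [NeZero N] [NeZero a] [NeZero e] (b : ℤ) (ha : 0 < a)
    (hd' : 0 < d') (hN : d' * e = N) (c : ℂ) :
    IsExp N (unitInvSer ℂ N a e c (zetaC b d'))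
      (fun τ => c * ((Δ (affineMap a d' b ha hd' τ))⁻¹ * Δ τ)) := by
  have h1 := (isExp_discriminant_inv.comp_affine a d' b (affineMap a d' b ha hd')
    (fun τ => coe_affineMap a d' b ha hd' τ)).change_level e
  have h2 := isExp_discriminant.change_level N
  have hl1 : 1 * d' * e = N := by rw [one_mul, hN]
  have hl2 : 1 * N = N := one_mul N
  rw [hl1] at h1
  rw [hl2] at h2
  exact (h1.mul h2).const_mul c

/-- **P6**: the expansion of the conjugate `u_m ∘ γ` of the unit -/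
theorem isExp_uFun_hnf (N m : ℕ) [NeZero N] [NeZero m] (γ δ : SL(2, ℤ)) (a d' e : ℕ)
    [NeZero a] [NeZero e] (b : ℤ) (ha : 0 < a)
    (hd' : 0 < d') (hN : d' * e = N) (e10 : γ 1 0 = δ 1 0 * a)
    (e11 : γ 1 1 = δ 1 0 * b + δ 1 1 * d')
    (hact : ∀ (τ ψτ : ℍ), (ψτ : ℂ) = m * ((γ • τ : ℍ) : ℂ) →
      ψτ = δ • affineMap a d' b ha hd' τ) :
    IsExp N (unitSer ℂ N a e (((d' : ℂ)⁻¹) ^ 12) (zetaC b d')) (fun τ => uFun m (γ • τ)) :=
  (isExp_twist_unit N a d' e b ha hd' hN _).congr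
    (fun τ => (uFun_smul_hnf m γ δ a d' b ha hd' e10 e11 hact τ).symm)

/-- **P6**: the expansion of the conjugate of the inverse unit -/
theorem isExp_uFun_inv_hnf (N m : ℕ) [NeZero N] [NeZero m] (γ δ : SL(2, ℤ)) (a d' e : ℕ)
    [NeZero a] [NeZero e] (b : ℤ) (ha : 0 < a)
    (hd' : 0 < d') (hN : d' * e = N) (e10 : γ 1 0 = δ 1 0 * a)
    (e11 : γ 1 1 = δ 1 0 * b + δ 1 1 * d')
    (hact : ∀ (τ ψτ : ℍ), (ψτ : ℂ) = m * ((γ • τ : ℍ) : ℂ) →
      ψτ = δ • affineMap a d' b ha hd' τ) :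
    IsExp N (unitInvSer ℂ N a e ((d' : ℂ) ^ 12) (zetaC b d')) (fun τ => (uFun m (γ • τ))⁻¹) := by
  refine (isExp_twist_unit_inv N a d' e b ha hd' hN _).congr (fun τ => ?_)
  rw [uFun_smul_hnf m γ δ a d' b ha hd' e10 e11 hact τ]
  have hd'0 : (d' : ℂ) ≠ 0 := by exact_mod_cast hd'.ne'
  have h1 : Δ τ ≠ 0 := discriminant_ne_zero τ
  have h2 : Δ (affineMap a d' b ha hd' τ) ≠ 0 := discriminant_ne_zero _
  field_simp

end Fermat.Agent.S28
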